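/-
M59 / [CHAIN-inst], cell [Act]-level for the chain (helper26).  Prefix `m59ac_`.

`Abs.lean` : pure algebra.  A FRAME on an `𝒪`-module `M` is an `A`-structure
`ψ : A →ₐ[𝒪] End_𝒪 M` (`A` a commutative `𝒪`-algebra; in use `A = 𝒪[Δ_Q]` acting through the
GALOIS diamonds) together with an `A`-basis `b : J → M`, in coordinate form
(`co : M → (J → A)`, `m = ∑ i, ψ (co m i) (b i)`).

* `m59ac_Fr` : the structure; `m59ac_Fr.exists_of_basis` : a frame from an `𝒪`-basis of the
  shape `ψ (e k) (b j)` (the output shape of main's `twc_sm_transfer_two`/`twc_sg_act`);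
* `m59ac_mat F F' f` : the matrix over `A` of an `𝒪`-linear map `f : M → M'` in two frames;
  `m59ac_mat_mulVec` (`co' (f m) = mat f *ᵥ co m` for `ψ`-semilinear `f`), `m59ac_mat_comp`,
  `m59ac_mat_one`, `m59ac_mat_add`, `m59ac_mat_smul`, `m59ac_mat_psi`;
* `m59ac_act F hcomm : T →ₐ[𝒪] Matrix J J A` : the matrix action of a commutative `𝒪`-algebra `T`
  commuting with `ψ`; `m59ac_act_mat`, `m59ac_mat_act` : equivariance of `mat f` for maps which are
  semilinear along `π : T' → T`; `m59ac_act_scalar` : an element acting as `ψ a` goes to the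
  scalar matrix `a`;
* `m59ac_aug_co`, `m59ac_aug_act` : the augmentation of the coordinates / of the action, computed
  by a normalised coinvariant map;
* `m59ac_I1` : the augmentation of `(mat f | mat g)` has a left inverse over `𝒪` as soon as
  `(f | g)` has an `𝒪`-linear retraction which respects the kernels of the coinvariant maps;
* `m59ac_I2` : right inverses of `(mat f' ; mat g')` over `A` for `(f', g')` onto;
* `m59ac_I3` : `act' x = mat f * Y1 + mat g * Y2` when `x M' ⊆ f M + g M`;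
* `m59ac_leftInv_of_map`, `m59ac_I1_lift` : a matrix with a left inverse after a local
  homomorphism has a left inverse.
-/
import Mathlib
import Fermat.Agent.TW.Def.SigmaAct

set_option autoImplicit false
set_option linter.unusedSectionVars false
set_option linter.unusedVariables false

namespace Fermat.Agent.M59

open Fermat.Agent.TW

noncomputable section

/-- **a frame**: an `A`-structure on the `𝒪`-module `M` with an `A`-basis, in coordinate form. -/
structure m59ac_Fr (𝒪 A M J : Type*) [CommRing 𝒪] [CommRing A] [Algebra 𝒪 A] [AddCommGroup M]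
    [Module 𝒪 M] [Fintype J] where
  /-- the `A`-structure -/
  ψ : A →ₐ[𝒪] Module.End 𝒪 M
  /-- the basis -/
  b : J → M
  /-- the coordinates -/
  co : M →ₗ[𝒪] (J → A)
  sum_co : ∀ m, ∑ i, ψ (co m i) (b i) = m
  co_sum : ∀ a : J → A, co (∑ i, ψ (a i) (b i)) = a

section frame

variable {𝒪 A M J : Type*} [CommRing 𝒪] [CommRing A] [Algebra 𝒪 A] [AddCommGroup M]
  [Module 𝒪 M] [Fintype J] [DecidableEq J] (F : m59ac_Fr 𝒪 A M J)

theorem m59ac_co_b (j : J) : F.co (F.b j) = Pi.single j 1 := by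
  have h := F.co_sum (Pi.single j 1)
  rw [Finset.sum_eq_single j] at h
  · rwa [Pi.single_eq_same, map_one, Module.End.one_apply] at h
  · intro i _ hne
    rw [Pi.single_eq_of_ne hne, map_zero, LinearMap.zero_apply]
  · intro h; exact absurd (Finset.mem_univ _) h

theorem m59ac_co_psi (a : A) (m : M) : F.co (F.ψ a m) = a • F.co m := by
  have h1 : F.ψ a m = ∑ i, F.ψ ((a • F.co m) i) (F.b i) := by
    conv_lhs => rw [← F.sum_co m]
    rw [map_sum]
    refine Finset.sum_congr rfl fun i _ => ?_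
    rw [Pi.smul_apply, smul_eq_mul, map_mul, Module.End.mul_apply]
  rw [h1, F.co_sum]

theorem m59ac_co_injective : Function.Injective F.co := by
  intro m m' h
  rw [← F.sum_co m, ← F.sum_co m', h]

/-- **a frame from an `𝒪`-basis of the shape `ψ (e k) (b j)`.** -/
theorem m59ac_Fr.exists_of_basis {K : Type*} [Fintype K] (ψ : A →ₐ[𝒪] Module.End 𝒪 M)
    (e : K → A) (hspanA : ∀ a : A, ∃ c : K → 𝒪, a = ∑ k, c k • e k) (b : J → M)
    (hli : LinearIndependent 𝒪 (fun kj : K × J => ψ (e kj.1) (b kj.2)))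
    (hspan : ⊤ ≤ Submodule.span 𝒪 (Set.range fun kj : K × J => ψ (e kj.1) (b kj.2))) :
    ∃ F : m59ac_Fr 𝒪 A M J, F.ψ = ψ ∧ F.b = b := by
  classical
  obtain ⟨-, -, h2, h3, -, -⟩ := twc_sg_act (T := 𝒪) ψ (fun a x m => by rw [map_smul]) e hspanA b
    hli hspan
  choose co hco using h3
  have huniq : ∀ a a' : J → A, ∑ i, ψ (a i) (b i) = ∑ i, ψ (a' i) (b i) → a = a' := by
    intro a a' h
    have h4 := h2 (a - a') (by
      simp only [Pi.sub_apply, map_sub, LinearMap.sub_apply, Finset.sum_sub_distrib]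
      rw [h, sub_self])
    exact sub_eq_zero.1 h4
  have hco' : ∀ (m : M) (a : J → A), m = ∑ i, ψ (a i) (b i) → co m = a := by
    intro m a h
    exact huniq _ _ ((hco m).symm.trans h)
  refine ⟨{ ψ := ψ
            b := b
            co := { toFun := co
                    map_add' := ?_
                    map_smul' := ?_ }
            sum_co := fun m => (hco m).symm
            co_sum := fun a => hco' _ a rfl }, rfl, rfl⟩
  · intro m m'
    apply hco'
    conv_lhs => rw [hco m, hco m']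
    rw [← Finset.sum_add_distrib]
    refine Finset.sum_congr rfl fun i _ => ?_
    rw [Pi.add_apply, map_add, LinearMap.add_apply]
  · intro c m
    apply hco'
    conv_lhs => rw [hco m]
    rw [Finset.smul_sum]
    refine Finset.sum_congr rfl fun i _ => ?_
    rw [RingHom.id_apply, Pi.smul_apply, map_smul, LinearMap.smul_apply]

end frame

/-! ### Matrices of semilinear maps -/

section mat

variable {𝒪 A : Type*} [CommRing 𝒪] [CommRing A] [Algebra 𝒪 A]
  {M M' M'' J J' J'' : Type*} [AddCommGroup M] [Module 𝒪 M] [AddCommGroup M'] [Module 𝒪 M']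
  [AddCommGroup M''] [Module 𝒪 M''] [Fintype J] [DecidableEq J] [Fintype J'] [DecidableEq J']
  [Fintype J''] [DecidableEq J'']
  (F : m59ac_Fr 𝒪 A M J) (F' : m59ac_Fr 𝒪 A M' J') (F'' : m59ac_Fr 𝒪 A M'' J'')

/-- the matrix of an `𝒪`-linear map in two frames. -/
def m59ac_mat (f : M →ₗ[𝒪] M') : Matrix J' J A :=
  Matrix.of fun i j => F'.co (f (F.b j)) i

theorem m59ac_mat_apply (f : M →ₗ[𝒪] M') (i : J') (j : J) :
    m59ac_mat F F' f i j = F'.co (f (F.b j)) i := rfl

/-- **coordinates of the image**, for a `ψ`-semilinear map. -/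
theorem m59ac_mat_mulVec (f : M →ₗ[𝒪] M') (hf : ∀ a m, f (F.ψ a m) = F'.ψ a (f m)) (m : M) :
    F'.co (f m) = (m59ac_mat F F' f).mulVec (F.co m) := by
  conv_lhs => rw [← F.sum_co m]
  rw [map_sum, map_sum]
  funext i
  rw [Finset.sum_apply, Matrix.mulVec, dotProduct]
  refine Finset.sum_congr rfl fun j _ => ?_
  rw [hf, m59ac_co_psi, Pi.smul_apply, smul_eq_mul, m59ac_mat_apply, mul_comm]

theorem m59ac_mat_comp (f : M →ₗ[𝒪] M') (g : M' →ₗ[𝒪] M'')
    (hg : ∀ a m, g (F'.ψ a m) = F''.ψ a (g m)) :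
    m59ac_mat F F'' (g ∘ₗ f) = m59ac_mat F' F'' g * m59ac_mat F F' f := by
  ext i j
  rw [m59ac_mat_apply, LinearMap.comp_apply, m59ac_mat_mulVec F' F'' g hg, Matrix.mul_apply]
  rfl

theorem m59ac_mat_one : m59ac_mat F F (LinearMap.id) = 1 := by
  ext i j
  rw [m59ac_mat_apply, LinearMap.id_apply, m59ac_co_b, Matrix.one_apply, Pi.single_apply]

theorem m59ac_mat_add (f g : M →ₗ[𝒪] M') :
    m59ac_mat F F' (f + g) = m59ac_mat F F' f + m59ac_mat F F' g := by
  ext i j
  rw [Matrix.add_apply, m59ac_mat_apply, m59ac_mat_apply, m59ac_mat_apply, LinearMap.add_apply,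
    map_add, Pi.add_apply]

theorem m59ac_mat_zero : m59ac_mat F F' (0 : M →ₗ[𝒪] M') = 0 := by
  ext i j
  rw [m59ac_mat_apply, LinearMap.zero_apply, map_zero, Matrix.zero_apply, Pi.zero_apply]

theorem m59ac_mat_smul (c : 𝒪) (f : M →ₗ[𝒪] M') :
    m59ac_mat F F' (c • f) = c • m59ac_mat F F' f := by
  ext i j
  rw [Matrix.smul_apply, m59ac_mat_apply, m59ac_mat_apply, LinearMap.smul_apply, map_smul,
    Pi.smul_apply]

/-- the matrix of `ψ a` is the scalar matrix `a`. -/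
theorem m59ac_mat_psi (a : A) : m59ac_mat F F (F.ψ a) = Matrix.scalar J a := by
  ext i j
  rw [m59ac_mat_apply, m59ac_co_psi, m59ac_co_b, Pi.smul_apply, smul_eq_mul, Matrix.scalar_apply,
    Matrix.diagonal_apply, Pi.single_apply]
  by_cases h : i = j
  · rw [if_pos h, if_pos h, mul_one]
  · rw [if_neg h, if_neg h, mul_zero]

theorem m59ac_mat_congr {f g : M →ₗ[𝒪] M'} (h : ∀ j, f (F.b j) = g (F.b j)) :
    m59ac_mat F F' f = m59ac_mat F F' g := by
  ext i j
  rw [m59ac_mat_apply, m59ac_mat_apply, h]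

end mat

/-! ### The matrix action of a commuting algebra -/

section act

variable {𝒪 A : Type*} [CommRing 𝒪] [CommRing A] [Algebra 𝒪 A]
  {M M' J J' : Type*} [AddCommGroup M] [Module 𝒪 M] [AddCommGroup M'] [Module 𝒪 M']
  [Fintype J] [DecidableEq J] [Fintype J'] [DecidableEq J']
  {T T' : Type*} [CommRing T] [Algebra 𝒪 T] [Module T M] [IsScalarTower 𝒪 T M]
  [CommRing T'] [Algebra 𝒪 T'] [Module T' M'] [IsScalarTower 𝒪 T' M']
  (F : m59ac_Fr 𝒪 A M J) (F' : m59ac_Fr 𝒪 A M' J')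
  (hcomm : ∀ (a : A) (x : T) (m : M), F.ψ a (x • m) = x • F.ψ a m)
  (hcomm' : ∀ (a : A) (x : T') (m : M'), F'.ψ a (x • m) = x • F'.ψ a m)

/-- **the matrix action** of `T` in the frame `F`. -/
def m59ac_act : T →ₐ[𝒪] Matrix J J A where
  toFun x := m59ac_mat F F ((Algebra.lsmul 𝒪 𝒪 M : T →ₐ[𝒪] Module.End 𝒪 M) x)
  map_one' := by
    rw [map_one]
    exact m59ac_mat_one F
  map_mul' x y := by
    rw [map_mul, Module.End.mul_eq_comp]
    exact m59ac_mat_comp F F F _ _ (fun a m => by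
      simp only [Algebra.lsmul_coe]
      exact (hcomm a x m).symm)
  map_zero' := by
    rw [map_zero]
    exact m59ac_mat_zero F F
  map_add' x y := by
    rw [map_add]
    exact m59ac_mat_add F F _ _
  commutes' c := by
    rw [AlgHom.commutes, Algebra.algebraMap_eq_smul_one, m59ac_mat_smul,
      Algebra.algebraMap_eq_smul_one]
    congr 1
    exact m59ac_mat_one F

theorem m59ac_act_apply (x : T) (i j : J) :
    m59ac_act F hcomm x i j = F.co (x • F.b j) i := rfl

theorem m59ac_act_mulVec (x : T) (m : M) :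
    F.co (x • m) = (m59ac_act F hcomm x).mulVec (F.co m) :=
  m59ac_mat_mulVec F F ((Algebra.lsmul 𝒪 𝒪 M : T →ₐ[𝒪] Module.End 𝒪 M) x) (fun a m => by
    simp only [Algebra.lsmul_coe]
    exact (hcomm a x m).symm) m

/-- an element of `T` acting as `ψ a` goes to the scalar matrix `a`. -/
theorem m59ac_act_scalar (x : T) (a : A) (h : ∀ m : M, x • m = F.ψ a m) :
    m59ac_act F hcomm x = Matrix.scalar J a := by
  rw [← m59ac_mat_psi F a]
  exact m59ac_mat_congr F F (fun j => h (F.b j))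

include hcomm' in
/-- a map `f : M → M'` with `x • f m = f (π x • m)`: `act' x * mat f = mat f * act (π x)`. -/
theorem m59ac_act_mat (π : T' → T) (f : M →ₗ[𝒪] M')
    (hf : ∀ a m, f (F.ψ a m) = F'.ψ a (f m))
    (hπ : ∀ (x : T') (m : M), x • f m = f (π x • m)) (x : T') :
    m59ac_act F' hcomm' x * m59ac_mat F F' f = m59ac_mat F F' f * m59ac_act F hcomm (π x) := by
  have h1 : m59ac_act F' hcomm' x * m59ac_mat F F' f =
      m59ac_mat F F' (((Algebra.lsmul 𝒪 𝒪 M' : T' →ₐ[𝒪] Module.End 𝒪 M') x) ∘ₗ f) :=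
    (m59ac_mat_comp F F' F' f _ (fun a m => by
      simp only [Algebra.lsmul_coe]
      exact (hcomm' a x m).symm)).symm
  have h2 : m59ac_mat F F' f * m59ac_act F hcomm (π x) =
      m59ac_mat F F' (f ∘ₗ ((Algebra.lsmul 𝒪 𝒪 M : T →ₐ[𝒪] Module.End 𝒪 M) (π x))) :=
    (m59ac_mat_comp F F F' _ f hf).symm
  rw [h1, h2]
  refine m59ac_mat_congr F F' (fun j => ?_)
  simp only [LinearMap.comp_apply, Algebra.lsmul_coe]
  exact hπ x (F.b j)

include hcomm in
/-- a map `f' : M' → M` with `f' (x • m) = π x • f' m`: `mat f' * act' x = act (π x) * mat f'`. -/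
theorem m59ac_mat_act (π : T' → T) (f' : M' →ₗ[𝒪] M)
    (hf' : ∀ a m, f' (F'.ψ a m) = F.ψ a (f' m))
    (hπ : ∀ (x : T') (m : M'), f' (x • m) = π x • f' m) (x : T') :
    m59ac_mat F' F f' * m59ac_act F' hcomm' x = m59ac_act F hcomm (π x) * m59ac_mat F' F f' := by
  have h1 : m59ac_mat F' F f' * m59ac_act F' hcomm' x =
      m59ac_mat F' F (f' ∘ₗ ((Algebra.lsmul 𝒪 𝒪 M' : T' →ₐ[𝒪] Module.End 𝒪 M') x)) :=
    (m59ac_mat_comp F' F' F _ f' hf').symm
  have h2 : m59ac_act F hcomm (π x) * m59ac_mat F' F f' =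
      m59ac_mat F' F (((Algebra.lsmul 𝒪 𝒪 M : T →ₐ[𝒪] Module.End 𝒪 M) (π x)) ∘ₗ f') :=
    (m59ac_mat_comp F' F F f' _ (fun a m => by
      simp only [Algebra.lsmul_coe]
      exact (hcomm a (π x) m).symm)).symm
  rw [h1, h2]
  refine m59ac_mat_congr F' F (fun j => ?_)
  simp only [LinearMap.comp_apply, Algebra.lsmul_coe]
  exact hπ x (F'.b j)

end act

/-! ### Augmentation -/

section aug

variable {𝒪 A : Type*} [CommRing 𝒪] [CommRing A] [Algebra 𝒪 A]
  {M M' J J' : Type*} [AddCommGroup M] [Module 𝒪 M] [AddCommGroup M'] [Module 𝒪 M']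
  [Fintype J] [DecidableEq J] [Fintype J'] [DecidableEq J']
  (F : m59ac_Fr 𝒪 A M J) (F' : m59ac_Fr 𝒪 A M' J') (ε : A →ₐ[𝒪] 𝒪)
  (c : M →ₗ[𝒪] (J → 𝒪)) (hcb : ∀ j, c (F.b j) = Pi.single j 1)
  (hcψ : ∀ a m, c (F.ψ a m) = ε a • c m)
  (c' : M' →ₗ[𝒪] (J' → 𝒪)) (hcb' : ∀ j, c' (F'.b j) = Pi.single j 1)
  (hcψ' : ∀ a m, c' (F'.ψ a m) = ε a • c' m)

include hcb hcψ in
/-- the augmentation of the coordinates is the normalised coinvariant map. -/
theorem m59ac_aug_co (m : M) (i : J) : ε (F.co m i) = c m i := by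
  conv_rhs => rw [← F.sum_co m]
  rw [map_sum, Finset.sum_apply, Finset.sum_eq_single i]
  · rw [hcψ, hcb, Pi.smul_apply, Pi.single_eq_same, smul_eq_mul, mul_one]
  · intro j _ hne
    rw [hcψ, hcb, Pi.smul_apply, Pi.single_eq_of_ne hne.symm, smul_zero]
  · intro h; exact absurd (Finset.mem_univ _) h

include hcb hcψ in
/-- the augmentation of the matrix action. -/
theorem m59ac_aug_act {T : Type*} [CommRing T] [Algebra 𝒪 T] [Module T M] [IsScalarTower 𝒪 T M]
    (hcomm : ∀ (a : A) (x : T) (m : M), F.ψ a (x • m) = x • F.ψ a m)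
    (j0 : T → Matrix J J 𝒪) (hcT : ∀ (x : T) (m : M), c (x • m) = (j0 x).mulVec (c m))
    (x : T) (i j : J) : ε (m59ac_act F hcomm x i j) = j0 x i j := by
  rw [m59ac_act_apply, m59ac_aug_co F ε c hcb hcψ, hcT, hcb, Matrix.mulVec_single_one]
  rfl

include hcb hcψ hcb' hcψ' in
/-- **(I1), augmented**: if `(f | g) : M × M → M'` has an `𝒪`-linear retraction `(r₁, r₂)` which
maps `ker c'` into `ker c × ker c`, the augmentation of `(mat f | mat g)` has a left inverse. -/
theorem m59ac_I1 (f g : M →ₗ[𝒪] M') (r₁ r₂ : M' →ₗ[𝒪] M)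
    (hr₁ : ∀ x y, r₁ (f x + g y) = x) (hr₂ : ∀ x y, r₂ (f x + g y) = y)
    (hk₁ : ∀ m, c' m = 0 → c (r₁ m) = 0) (hk₂ : ∀ m, c' m = 0 → c (r₂ m) = 0) :
    ∃ R₁ R₂ : Matrix J J' 𝒪,
      R₁ * (m59ac_mat F F' f).map ε = 1 ∧ R₁ * (m59ac_mat F F' g).map ε = 0 ∧
      R₂ * (m59ac_mat F F' f).map ε = 0 ∧ R₂ * (m59ac_mat F F' g).map ε = 1 := by
  -- the key computation
  have key : ∀ (r : M' →ₗ[𝒪] M) (hk : ∀ m, c' m = 0 → c (r m) = 0) (h : M →ₗ[𝒪] M'),
      (Matrix.of fun (j : J) (i : J') => c (r (F'.b i)) j) * (m59ac_mat F F' h).map ε =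
        Matrix.of fun (j j₂ : J) => c (r (h (F.b j₂))) j := by
    intro r hk h
    ext j j₂
    rw [Matrix.mul_apply, Matrix.of_apply]
    have h1 : c' (h (F.b j₂) - ∑ i, c' (h (F.b j₂)) i • F'.b i) = 0 := by
      rw [map_sub, map_sum, sub_eq_zero]
      funext k
      rw [Finset.sum_apply, Finset.sum_eq_single k]
      · rw [map_smul, hcb', Pi.smul_apply, Pi.single_eq_same, smul_eq_mul, mul_one]
      · intro i _ hne
        rw [map_smul, hcb', Pi.smul_apply, Pi.single_eq_of_ne hne.symm, smul_zero]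
      · intro h; exact absurd (Finset.mem_univ _) h
    have h2 := hk _ h1
    rw [map_sub, map_sub, sub_eq_zero] at h2
    rw [h2, map_sum, map_sum, Finset.sum_apply]
    refine Finset.sum_congr rfl fun i _ => ?_
    rw [Matrix.of_apply, Matrix.map_apply, m59ac_mat_apply,
      m59ac_aug_co F' ε c' hcb' hcψ', map_smul, map_smul, Pi.smul_apply, smul_eq_mul, mul_comm]
  refine ⟨Matrix.of fun j i => c (r₁ (F'.b i)) j, Matrix.of fun j i => c (r₂ (F'.b i)) j,
    ?_, ?_, ?_, ?_⟩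
  · rw [key r₁ hk₁ f]
    ext j j₂
    have h3 := hr₁ (F.b j₂) 0
    rw [map_zero, add_zero] at h3
    rw [Matrix.of_apply, h3, hcb, Matrix.one_apply, Pi.single_apply]
  · rw [key r₁ hk₁ g]
    ext j j₂
    have h3 := hr₁ 0 (F.b j₂)
    rw [map_zero, zero_add] at h3
    rw [Matrix.of_apply, h3, map_zero, Matrix.zero_apply, Pi.zero_apply]
  · rw [key r₂ hk₂ f]
    ext j j₂
    have h3 := hr₂ (F.b j₂) 0
    rw [map_zero, add_zero] at h3
    rw [Matrix.of_apply, h3, map_zero, Matrix.zero_apply, Pi.zero_apply]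
  · rw [key r₂ hk₂ g]
    ext j j₂
    have h3 := hr₂ 0 (F.b j₂)
    rw [map_zero, zero_add] at h3
    rw [Matrix.of_apply, h3, hcb, Matrix.one_apply, Pi.single_apply]

end aug

/-! ### (I2), (I3) -/

section I23

variable {𝒪 A : Type*} [CommRing 𝒪] [CommRing A] [Algebra 𝒪 A]
  {M M' J J' : Type*} [AddCommGroup M] [Module 𝒪 M] [AddCommGroup M'] [Module 𝒪 M']
  [Fintype J] [DecidableEq J] [Fintype J'] [DecidableEq J']
  (F : m59ac_Fr 𝒪 A M J) (F' : m59ac_Fr 𝒪 A M' J')

/-- **(I2)**: `(f', g') : M' → M × M` onto and semilinear: right inverses over `A`. -/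
theorem m59ac_I2 (f' g' : M' →ₗ[𝒪] M)
    (hf' : ∀ a m, f' (F'.ψ a m) = F.ψ a (f' m)) (hg' : ∀ a m, g' (F'.ψ a m) = F.ψ a (g' m))
    (honto : ∀ x y : M, ∃ m : M', f' m = x ∧ g' m = y) :
    ∃ V₁ V₂ : Matrix J' J A,
      m59ac_mat F' F f' * V₁ = 1 ∧ m59ac_mat F' F g' * V₁ = 0 ∧
      m59ac_mat F' F f' * V₂ = 0 ∧ m59ac_mat F' F g' * V₂ = 1 := by
  choose m₁ hm₁ using fun j : J => honto (F.b j) 0
  choose m₂ hm₂ using fun j : J => honto 0 (F.b j)
  have key : ∀ (h : M' →ₗ[𝒪] M) (hh : ∀ a m, h (F'.ψ a m) = F.ψ a (h m)) (w : J → M'),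
      m59ac_mat F' F h * (Matrix.of fun (i : J') (j : J) => F'.co (w j) i) =
        Matrix.of fun (k j : J) => F.co (h (w j)) k := by
    intro h hh w
    ext k j
    rw [Matrix.mul_apply, Matrix.of_apply, m59ac_mat_mulVec F' F h hh]
    rfl
  refine ⟨Matrix.of fun i j => F'.co (m₁ j) i, Matrix.of fun i j => F'.co (m₂ j) i, ?_, ?_, ?_, ?_⟩
  · rw [key f' hf']
    ext k j
    rw [Matrix.of_apply, (hm₁ j).1, m59ac_co_b, Matrix.one_apply, Pi.single_apply]
  · rw [key g' hg']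
    ext k j
    rw [Matrix.of_apply, (hm₁ j).2, map_zero, Matrix.zero_apply, Pi.zero_apply]
  · rw [key f' hf']
    ext k j
    rw [Matrix.of_apply, (hm₂ j).1, map_zero, Matrix.zero_apply, Pi.zero_apply]
  · rw [key g' hg']
    ext k j
    rw [Matrix.of_apply, (hm₂ j).2, m59ac_co_b, Matrix.one_apply, Pi.single_apply]

/-- **(I3)**: `x M' ⊆ f M + g M`: `act' x = mat f * Y₁ + mat g * Y₂`. -/
theorem m59ac_I3 {T' : Type*} [CommRing T'] [Algebra 𝒪 T'] [Module T' M'] [IsScalarTower 𝒪 T' M']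
    (hcomm' : ∀ (a : A) (x : T') (m : M'), F'.ψ a (x • m) = x • F'.ψ a m)
    (f g : M →ₗ[𝒪] M')
    (hf : ∀ a m, f (F.ψ a m) = F'.ψ a (f m)) (hg : ∀ a m, g (F.ψ a m) = F'.ψ a (g m))
    (x : T') (hx : ∀ m : M', ∃ y z : M, x • m = f y + g z) :
    ∃ Y₁ Y₂ : Matrix J J' A,
      m59ac_act F' hcomm' x = m59ac_mat F F' f * Y₁ + m59ac_mat F F' g * Y₂ := by
  choose y z hyz using fun j : J' => hx (F'.b j)
  refine ⟨Matrix.of fun i j => F.co (y j) i, Matrix.of fun i j => F.co (z j) i, ?_⟩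
  ext k j
  rw [m59ac_act_apply, hyz, map_add, Pi.add_apply, Matrix.add_apply, Matrix.mul_apply,
    Matrix.mul_apply, m59ac_mat_mulVec F F' f hf, m59ac_mat_mulVec F F' g hg]
  rfl

end I23

/-! ### Lifting a left inverse along a local homomorphism -/

/-- a matrix which has a left inverse after a local homomorphism has a left inverse. -/
theorem m59ac_leftInv_of_map {Λ Λ₀ : Type*} [CommRing Λ] [CommRing Λ₀] (fac : Λ →+* Λ₀)
    [IsLocalHom fac] {m n : Type*} [Fintype m] [Fintype n] [DecidableEq n]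
    (X : Matrix m n Λ) (R₀ : Matrix n m Λ) (h : (R₀ * X).map fac = 1) :
    ∃ L : Matrix n m Λ, L * X = 1 := by
  have hdet : IsUnit (R₀ * X).det := by
    apply isUnit_of_map_unit fac
    rw [RingHom.map_det, RingHom.mapMatrix_apply, h, Matrix.det_one]
    exact isUnit_one
  exact ⟨(R₀ * X)⁻¹ * R₀, by rw [Matrix.mul_assoc, Matrix.nonsing_inv_mul _ hdet]⟩

/-- **(I1) over a local ring**: left inverses of `(MA | MB)` lifted from approximate left inverses
`R₁, R₂` (exact after the local homomorphism `fac`). -/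
theorem m59ac_I1_lift {Λ Λ₀ : Type*} [CommRing Λ] [CommRing Λ₀] (fac : Λ →+* Λ₀)
    [IsLocalHom fac] {J J' : Type*} [Fintype J] [DecidableEq J] [Fintype J'] [DecidableEq J']
    (MA MB : Matrix J' J Λ) (R₁ R₂ : Matrix J J' Λ)
    (h11 : (R₁ * MA).map fac = 1) (h12 : (R₁ * MB).map fac = 0)
    (h21 : (R₂ * MA).map fac = 0) (h22 : (R₂ * MB).map fac = 1) :
    ∃ L₁ L₂ : Matrix J J' Λ, L₁ * MA = 1 ∧ L₁ * MB = 0 ∧ L₂ * MA = 0 ∧ L₂ * MB = 1 := by
  have h : ((Matrix.fromRows R₁ R₂) * (Matrix.fromCols MA MB)).map fac = 1 := by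
    rw [Matrix.fromRows_mul_fromCols, Matrix.fromBlocks_map, h11, h12, h21, h22,
      Matrix.fromBlocks_one]
  obtain ⟨L, hL⟩ := m59ac_leftInv_of_map fac _ _ h
  rw [← Matrix.fromRows_toRows L, Matrix.fromRows_mul_fromCols, ← Matrix.fromBlocks_one,
    Matrix.fromBlocks_inj] at hL
  exact ⟨L.toRows₁, L.toRows₂, hL.1, hL.2.1, hL.2.2.1, hL.2.2.2⟩

end

end Fermat.Agent.M59
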