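/-
M59 / [CHAIN-inst], cell [Act]-level for the chain (helper26).  Prefix `m59ac_`.

`Gal.lean` : the GALOIS `𝒪[Δ]`-structure of a Taylor–Wiles level and its frame.

* `m59ac_semilinear_of_gens`, `m59ac_coinv_of_gens` : semilinearity / invariance of a map for an
  `𝒪[G]`-structure can be checked on generators of `G`;
* `m59ac_psi P u hu : 𝒪[∏ ℤ/P i] →ₐ[𝒪] End_𝒪 M`, `of δ ↦ ∏ i, u i ^ δ i` (`u i ^ P i = 1` on `M`),
  `m59ac_psi_gen`, `m59ac_psi_comm`;
* `m59ac_gal_basis` : a monomial `𝒪`-basis for the Hecke diamonds is a `ψ`-translate `𝒪`-basis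
  (`twc_sm_transfer_two` of main, single-group form);
* `m59ac_IsDia L u` : `u_t ^ |Δ_t| = 1` on `L.M` and `(u_t - 1) L.M = (δ_t - 1) L.M` both ways
  (the output of `m59lg_tw_level`);
* `m59ac_level_frame` : a level with Galois diamonds has a frame over `𝒪[Δ_Q]` for the Galois
  structure, indexed by `Fin (B.d * 2 ^ |Q|)`, commuting with `T'` and normalised in the
  coinvariants `M_∅^{2^|Q|}`;
* `m59ac_cn L` : the normalised coinvariant map `L.M → (Fin (B.d * 2 ^ |Q|) → 𝒪)` and its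
  properties `m59ac_cn_b`, `m59ac_cn_psi`, `m59ac_cn_hecke`, `m59ac_cn_ker`.
-/
import Mathlib
import Fermat.Agent.TW.Def.SigmaMix
import Fermat.Agent.TW.Def.SigmaActMain
import Fermat.Agent.TW.LG.MatchCoinv
import Fermat.Agent.M59.Act.Abs

set_option autoImplicit false
set_option linter.unusedSectionVars false
set_option linter.unusedVariables false
set_option linter.style.haveILetI false

open Polynomial CuspForm IsLocalRing MonoidAlgebra

namespace Fermat.Agent.M59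

open Fermat.Agent.TW

noncomputable section

/-! ### Checking on generators -/

section gens

variable {𝒪 G M M' : Type*} [CommRing 𝒪] [CommGroup G] [AddCommGroup M] [Module 𝒪 M]
  [AddCommGroup M'] [Module 𝒪 M'] {ι : Type*} (g : ι → G)
  (hg : Submonoid.closure (Set.range g) = ⊤)
  (ψ : MonoidAlgebra 𝒪 G →ₐ[𝒪] Module.End 𝒪 M) (ψ' : MonoidAlgebra 𝒪 G →ₐ[𝒪] Module.End 𝒪 M')

include hg in
theorem m59ac_semilinear_of_gens (f : M →ₗ[𝒪] M')
    (h : ∀ i m, f (ψ (of 𝒪 G (g i)) m) = ψ' (of 𝒪 G (g i)) (f m))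
    (a : MonoidAlgebra 𝒪 G) (m : M) : f (ψ a m) = ψ' a (f m) := by
  have hof : ∀ δ : G, ∀ m : M, f (ψ (of 𝒪 G δ) m) = ψ' (of 𝒪 G δ) (f m) := by
    intro δ
    have hδ : δ ∈ Submonoid.closure (Set.range g) := by rw [hg]; exact Submonoid.mem_top δ
    refine Submonoid.closure_induction (motive := fun δ _ => ∀ m : M,
      f (ψ (of 𝒪 G δ) m) = ψ' (of 𝒪 G δ) (f m)) ?_ ?_ ?_ hδ
    · rintro _ ⟨i, rfl⟩ m
      exact h i m
    · intro m
      rw [map_one, map_one, map_one, Module.End.one_apply, Module.End.one_apply]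
    · intro δ δ' _ _ h1 h2 m
      rw [map_mul, map_mul, map_mul, Module.End.mul_apply, Module.End.mul_apply, h1, h2]
  induction a using MonoidAlgebra.induction_on generalizing m with
  | of δ => exact hof δ m
  | add a a' h1 h2 =>
    rw [map_add, map_add, LinearMap.add_apply, LinearMap.add_apply, map_add, h1, h2]
  | smul c a h1 =>
    have e1 : ψ (c • a) = c • ψ a := map_smul _ c a
    have e2 : ψ' (c • a) = c • ψ' a := map_smul _ c a
    rw [e1, e2, LinearMap.smul_apply, LinearMap.smul_apply, map_smul, h1]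

include hg in
theorem m59ac_coinv_of_gens {C : Type*} [AddCommGroup C] [Module 𝒪 C] (c : M →ₗ[𝒪] C)
    (h : ∀ i m, c (ψ (of 𝒪 G (g i)) m) = c m)
    (a : MonoidAlgebra 𝒪 G) (m : M) : c (ψ a m) = twc_am_aug 𝒪 G a • c m := by
  have hof : ∀ δ : G, ∀ m : M, c (ψ (of 𝒪 G δ) m) = c m := by
    intro δ
    have hδ : δ ∈ Submonoid.closure (Set.range g) := by rw [hg]; exact Submonoid.mem_top δ
    refine Submonoid.closure_induction (motive := fun δ _ => ∀ m : M,
      c (ψ (of 𝒪 G δ) m) = c m) ?_ ?_ ?_ hδ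
    · rintro _ ⟨i, rfl⟩ m
      exact h i m
    · intro m
      rw [map_one, map_one, Module.End.one_apply]
    · intro δ δ' _ _ h1 h2 m
      rw [map_mul, map_mul, Module.End.mul_apply, h1, h2]
  induction a using MonoidAlgebra.induction_on generalizing m with
  | of δ =>
    have e0 : twc_am_aug 𝒪 G (of 𝒪 G δ) = 1 := by
      rw [twc_am_aug, lift_of, MonoidHom.one_apply]
    rw [hof δ m, e0, one_smul]
  | add a a' h1 h2 =>
    rw [map_add, LinearMap.add_apply, map_add, h1, h2, map_add, add_smul]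
  | smul k a h1 =>
    have e1 : ψ (k • a) = k • ψ a := map_smul _ k a
    rw [e1, LinearMap.smul_apply, map_smul, h1, map_smul, smul_assoc]

end gens

/-! ### The Galois structure -/

section psi

variable {O 𝒰 M : Type*} [CommRing O] [CommRing 𝒰] [Algebra O 𝒰] [AddCommGroup M] [Module O M]
  [Module 𝒰 M] [IsScalarTower O 𝒰 M]
variable {ι : Type*} [Fintype ι] [DecidableEq ι] (P : ι → ℕ) [∀ i, NeZero (P i)]

/-- `δ ↦ ∏ i, u i ^ δ i` as a monoid homomorphism into `End_O M`. -/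
def m59ac_hom (u : ι → 𝒰) (hu : ∀ i (m : M), u i ^ P i • m = m) :
    Multiplicative (∀ i, ZMod (P i)) →* Module.End O M where
  toFun δ := (Algebra.lsmul O O M : 𝒰 →ₐ[O] Module.End O M) (twc_sm_mon P u δ)
  map_one' := by rw [twc_sm_mon_one, map_one]
  map_mul' δ δ' := by
    ext m
    simp only [Module.End.mul_apply, Algebra.lsmul_coe]
    exact twc_sm_mon_mul P u hu δ δ' m

/-- **the Galois structure** `ψ : O[∏ ℤ/P i] →ₐ[O] End_O M`. -/
def m59ac_psi (u : ι → 𝒰) (hu : ∀ i (m : M), u i ^ P i • m = m) :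
    MonoidAlgebra O (Multiplicative (∀ i, ZMod (P i))) →ₐ[O] Module.End O M :=
  MonoidAlgebra.lift O (Module.End O M) (Multiplicative (∀ i, ZMod (P i))) (m59ac_hom P u hu)

theorem m59ac_psi_of (u : ι → 𝒰) (hu : ∀ i (m : M), u i ^ P i • m = m)
    (δ : Multiplicative (∀ i, ZMod (P i))) (m : M) :
    m59ac_psi P u hu (of O _ δ) m = twc_sm_mon P u δ • m := by
  rw [m59ac_psi, MonoidAlgebra.lift_of]
  rfl

theorem m59ac_psi_gen (u : ι → 𝒰) (hu : ∀ i (m : M), u i ^ P i • m = m) (i : ι) (m : M) :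
    m59ac_psi P u hu (of O _ (twlg_gen P i)) m = u i • m := by
  rw [m59ac_psi_of, twc_sm_mon_gen P u hu]

theorem m59ac_psi_comm (u : ι → 𝒰) (hu : ∀ i (m : M), u i ^ P i • m = m)
    (a : MonoidAlgebra O (Multiplicative (∀ i, ZMod (P i)))) (t : 𝒰) (m : M) :
    m59ac_psi P u hu a (t • m) = t • m59ac_psi P u hu a m := by
  induction a using MonoidAlgebra.induction_on with
  | of δ => rw [m59ac_psi_of, m59ac_psi_of, smul_comm]
  | add a a' h1 h2 => rw [map_add, LinearMap.add_apply, LinearMap.add_apply, h1, h2, smul_add]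
  | smul k a h1 =>
    have e : m59ac_psi P u hu (k • a) = k • m59ac_psi P u hu a := map_smul _ k a
    rw [e, LinearMap.smul_apply, LinearMap.smul_apply, h1, smul_comm]

/-- **the basis**: a monomial `O`-basis for the Hecke diamonds `of (twlg_gen P i)` gives a
`ψ`-translate `O`-basis, provided `(δ_i - 1) M ⊆ (u i - 1) M`. -/
theorem m59ac_gal_basis (p : ℕ) [hp : Fact p.Prime] (n : ι → ℕ) (hP : ∀ i, P i = p ^ n i)
    [Module (MonoidAlgebra O (Multiplicative (∀ i, ZMod (P i)))) M]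
    [IsScalarTower O (MonoidAlgebra O (Multiplicative (∀ i, ZMod (P i)))) M]
    [SMulCommClass 𝒰 (MonoidAlgebra O (Multiplicative (∀ i, ZMod (P i)))) M]
    {J : Type*} [Finite J] [Module.Finite O M]
    (hpJ : (p : O) ∈ Ideal.jacobson (⊥ : Ideal O))
    (u : ι → 𝒰) (hu : ∀ i (m : M), u i ^ P i • m = m)
    (hxy : ∀ i (m : M), ∃ m',
      (of O (Multiplicative (∀ i, ZMod (P i))) (twlg_gen P i) - 1) • m = (u i - 1) • m')
    (b : J → M)
    (hli : LinearIndependent O (fun kj : (∀ i, Fin (P i)) × J =>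
      (∏ i, of O (Multiplicative (∀ i, ZMod (P i))) (twlg_gen P i) ^ (kj.1 i : ℕ)) • b kj.2))
    (hspan : ⊤ ≤ Submodule.span O (Set.range fun kj : (∀ i, Fin (P i)) × J =>
      (∏ i, of O (Multiplicative (∀ i, ZMod (P i))) (twlg_gen P i) ^ (kj.1 i : ℕ)) • b kj.2)) :
    LinearIndependent O (fun gj : Multiplicative (∀ i, ZMod (P i)) × J =>
      m59ac_psi P u hu (of O _ gj.1) (b gj.2)) ∧
    ⊤ ≤ Submodule.span O (Set.range fun gj : Multiplicative (∀ i, ZMod (P i)) × J =>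
      m59ac_psi P u hu (of O _ gj.1) (b gj.2)) := by
  classical
  obtain rfl : P = fun i => p ^ n i := funext hP
  obtain ⟨k3, k4⟩ := twc_sm_transfer_two (O := O)
    (𝒜 := MonoidAlgebra O (Multiplicative (∀ i, ZMod (p ^ n i)))) (𝒰 := 𝒰) (M := M) p hpJ
    (fun i => of O (Multiplicative (∀ i, ZMod (p ^ n i))) (twlg_gen (fun i => p ^ n i) i)) u n hu
    hxy b hli hspan
  set e : (∀ i, Fin (p ^ n i)) × J ≃ Multiplicative (∀ i, ZMod (p ^ n i)) × J :=
    Equiv.prodCongr (twlg_expEquiv (fun i => p ^ n i)) (Equiv.refl J) with he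
  have hfam : (fun kj : (∀ i, Fin (p ^ n i)) × J => (∏ i, u i ^ (kj.1 i : ℕ)) • b kj.2) =
      (fun gj : Multiplicative (∀ i, ZMod (p ^ n i)) × J =>
        m59ac_psi (fun i => p ^ n i) u hu (of O _ gj.1) (b gj.2)) ∘ e := by
    funext kj
    obtain ⟨k, j⟩ := kj
    simp only [Function.comp_apply, he, Equiv.prodCongr_apply, Prod.map_apply, Equiv.refl_apply]
    rw [m59ac_psi_of, twc_sm_mon_expEquiv]
  rw [hfam] at k3 k4
  refine ⟨(linearIndependent_equiv e).1 k3, ?_⟩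
  rwa [e.surjective.range_comp] at k4

end psi

/-! ### Levels -/

section level

variable {𝒪 : Type} [CommRing 𝒪] [IsDomain 𝒪] [IsDiscreteValuationRing 𝒪]
  [IsAdicComplete (maximalIdeal 𝒪) 𝒪]
  {N : ℕ} [NeZero N] {S : Finset ℕ} {θ : heckeAlgebra N 2 (↑S : Set ℕ) →+* ResidueField 𝒪}
  {B : twe_Base 𝒪 N S θ} {p : ℕ} {Q : Finset ℕ} [NeZero (twe_Nbal N Q ∅)]

/-- **Galois diamonds** of a level: the output of `m59lg_tw_level`. -/
def m59ac_IsDia (L : twe_Level B p Q) (u : ∀ t : ℕ, t ∈ Q → L.T') : Prop :=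
  (∀ t ht (x : L.M), u t ht ^ twe_ord p t • x = x) ∧
  (∀ t ht (x : L.M), ∃ x' : L.M, (u t ht - 1) • x = L.dia t ht x' - x') ∧
  (∀ t ht (x : L.M), ∃ x' : L.M, L.dia t ht x - x = (u t ht - 1) • x')

/-- the literal output clauses of `m59lg_tw_level` give `m59ac_IsDia`. -/
theorem m59ac_isDia_of (L : twe_Level B p Q) (u : ∀ t : ℕ, t ∈ Q → L.T')
    (h1 : ∀ t ht, u t ht ^ twe_ord p t = 1)
    (h2 : ∀ t ht (x : L.M), ∃ x' : L.M, (u t ht - 1) • x = L.dia t ht x' - x')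
    (h3 : ∀ t ht (x : L.M), ∃ x' : L.M, L.dia t ht x - x = (u t ht - 1) • x') :
    m59ac_IsDia L u :=
  ⟨fun t ht x => by rw [h1, one_smul], h2, h3⟩

/-- the normalised coinvariant map `L.M → (Fin (B.d * 2 ^ |Q|) → 𝒪)`. -/
def m59ac_cn (L : twe_Level B p Q) : L.M →ₗ[𝒪] (Fin (B.d * 2 ^ Q.card) → 𝒪) :=
  LinearMap.pi fun j => (LinearMap.proj (finProdFinEquiv.symm j).1).comp
    ((LinearMap.proj (finProdFinEquiv.symm j).2).comp L.c)

theorem m59ac_cn_apply' (L : twe_Level B p Q) (x : L.M) (j : Fin (B.d * 2 ^ Q.card)) :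
    m59ac_cn L x j = L.c x (finProdFinEquiv.symm j).2 (finProdFinEquiv.symm j).1 := rfl

theorem m59ac_cn_apply (L : twe_Level B p Q) (x : L.M) (a : Fin B.d) (i : Fin (2 ^ Q.card)) :
    m59ac_cn L x (finProdFinEquiv (a, i)) = L.c x i a := by
  rw [m59ac_cn_apply', Equiv.symm_apply_apply]

theorem m59ac_cn_eq_zero (L : twe_Level B p Q) (x : L.M) : m59ac_cn L x = 0 ↔ L.c x = 0 := by
  constructor
  · intro h
    funext i a
    rw [← m59ac_cn_apply, h]
    rfl
  · intro h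
    funext j
    obtain ⟨⟨a, i⟩, rfl⟩ := finProdFinEquiv.surjective j
    rw [m59ac_cn_apply, h]
    rfl

/-- the kernel of the coinvariant map. -/
theorem m59ac_cn_dia (L : twe_Level B p Q) (δ : twe_Delta p Q) (x : L.M) :
    L.c (of 𝒪 (twe_Delta p Q) δ • x) = L.c x := by
  have h : of 𝒪 (twe_Delta p Q) δ • x - x ∈ LinearMap.ker L.c := by
    rw [L.c_ker]
    exact Submodule.subset_span ⟨δ, x, rfl⟩
  rw [LinearMap.mem_ker, map_sub, sub_eq_zero] at h
  exact h

/-- the fixed action over `𝒪` in the normalised coordinates. -/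
def m59ac_j0 (L : twe_Level B p Q) (y : L.T') :
    Matrix (Fin (B.d * 2 ^ Q.card)) (Fin (B.d * 2 ^ Q.card)) 𝒪 :=
  Matrix.of fun j j' => if (finProdFinEquiv.symm j).2 = (finProdFinEquiv.symm j').2 then
    B.j (L.π0 y) (finProdFinEquiv.symm j).1 (finProdFinEquiv.symm j').1 else 0

theorem m59ac_j0_apply (L : twe_Level B p Q) (y : L.T') (a a' : Fin B.d)
    (i i' : Fin (2 ^ Q.card)) :
    m59ac_j0 L y (finProdFinEquiv (a, i)) (finProdFinEquiv (a', i')) =
      if i = i' then B.j (L.π0 y) a a' else 0 := by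
  rw [m59ac_j0, Matrix.of_apply, Equiv.symm_apply_apply, Equiv.symm_apply_apply]

theorem m59ac_cn_hecke (L : twe_Level B p Q) (y : L.T') (x : L.M) :
    m59ac_cn L (y • x) = (m59ac_j0 L y).mulVec (m59ac_cn L x) := by
  funext j
  obtain ⟨⟨a, i⟩, rfl⟩ := finProdFinEquiv.surjective j
  rw [m59ac_cn_apply, L.c_hecke]
  show ∑ a', B.j (L.π0 y) a a' * L.c x i a' =
    ∑ j', m59ac_j0 L y (finProdFinEquiv (a, i)) j' * m59ac_cn L x j'
  rw [← finProdFinEquiv.sum_comp, Fintype.sum_prod_type]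
  refine Finset.sum_congr rfl fun a' _ => ?_
  rw [Finset.sum_eq_single i]
  · rw [m59ac_j0_apply, if_pos rfl, m59ac_cn_apply]
  · intro i' _ hne
    rw [m59ac_j0_apply, if_neg (Ne.symm hne), zero_mul]
  · intro h; exact absurd (Finset.mem_univ _) h

/-- **the Galois frame of a level.** -/
theorem m59ac_level_frame [hp : Fact p.Prime] (hp𝒪 : (p : 𝒪) ∈ maximalIdeal 𝒪)
    (L : twe_Level B p Q) (u : ∀ t : ℕ, t ∈ Q → L.T') (hu : m59ac_IsDia L u) :
    ∃ F : m59ac_Fr 𝒪 (MonoidAlgebra 𝒪 (twe_Delta p Q)) L.M (Fin (B.d * 2 ^ Q.card)),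
      (∀ t ht (x : L.M), F.ψ (of 𝒪 (twe_Delta p Q) (twe_gen p Q t ht)) x = u t ht • x) ∧
      (∀ (a : MonoidAlgebra 𝒪 (twe_Delta p Q)) (y : L.T') (x : L.M),
        F.ψ a (y • x) = y • F.ψ a x) ∧
      (∀ j, m59ac_cn L (F.b j) = Pi.single j 1) ∧
      (∀ (a : MonoidAlgebra 𝒪 (twe_Delta p Q)) (x : L.M),
        m59ac_cn L (F.ψ a x) = twc_am_aug 𝒪 (twe_Delta p Q) a • m59ac_cn L x) := by
  classical
  obtain ⟨hu1, hu2, hu3⟩ := hu
  have hpJ : (p : 𝒪) ∈ Ideal.jacobson (⊥ : Ideal 𝒪) := by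
    rw [IsLocalRing.jacobson_eq_maximalIdeal ⊥ bot_ne_top]
    exact hp𝒪
  -- a family lifting the standard basis of the coinvariants
  choose b hb using fun j : Fin (B.d * 2 ^ Q.card) =>
    L.c_surjective (Pi.single (finProdFinEquiv.symm j).2 (Pi.single (finProdFinEquiv.symm j).1 1))
  obtain ⟨hli0, hspan0⟩ := twc_sm_std 𝒪 B.d (2 ^ Q.card)
  have hcb : (L.c ∘ b) = (fun ai : Fin B.d × Fin (2 ^ Q.card) =>
      (Pi.single ai.2 (Pi.single ai.1 1) : Fin (2 ^ Q.card) → Fin B.d → 𝒪)) ∘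
        finProdFinEquiv.symm := funext hb
  have hbli : LinearIndependent 𝒪 (L.c ∘ b) := by
    rw [hcb]
    exact hli0.comp _ finProdFinEquiv.symm.injective
  have hbspan : LinearMap.range L.c ≤ Submodule.span 𝒪 (Set.range (L.c ∘ b)) := by
    rw [hcb, finProdFinEquiv.symm.surjective.range_comp]
    exact fun _ _ => hspan0 Submodule.mem_top
  obtain ⟨hliH, hspanH⟩ := twlg_basis_of_coinv_monoidAlgebra (O := 𝒪) (M := L.M) p
    (fun t : ↥Q => twe_ord p (t : ℕ)) (fun t : ↥Q => padicValNat p ((t : ℕ) - 1))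
    (fun _ => rfl) hpJ L.c L.c_ker b hbli hbspan
  haveI : Module.Finite 𝒪 L.M := Module.Finite.trans (MonoidAlgebra 𝒪 (twe_Delta p Q)) L.M
  have hu' : ∀ (t : ↥Q) (x : L.M), u t t.2 ^ twe_ord p (t : ℕ) • x = x := fun t x => hu1 t t.2 x
  obtain ⟨hliG, hspanG⟩ := m59ac_gal_basis (O := 𝒪) (𝒰 := L.T') (M := L.M)
    (fun t : ↥Q => twe_ord p (t : ℕ)) p (fun t : ↥Q => padicValNat p ((t : ℕ) - 1))
    (fun _ => rfl) hpJ (fun t : ↥Q => u t t.2) hu'
    (fun t x => by
      obtain ⟨x', hx'⟩ := hu3 t t.2 x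
      exact ⟨x', by rw [sub_smul, one_smul]; exact hx'⟩)
    b hliH hspanH
  obtain ⟨F, hFψ, hFb⟩ := m59ac_Fr.exists_of_basis
    (m59ac_psi (O := 𝒪) (𝒰 := L.T') (M := L.M) (fun t : ↥Q => twe_ord p (t : ℕ))
      (fun t : ↥Q => u t t.2) hu') (of 𝒪 (twe_Delta p Q))
    (fun a => ⟨fun k => a.coeff k, twc_am_sum_of a⟩) b hliG hspanG
  have hgen : ∀ t ht (x : L.M), F.ψ (of 𝒪 (twe_Delta p Q) (twe_gen p Q t ht)) x = u t ht • x := by
    intro t ht x
    rw [hFψ]
    exact m59ac_psi_gen (O := 𝒪) (𝒰 := L.T') (M := L.M) (fun t : ↥Q => twe_ord p (t : ℕ))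
      (fun t : ↥Q => u t t.2) hu' ⟨t, ht⟩ x
  refine ⟨F, hgen, ?_, ?_, ?_⟩
  · intro a y x
    rw [hFψ]
    exact m59ac_psi_comm _ _ _ a y x
  · intro j
    rw [hFb]
    funext j'
    obtain ⟨⟨a, i⟩, rfl⟩ := finProdFinEquiv.surjective j'
    obtain ⟨⟨a₀, i₀⟩, rfl⟩ := finProdFinEquiv.surjective j
    rw [m59ac_cn_apply, hb]
    simp only [Equiv.symm_apply_apply, Pi.single_apply, EmbeddingLike.apply_eq_iff_eq,
      Prod.mk.injEq]
    by_cases hi : i = i₀
    · by_cases ha : a = a₀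
      · simp [hi, ha]
      · simp [hi, ha]
    · simp [hi]
  · -- the coinvariants do not see the Galois structure
    have h1 : ∀ (t : ↥Q) (x : L.M),
        m59ac_cn L (F.ψ (of 𝒪 (twe_Delta p Q) (twe_gen p Q (t : ℕ) t.2)) x) = m59ac_cn L x := by
      intro t x
      rw [hgen]
      obtain ⟨x', hx'⟩ := hu2 t t.2 x
      have h2 : L.c (u t t.2 • x) = L.c x := by
        have h3 : u (t : ℕ) t.2 • x - x = L.dia t t.2 x' - x' := by
          rw [← hx', sub_smul, one_smul]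
        have h4 : L.c (u (t : ℕ) t.2 • x - x) = 0 := by
          rw [h3, map_sub, sub_eq_zero]
          exact m59ac_cn_dia L _ x'
        rwa [map_sub, sub_eq_zero] at h4
      funext j
      obtain ⟨⟨a, i⟩, rfl⟩ := finProdFinEquiv.surjective j
      rw [m59ac_cn_apply, m59ac_cn_apply, h2]
    exact m59ac_coinv_of_gens (fun t : ↥Q => twe_gen p Q (t : ℕ) t.2) (twc_am_closure_gen p Q)
      F.ψ (m59ac_cn L) h1

end level

end

end Fermat.Agent.M59
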