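/-
M59 / [CHAIN-inst], cell [Act]-level for the chain (helper26).  Prefix `m59ac_`.

`Chain.lean` : from the module-level chain of block [E'] (`m59ep_Step`, M59/EP/Seams.lean) and
Galois diamonds at the TOP level (`m59lg_tw_level`, M59/LG/TWLevel.lean) to the MATRIX-level input
of `m59eo_abs_step` (M59/E/AbsStep.lean) over `Λ_n = 𝒪[[y_1..y_r]] ⧸ 𝔟_n`, at ALL levels of the
chain, in COMPATIBLE bases.

* `m59ac_push` : Galois diamonds `u` of the upper level of a step push down to Galois diamonds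
  `πT ∘ u` of the lower level (`α_*` is onto, diamond- and Hecke-equivariant);
* `m59ac_Pi L l St k` : the composite `T'_top → T'_k` of the `πT`'s; `m59ac_dia_all`;
* `m59ac_step_semilinear` : `α^*, β^*, α_*, β_*` are linear for the Galois structures;
* `m59ac_step_A` : the matrix identities of one step over `𝒪[Δ_Q]`;
* `m59ac_chain` : THE HEADLINE (see the statement).
-/
import Mathlib
import Fermat.Agent.M59.Act.Gal
import Fermat.Agent.M59.EP.Seams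
import Fermat.Agent.TW.Def.SigmaMixStmt
import Fermat.Agent.TW.Def.Level

set_option autoImplicit false
set_option linter.unusedSectionVars false
set_option linter.unusedVariables false
set_option linter.style.haveILetI false

open Polynomial CuspForm IsLocalRing MonoidAlgebra

namespace Fermat.Agent.M59

open Fermat.Agent.TW

noncomputable section

/-! ### One step -/

section step

variable {𝒪 : Type} [CommRing 𝒪] [IsDomain 𝒪] [IsDiscreteValuationRing 𝒪]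
  [IsAdicComplete (maximalIdeal 𝒪) 𝒪]
  {N₀ N₁ : ℕ} [NeZero N₀] [NeZero N₁] {S₀ S₁ : Finset ℕ}
  {θ₀ : heckeAlgebra N₀ 2 (↑S₀ : Set ℕ) →+* ResidueField 𝒪}
  {θ₁ : heckeAlgebra N₁ 2 (↑S₁ : Set ℕ) →+* ResidueField 𝒪}
  {B₀ : twe_Base 𝒪 N₀ S₀ θ₀} {B₁ : twe_Base 𝒪 N₁ S₁ θ₁} {p : ℕ} {Q : Finset ℕ}
  [NeZero (twe_Nbal N₀ Q ∅)] [NeZero (twe_Nbal N₁ Q ∅)]
  {L₀ : twe_Level B₀ p Q} {L₁ : twe_Level B₁ p Q} {l : ℕ}

/-- **pushing the Galois diamonds down a step.** -/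
theorem m59ac_push (St : m59ep_Step L₀ L₁ l) (u : ∀ t : ℕ, t ∈ Q → L₁.T')
    (hu : m59ac_IsDia L₁ u) : m59ac_IsDia L₀ (fun t ht => St.πT (u t ht)) := by
  obtain ⟨hu1, hu2, hu3⟩ := hu
  have hsurj : ∀ x : L₀.M, ∃ m : L₁.M, St.At m = x := fun x => by
    obtain ⟨m, hm, -⟩ := St.onto x 0
    exact ⟨m, hm⟩
  have hdia : ∀ t ht (m : L₁.M), St.At (L₁.dia t ht m) = L₀.dia t ht (St.At m) :=
    fun t ht m => St.At_dia (twe_gen p Q t ht) m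
  refine ⟨?_, ?_, ?_⟩
  · intro t ht x
    obtain ⟨m, rfl⟩ := hsurj x
    rw [← map_pow, ← St.At_hecke, hu1]
  · intro t ht x
    obtain ⟨m, rfl⟩ := hsurj x
    obtain ⟨m', hm'⟩ := hu2 t ht m
    refine ⟨St.At m', ?_⟩
    rw [← map_one St.πT, ← map_sub, ← St.At_hecke, hm', map_sub, hdia]
  · intro t ht x
    obtain ⟨m, rfl⟩ := hsurj x
    obtain ⟨m', hm'⟩ := hu3 t ht m
    refine ⟨St.At m', ?_⟩
    rw [← map_one St.πT, ← map_sub, ← St.At_hecke, ← hm', map_sub, hdia]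

variable (St : m59ep_Step L₀ L₁ l) (u : ∀ t : ℕ, t ∈ Q → L₁.T')
  (F₀ : m59ac_Fr 𝒪 (MonoidAlgebra 𝒪 (twe_Delta p Q)) L₀.M (Fin (B₀.d * 2 ^ Q.card)))
  (F₁ : m59ac_Fr 𝒪 (MonoidAlgebra 𝒪 (twe_Delta p Q)) L₁.M (Fin (B₁.d * 2 ^ Q.card)))
  (hg₀ : ∀ t ht (x : L₀.M),
    F₀.ψ (of 𝒪 (twe_Delta p Q) (twe_gen p Q t ht)) x = St.πT (u t ht) • x)
  (hg₁ : ∀ t ht (x : L₁.M), F₁.ψ (of 𝒪 (twe_Delta p Q) (twe_gen p Q t ht)) x = u t ht • x)

include hg₀ hg₁ in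
/-- the four degeneracy maps are linear for the Galois structures. -/
theorem m59ac_step_semilinear :
    (∀ a m, St.A (F₀.ψ a m) = F₁.ψ a (St.A m)) ∧ (∀ a m, St.B (F₀.ψ a m) = F₁.ψ a (St.B m)) ∧
    (∀ a m, St.At (F₁.ψ a m) = F₀.ψ a (St.At m)) ∧
    (∀ a m, St.Bt (F₁.ψ a m) = F₀.ψ a (St.Bt m)) := by
  refine ⟨?_, ?_, ?_, ?_⟩
  · refine m59ac_semilinear_of_gens (fun t : ↥Q => twe_gen p Q (t : ℕ) t.2)
      (twc_am_closure_gen p Q) F₀.ψ F₁.ψ St.A (fun t m => ?_)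
    rw [hg₀, hg₁, St.A_hecke]
  · refine m59ac_semilinear_of_gens (fun t : ↥Q => twe_gen p Q (t : ℕ) t.2)
      (twc_am_closure_gen p Q) F₀.ψ F₁.ψ St.B (fun t m => ?_)
    rw [hg₀, hg₁, St.B_hecke]
  · refine m59ac_semilinear_of_gens (fun t : ↥Q => twe_gen p Q (t : ℕ) t.2)
      (twc_am_closure_gen p Q) F₁.ψ F₀.ψ St.At (fun t m => ?_)
    rw [hg₀, hg₁, St.At_hecke]
  · refine m59ac_semilinear_of_gens (fun t : ↥Q => twe_gen p Q (t : ℕ) t.2)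
      (twc_am_closure_gen p Q) F₁.ψ F₀.ψ St.Bt (fun t m => ?_)
    rw [hg₀, hg₁, St.Bt_hecke]

variable (hc₀ : ∀ (a : MonoidAlgebra 𝒪 (twe_Delta p Q)) (y : L₀.T') (x : L₀.M),
    F₀.ψ a (y • x) = y • F₀.ψ a x)
  (hc₁ : ∀ (a : MonoidAlgebra 𝒪 (twe_Delta p Q)) (y : L₁.T') (x : L₁.M),
    F₁.ψ a (y • x) = y • F₁.ψ a x)
  (hb₀ : ∀ j, m59ac_cn L₀ (F₀.b j) = Pi.single j 1)
  (hb₁ : ∀ j, m59ac_cn L₁ (F₁.b j) = Pi.single j 1)
  (hψ₀ : ∀ (a : MonoidAlgebra 𝒪 (twe_Delta p Q)) (x : L₀.M),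
    m59ac_cn L₀ (F₀.ψ a x) = twc_am_aug 𝒪 (twe_Delta p Q) a • m59ac_cn L₀ x)
  (hψ₁ : ∀ (a : MonoidAlgebra 𝒪 (twe_Delta p Q)) (x : L₁.M),
    m59ac_cn L₁ (F₁.ψ a x) = twc_am_aug 𝒪 (twe_Delta p Q) a • m59ac_cn L₁ x)

include hg₀ hg₁ hb₀ hb₁ hψ₀ hψ₁ in
/-- **the matrix identities of one step over `𝒪[Δ_Q]`.** -/
theorem m59ac_step_A :
    -- equivariance
    (∀ x : L₁.T', m59ac_act F₁ hc₁ x * m59ac_mat F₀ F₁ St.A =
      m59ac_mat F₀ F₁ St.A * m59ac_act F₀ hc₀ (St.πT x)) ∧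
    (∀ x : L₁.T', m59ac_act F₁ hc₁ x * m59ac_mat F₀ F₁ St.B =
      m59ac_mat F₀ F₁ St.B * m59ac_act F₀ hc₀ (St.πT x)) ∧
    (∀ x : L₁.T', m59ac_mat F₁ F₀ St.At * m59ac_act F₁ hc₁ x =
      m59ac_act F₀ hc₀ (St.πT x) * m59ac_mat F₁ F₀ St.At) ∧
    (∀ x : L₁.T', m59ac_mat F₁ F₀ St.Bt * m59ac_act F₁ hc₁ x =
      m59ac_act F₀ hc₀ (St.πT x) * m59ac_mat F₁ F₀ St.Bt) ∧
    -- the four relations
    (m59ac_mat F₁ F₀ St.At * m59ac_mat F₀ F₁ St.A = m59ac_act F₀ hc₀ ((l : L₀.T') + 1)) ∧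
    (m59ac_mat F₁ F₀ St.Bt * m59ac_mat F₀ F₁ St.B = m59ac_act F₀ hc₀ ((l : L₀.T') + 1)) ∧
    (∀ (hl : l.Prime) (h1 : ¬ l ∣ twe_Nbal N₀ Q ∅) (h2 : l ∉ (↑(S₀ ∪ Q) : Set ℕ)),
      m59ac_mat F₁ F₀ St.At * m59ac_mat F₀ F₁ St.B =
        m59ac_act F₀ hc₀ (L₀.H'.π (heckeAlgebra.T hl h1 h2))) ∧
    (∀ (hl : l.Prime) (h1 : ¬ l ∣ twe_Nbal N₀ Q ∅) (h2 : l ∉ (↑(S₀ ∪ Q) : Set ℕ)),
      m59ac_mat F₁ F₀ St.Bt * m59ac_mat F₀ F₁ St.A =
        m59ac_act F₀ hc₀ (L₀.H'.π (heckeAlgebra.T hl h1 h2))) ∧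
    -- (I1), augmented
    (∃ R₁ R₂ : Matrix (Fin (B₀.d * 2 ^ Q.card)) (Fin (B₁.d * 2 ^ Q.card)) 𝒪,
      R₁ * (m59ac_mat F₀ F₁ St.A).map (twc_am_aug 𝒪 (twe_Delta p Q)) = 1 ∧
      R₁ * (m59ac_mat F₀ F₁ St.B).map (twc_am_aug 𝒪 (twe_Delta p Q)) = 0 ∧
      R₂ * (m59ac_mat F₀ F₁ St.A).map (twc_am_aug 𝒪 (twe_Delta p Q)) = 0 ∧
      R₂ * (m59ac_mat F₀ F₁ St.B).map (twc_am_aug 𝒪 (twe_Delta p Q)) = 1) ∧
    -- (I2)
    (∃ V₁ V₂ : Matrix (Fin (B₁.d * 2 ^ Q.card)) (Fin (B₀.d * 2 ^ Q.card))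
        (MonoidAlgebra 𝒪 (twe_Delta p Q)),
      m59ac_mat F₁ F₀ St.At * V₁ = 1 ∧ m59ac_mat F₁ F₀ St.Bt * V₁ = 0 ∧
      m59ac_mat F₁ F₀ St.At * V₂ = 0 ∧ m59ac_mat F₁ F₀ St.Bt * V₂ = 1) ∧
    -- (I3)
    (∀ P : ValuationSubring (AlgebraicClosure ℚ), P.LiesOverPrime l →
      ∀ σ : AlgebraicClosure ℚ ≃ₐ[ℚ] AlgebraicClosure ℚ, P.IsFrobeniusAt σ l →
      ∃ Y₁ Y₂ : Matrix (Fin (B₀.d * 2 ^ Q.card)) (Fin (B₁.d * 2 ^ Q.card))
          (MonoidAlgebra 𝒪 (twe_Delta p Q)),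
        m59ac_act F₁ hc₁ (((L₁.H'.ρ.trace σ) ^ 2 - ((l : L₁.T') + 1) ^ 2) ^
          (B₁.d * 2 ^ Q.card)) =
          m59ac_mat F₀ F₁ St.A * Y₁ + m59ac_mat F₀ F₁ St.B * Y₂) := by
  obtain ⟨sA, sB, sAt, sBt⟩ := m59ac_step_semilinear St u F₀ F₁ hg₀ hg₁
  have hl1 : ∀ m : L₀.M, ((l : 𝒪) + 1) • m = ((l : L₀.T') + 1) • m := by
    intro m
    rw [← algebraMap_smul L₀.T' ((l : 𝒪) + 1) m, map_add, map_natCast, map_one]
  refine ⟨?_, ?_, ?_, ?_, ?_, ?_, ?_, ?_, ?_, ?_, ?_⟩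
  · exact m59ac_act_mat F₀ F₁ hc₀ hc₁ St.πT St.A sA St.A_hecke
  · exact m59ac_act_mat F₀ F₁ hc₀ hc₁ St.πT St.B sB St.B_hecke
  · exact m59ac_mat_act F₀ F₁ hc₀ hc₁ St.πT St.At sAt St.At_hecke
  · exact m59ac_mat_act F₀ F₁ hc₀ hc₁ St.πT St.Bt sBt St.Bt_hecke
  · rw [← m59ac_mat_comp F₀ F₁ F₀ St.A St.At sAt]
    refine m59ac_mat_congr F₀ F₀ (fun j => ?_)
    rw [LinearMap.comp_apply, St.At_A, hl1]
    rfl
  · rw [← m59ac_mat_comp F₀ F₁ F₀ St.B St.Bt sBt]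
    refine m59ac_mat_congr F₀ F₀ (fun j => ?_)
    rw [LinearMap.comp_apply, St.Bt_B, hl1]
    rfl
  · intro hl h1 h2
    rw [← m59ac_mat_comp F₀ F₁ F₀ St.B St.At sAt]
    refine m59ac_mat_congr F₀ F₀ (fun j => ?_)
    rw [LinearMap.comp_apply, St.At_B hl h1 h2]
    rfl
  · intro hl h1 h2
    rw [← m59ac_mat_comp F₀ F₁ F₀ St.A St.Bt sBt]
    refine m59ac_mat_congr F₀ F₀ (fun j => ?_)
    rw [LinearMap.comp_apply, St.Bt_A hl h1 h2]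
    rfl
  · -- (I1)
    obtain ⟨rr, hrδ, hrAB⟩ := St.split
    have hk : ∀ m : L₁.M, m59ac_cn L₁ m = 0 →
        m59ac_cn L₀ (rr m).1 = 0 ∧ m59ac_cn L₀ (rr m).2 = 0 := by
      intro m hm
      rw [m59ac_cn_eq_zero] at hm
      rw [m59ac_cn_eq_zero, m59ac_cn_eq_zero]
      have hm' : m ∈ LinearMap.ker L₁.c := hm
      rw [L₁.c_ker] at hm'
      refine Submodule.span_induction (p := fun m _ => L₀.c (rr m).1 = 0 ∧ L₀.c (rr m).2 = 0)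
        ?_ ?_ ?_ ?_ hm'
      · rintro _ ⟨δ, m', rfl⟩
        rw [map_sub, hrδ]
        simp only [Prod.fst_sub, Prod.snd_sub, map_sub, m59ac_cn_dia, sub_self, and_self]
      · simp
      · intro x y _ _ hx hy
        rw [map_add]
        simp only [Prod.fst_add, Prod.snd_add, map_add, hx.1, hx.2, hy.1, hy.2, add_zero,
          and_self]
      · intro c x _ hx
        rw [map_smul]
        simp only [Prod.smul_fst, Prod.smul_snd, map_smul, hx.1, hx.2, smul_zero, and_self]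
    exact m59ac_I1 F₀ F₁ (twc_am_aug 𝒪 (twe_Delta p Q)) (m59ac_cn L₀) hb₀ hψ₀ (m59ac_cn L₁) hb₁ hψ₁
      St.A St.B ((LinearMap.fst 𝒪 L₀.M L₀.M).comp rr) ((LinearMap.snd 𝒪 L₀.M L₀.M).comp rr)
      (fun x y => by
        rw [LinearMap.comp_apply, hrAB]
        rfl)
      (fun x y => by
        rw [LinearMap.comp_apply, hrAB]
        rfl)
      (fun m hm => (hk m hm).1) (fun m hm => (hk m hm).2)
  · exact m59ac_I2 F₀ F₁ St.At St.Bt sAt sBt St.onto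
  · intro P hP σ hσ
    exact m59ac_I3 F₀ F₁ hc₁ St.A St.B sA sB _ (St.new P hP σ hσ)

end step

/-! ### The chain -/

section chain

variable {𝒪 : Type} [CommRing 𝒪] [IsDomain 𝒪] [IsDiscreteValuationRing 𝒪]
  [IsAdicComplete (maximalIdeal 𝒪) 𝒪] {p : ℕ} {m : ℕ}
  {N : Fin (m + 1) → ℕ} [∀ k, NeZero (N k)] {S : Fin (m + 1) → Finset ℕ}
  {θ : ∀ k, heckeAlgebra (N k) 2 (↑(S k) : Set ℕ) →+* ResidueField 𝒪}
  {B : ∀ k, twe_Base 𝒪 (N k) (S k) (θ k)} {Q : Finset ℕ} [∀ k, NeZero (twe_Nbal (N k) Q ∅)]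
  (L : ∀ k, twe_Level (B k) p Q) (l : Fin m → ℕ)
  (St : ∀ k : Fin m, m59ep_Step (L k.castSucc) (L k.succ) (l k))

/-- the composite `T'_top → T'_k` of the `πT`'s. -/
def m59ac_Pi : ∀ k, (L (Fin.last m)).T' →ₐ[𝒪] (L k).T' :=
  Fin.reverseInduction (AlgHom.id 𝒪 _) (fun k Pk => (St k).πT.comp Pk)

theorem m59ac_Pi_last : m59ac_Pi L l St (Fin.last m) = AlgHom.id 𝒪 _ :=
  Fin.reverseInduction_last

theorem m59ac_Pi_castSucc (k : Fin m) :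
    m59ac_Pi L l St k.castSucc = (St k).πT.comp (m59ac_Pi L l St k.succ) :=
  Fin.reverseInduction_castSucc k

/-- the pushed-down diamonds are Galois diamonds at every level. -/
theorem m59ac_dia_all (u : ∀ t : ℕ, t ∈ Q → (L (Fin.last m)).T')
    (hu : m59ac_IsDia (L (Fin.last m)) u) :
    ∀ k, m59ac_IsDia (L k) (fun t ht => m59ac_Pi L l St k (u t ht)) := by
  intro k
  induction k using Fin.reverseInduction with
  | last =>
    rw [m59ac_Pi_last]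
    exact hu
  | cast k ih =>
    have h := m59ac_push (St k) _ ih
    rw [m59ac_Pi_castSucc]
    exact h

end chain

/-! ### The headline -/

section main

variable {𝒪 : Type} [CommRing 𝒪] [IsDomain 𝒪] [IsDiscreteValuationRing 𝒪]
  [IsAdicComplete (maximalIdeal 𝒪) 𝒪] {p : ℕ} {m : ℕ}
  {N : Fin (m + 1) → ℕ} [∀ k, NeZero (N k)] {S : Fin (m + 1) → Finset ℕ}
  {θ : ∀ k, heckeAlgebra (N k) 2 (↑(S k) : Set ℕ) →+* ResidueField 𝒪}
  {B : ∀ k, twe_Base 𝒪 (N k) (S k) (θ k)} {Q : Finset ℕ} [∀ k, NeZero (twe_Nbal (N k) Q ∅)]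

/-- **[Act]-level for the chain.**  Levels `L k` (`k : Fin (m + 1)`), steps `St k` between
`L k.castSucc` and `L k.succ`, Galois diamonds `u` at the TOP level `L (Fin.last m)`; `qv` an
enumeration of the Taylor–Wiles set `Q`, `p ^ n ∣ |Δ_t|`.  Then over
`Λ = 𝒪[[y_1..y_r]] ⧸ ((1 + y_i)^{p^n} - 1)` there are matrix actions `act k` of `T'_k` on
`Λ^{d_k 2^r}` at every level and matrices `MA, MB` (`α^*, β^*`), `MAt, MBt` (`α_*, β_*`) of every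
step such that: the pushed-down Galois diamond `u_{qv i}` acts as the scalar `1 + y_i` at EVERY
level; `act k` reduces modulo `𝔞` to the fixed action `twc_j (B k) r ∘ π0`; the four matrices are
equivariant along `πT`; the four relations hold; (I1) `(MA | MB)` has a left inverse, (I2)
`(MAt ; MBt)` has a right inverse, (I3) `(tr ρ(Frob_l)² - (l+1)²)^e` factors through `(MA | MB)`.
This is the hypothesis list of `m59eo_abs_step` (M59/E/AbsStep.lean) with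
`al = act k.castSucc ∘ ρ_k`, `al' = act k.succ ∘ ρ_{k+1}` for any `ρ_k = πT ∘ ρ_{k+1}`. -/
theorem m59ac_chain [hp : Fact p.Prime] (hp𝒪 : (p : 𝒪) ∈ maximalIdeal 𝒪)
    (L : ∀ k, twe_Level (B k) p Q) (l : Fin m → ℕ)
    (St : ∀ k : Fin m, m59ep_Step (L k.castSucc) (L k.succ) (l k))
    (u : ∀ t : ℕ, t ∈ Q → (L (Fin.last m)).T') (hu : m59ac_IsDia (L (Fin.last m)) u)
    (r : ℕ) (qv : Fin r → ℕ) (hqv : ∀ i, qv i ∈ Q) (hinj : Function.Injective qv)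
    (hsurj : ∀ t ∈ Q, ∃ i, qv i = t) (n : ℕ) (hn : ∀ i, p ^ n ∣ twe_ord p (qv i)) :
    ∃ (act : ∀ k, (L k).T' →ₐ[𝒪] Matrix (Fin ((B k).d * 2 ^ r)) (Fin ((B k).d * 2 ^ r))
          (MvPowerSeries (Fin r) 𝒪 ⧸ twds_b 𝒪 r (p ^ n)))
      (MA MB : ∀ k : Fin m, Matrix (Fin ((B k.succ).d * 2 ^ r)) (Fin ((B k.castSucc).d * 2 ^ r))
          (MvPowerSeries (Fin r) 𝒪 ⧸ twds_b 𝒪 r (p ^ n)))
      (MAt MBt : ∀ k : Fin m, Matrix (Fin ((B k.castSucc).d * 2 ^ r))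
          (Fin ((B k.succ).d * 2 ^ r)) (MvPowerSeries (Fin r) 𝒪 ⧸ twds_b 𝒪 r (p ^ n))),
      -- (1) the Galois diamonds are scalars at every level
      (∀ k i, act k (m59ac_Pi L l St k (u (qv i) (hqv i))) =
        Matrix.scalar (Fin ((B k).d * 2 ^ r))
          (Ideal.Quotient.mk (twds_b 𝒪 r (p ^ n)) (1 + MvPowerSeries.X i))) ∧
      -- (2) reduction modulo the augmentation ideal
      (∀ k (x : (L k).T'), (act k x).map (Ideal.Quotient.factor (twds_b_le_a r (p ^ n))) =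
        twc_j (B k) r ((L k).π0 x)) ∧
      -- (3) equivariance
      (∀ (k : Fin m) (x : (L k.succ).T'),
        act k.succ x * MA k = MA k * act k.castSucc ((St k).πT x)) ∧
      (∀ (k : Fin m) (x : (L k.succ).T'),
        act k.succ x * MB k = MB k * act k.castSucc ((St k).πT x)) ∧
      (∀ (k : Fin m) (x : (L k.succ).T'),
        MAt k * act k.succ x = act k.castSucc ((St k).πT x) * MAt k) ∧
      (∀ (k : Fin m) (x : (L k.succ).T'),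
        MBt k * act k.succ x = act k.castSucc ((St k).πT x) * MBt k) ∧
      -- (4) the four relations
      (∀ k : Fin m, MAt k * MA k = act k.castSucc ((l k : (L k.castSucc).T') + 1)) ∧
      (∀ k : Fin m, MBt k * MB k = act k.castSucc ((l k : (L k.castSucc).T') + 1)) ∧
      (∀ (k : Fin m) (hl : (l k).Prime) (h1 : ¬ l k ∣ twe_Nbal (N k.castSucc) Q ∅)
        (h2 : l k ∉ (↑(S k.castSucc ∪ Q) : Set ℕ)),
        MAt k * MB k = act k.castSucc ((L k.castSucc).H'.π (heckeAlgebra.T hl h1 h2))) ∧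
      (∀ (k : Fin m) (hl : (l k).Prime) (h1 : ¬ l k ∣ twe_Nbal (N k.castSucc) Q ∅)
        (h2 : l k ∉ (↑(S k.castSucc ∪ Q) : Set ℕ)),
        MBt k * MA k = act k.castSucc ((L k.castSucc).H'.π (heckeAlgebra.T hl h1 h2))) ∧
      -- (5) (I1)
      (∀ k : Fin m, ∃ L₁ L₂ : Matrix (Fin ((B k.castSucc).d * 2 ^ r))
          (Fin ((B k.succ).d * 2 ^ r)) (MvPowerSeries (Fin r) 𝒪 ⧸ twds_b 𝒪 r (p ^ n)),
        L₁ * MA k = 1 ∧ L₁ * MB k = 0 ∧ L₂ * MA k = 0 ∧ L₂ * MB k = 1) ∧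
      -- (6) (I2)
      (∀ k : Fin m, ∃ V₁ V₂ : Matrix (Fin ((B k.succ).d * 2 ^ r))
          (Fin ((B k.castSucc).d * 2 ^ r)) (MvPowerSeries (Fin r) 𝒪 ⧸ twds_b 𝒪 r (p ^ n)),
        MAt k * V₁ = 1 ∧ MBt k * V₁ = 0 ∧ MAt k * V₂ = 0 ∧ MBt k * V₂ = 1) ∧
      -- (7) (I3)
      (∀ (k : Fin m) (P : ValuationSubring (AlgebraicClosure ℚ)), P.LiesOverPrime (l k) →
        ∀ σ : AlgebraicClosure ℚ ≃ₐ[ℚ] AlgebraicClosure ℚ, P.IsFrobeniusAt σ (l k) →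
        ∃ Y₁ Y₂ : Matrix (Fin ((B k.castSucc).d * 2 ^ r)) (Fin ((B k.succ).d * 2 ^ r))
            (MvPowerSeries (Fin r) 𝒪 ⧸ twds_b 𝒪 r (p ^ n)),
          act k.succ ((((L k.succ).H'.ρ.trace σ) ^ 2 - ((l k : (L k.succ).T') + 1) ^ 2) ^
            ((B k.succ).d * 2 ^ Q.card)) = MA k * Y₁ + MB k * Y₂) := by
  classical
  obtain rfl : Q.card = r := twc_sm_card_of_enum qv hqv hinj hsurj
  have hdia := m59ac_dia_all L l St u hu
  choose F hFg hFc hFb hFψ using fun k => m59ac_level_frame hp𝒪 (L k) _ (hdia k)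
  -- the local ring `Λ` and the local homomorphism `Λ → S ⧸ 𝔞`
  have h𝔞 : twds_a 𝒪 Q.card ≠ ⊤ := (twds_a_isPrime (O := 𝒪) (r := Q.card)).ne_top
  have h𝔟 : twds_b 𝒪 Q.card (p ^ n) ≠ ⊤ := fun h =>
    h𝔞 (top_le_iff.1 (h ▸ twds_b_le_a (O := 𝒪) Q.card (p ^ n)))
  haveI : IsLocalRing (MvPowerSeries (Fin Q.card) 𝒪 ⧸ twds_b 𝒪 Q.card (p ^ n)) :=
    twc_lv_B_isLocalRing h𝔟
  haveI : Nontrivial (MvPowerSeries (Fin Q.card) 𝒪 ⧸ twds_a 𝒪 Q.card) :=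
    Ideal.Quotient.nontrivial_iff.mpr h𝔞
  haveI : IsLocalHom (Ideal.Quotient.factor (twds_b_le_a (O := 𝒪) Q.card (p ^ n))) :=
    IsLocalHom.of_surjective _ (Ideal.Quotient.factor_surjective _)
  -- the steps over `𝒪[Δ_Q]`
  have hstep := fun k : Fin m => m59ac_step_A (St k)
    (fun t ht => m59ac_Pi L l St k.succ (u t ht)) (F k.castSucc) (F k.succ)
    (fun t ht x => by
      rw [hFg k.castSucc t ht x, m59ac_Pi_castSucc]
      rfl)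
    (hFg k.succ) (hFc k.castSucc) (hFc k.succ) (hFb k.castSucc) (hFb k.succ) (hFψ k.castSucc)
    (hFψ k.succ)
  -- the two compatibilities of the evaluation with the augmentation
  have hfe : ∀ z : MonoidAlgebra 𝒪 (twe_Delta p Q),
      Ideal.Quotient.factor (twds_b_le_a (O := 𝒪) Q.card (p ^ n))
        (twc_am_evm 𝒪 p Q qv hqv n hn z) =
      algebraMap 𝒪 (MvPowerSeries (Fin Q.card) 𝒪 ⧸ twds_a 𝒪 Q.card)
        (twc_am_aug 𝒪 (twe_Delta p Q) z) := twc_am_evm_factor 𝒪 p Q qv hqv n hn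
  have hfa : ∀ c : 𝒪, Ideal.Quotient.factor (twds_b_le_a (O := 𝒪) Q.card (p ^ n))
      (algebraMap 𝒪 (MvPowerSeries (Fin Q.card) 𝒪 ⧸ twds_b 𝒪 Q.card (p ^ n)) c) =
      algebraMap 𝒪 (MvPowerSeries (Fin Q.card) 𝒪 ⧸ twds_a 𝒪 Q.card) c := fun c => rfl
  have key : ∀ {J₀ J₁ : Type} [Fintype J₀] [Fintype J₁] (R : Matrix J₀ J₁ 𝒪)
      (X : Matrix J₁ J₀ (MonoidAlgebra 𝒪 (twe_Delta p Q))),
      ((R.map (algebraMap 𝒪 (MvPowerSeries (Fin Q.card) 𝒪 ⧸ twds_b 𝒪 Q.card (p ^ n)))) *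
        (X.map (twc_am_evm 𝒪 p Q qv hqv n hn))).map
          (Ideal.Quotient.factor (twds_b_le_a (O := 𝒪) Q.card (p ^ n))) =
      (R * X.map (twc_am_aug 𝒪 (twe_Delta p Q))).map
        (algebraMap 𝒪 (MvPowerSeries (Fin Q.card) 𝒪 ⧸ twds_a 𝒪 Q.card)) := by
    intro J₀ J₁ _ _ R X
    have e1 : (⇑(Ideal.Quotient.factor (twds_b_le_a (O := 𝒪) Q.card (p ^ n))) ∘
        ⇑(algebraMap 𝒪 (MvPowerSeries (Fin Q.card) 𝒪 ⧸ twds_b 𝒪 Q.card (p ^ n)))) =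
        ⇑(algebraMap 𝒪 (MvPowerSeries (Fin Q.card) 𝒪 ⧸ twds_a 𝒪 Q.card)) := funext hfa
    have e2 : (⇑(Ideal.Quotient.factor (twds_b_le_a (O := 𝒪) Q.card (p ^ n))) ∘
        ⇑(twc_am_evm 𝒪 p Q qv hqv n hn)) =
        ⇑(algebraMap 𝒪 (MvPowerSeries (Fin Q.card) 𝒪 ⧸ twds_a 𝒪 Q.card)) ∘
          ⇑(twc_am_aug 𝒪 (twe_Delta p Q)) := funext hfe
    rw [Matrix.map_mul, Matrix.map_mul, Matrix.map_map, Matrix.map_map, Matrix.map_map, e1, e2]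
  refine ⟨fun k => (twc_am_evm 𝒪 p Q qv hqv n hn).mapMatrix.comp (m59ac_act (F k) (hFc k)),
    fun k => (m59ac_mat (F k.castSucc) (F k.succ) (St k).A).map (twc_am_evm 𝒪 p Q qv hqv n hn),
    fun k => (m59ac_mat (F k.castSucc) (F k.succ) (St k).B).map (twc_am_evm 𝒪 p Q qv hqv n hn),
    fun k => (m59ac_mat (F k.succ) (F k.castSucc) (St k).At).map (twc_am_evm 𝒪 p Q qv hqv n hn),
    fun k => (m59ac_mat (F k.succ) (F k.castSucc) (St k).Bt).map (twc_am_evm 𝒪 p Q qv hqv n hn),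
    ?_, ?_, ?_, ?_, ?_, ?_, ?_, ?_, ?_, ?_, ?_, ?_, ?_⟩
  · -- (1)
    intro k i
    rw [AlgHom.comp_apply, m59ac_act_scalar (F k) (hFc k) _
      (of 𝒪 (twe_Delta p Q) (twe_gen p Q (qv i) (hqv i))) (fun x => (hFg k _ _ x).symm),
      AlgHom.mapMatrix_apply, Matrix.scalar_apply, Matrix.diagonal_map (map_zero _),
      Matrix.scalar_apply]
    congr 1
    funext _
    exact twc_am_evm_gen 𝒪 p Q qv hqv n hn hinj i
  · -- (2)
    intro k x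
    ext j j'
    obtain ⟨⟨a, i⟩, rfl⟩ := finProdFinEquiv.surjective j
    obtain ⟨⟨a', i'⟩, rfl⟩ := finProdFinEquiv.surjective j'
    rw [twc_j_apply, Matrix.map_apply, AlgHom.comp_apply, AlgHom.mapMatrix_apply,
      Matrix.map_apply, hfe,
      m59ac_aug_act (F k) (twc_am_aug 𝒪 (twe_Delta p Q)) (m59ac_cn (L k)) (hFb k) (hFψ k) (hFc k)
        (m59ac_j0 (L k)) (m59ac_cn_hecke (L k)), m59ac_j0_apply]
    split_ifs
    · rfl
    · rw [map_zero]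
  · -- (3)
    intro k x
    have h := congrArg (fun M => M.map (twc_am_evm 𝒪 p Q qv hqv n hn)) ((hstep k).1 x)
    simp only [Matrix.map_mul] at h
    exact h
  · intro k x
    have h := congrArg (fun M => M.map (twc_am_evm 𝒪 p Q qv hqv n hn)) ((hstep k).2.1 x)
    simp only [Matrix.map_mul] at h
    exact h
  · intro k x
    have h := congrArg (fun M => M.map (twc_am_evm 𝒪 p Q qv hqv n hn)) ((hstep k).2.2.1 x)
    simp only [Matrix.map_mul] at h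
    exact h
  · intro k x
    have h := congrArg (fun M => M.map (twc_am_evm 𝒪 p Q qv hqv n hn)) ((hstep k).2.2.2.1 x)
    simp only [Matrix.map_mul] at h
    exact h
  · -- (4)
    intro k
    have h := congrArg (fun M => M.map (twc_am_evm 𝒪 p Q qv hqv n hn)) (hstep k).2.2.2.2.1
    simp only [Matrix.map_mul] at h
    exact h
  · intro k
    have h := congrArg (fun M => M.map (twc_am_evm 𝒪 p Q qv hqv n hn)) (hstep k).2.2.2.2.2.1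
    simp only [Matrix.map_mul] at h
    exact h
  · intro k hl h1 h2
    have h := congrArg (fun M => M.map (twc_am_evm 𝒪 p Q qv hqv n hn))
      ((hstep k).2.2.2.2.2.2.1 hl h1 h2)
    simp only [Matrix.map_mul] at h
    exact h
  · intro k hl h1 h2
    have h := congrArg (fun M => M.map (twc_am_evm 𝒪 p Q qv hqv n hn))
      ((hstep k).2.2.2.2.2.2.2.1 hl h1 h2)
    simp only [Matrix.map_mul] at h
    exact h
  · -- (5) (I1)
    intro k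
    obtain ⟨R₁, R₂, h11, h12, h21, h22⟩ := (hstep k).2.2.2.2.2.2.2.2.1
    refine m59ac_I1_lift (Ideal.Quotient.factor (twds_b_le_a (O := 𝒪) Q.card (p ^ n))) _ _
      (R₁.map (algebraMap 𝒪 _)) (R₂.map (algebraMap 𝒪 _)) ?_ ?_ ?_ ?_
    · rw [key, h11, Matrix.map_one _ (map_zero _) (map_one _)]
    · rw [key, h12, Matrix.map_zero _ (map_zero _)]
    · rw [key, h21, Matrix.map_zero _ (map_zero _)]
    · rw [key, h22, Matrix.map_one _ (map_zero _) (map_one _)]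
  · -- (6) (I2)
    intro k
    obtain ⟨V₁, V₂, h11, h12, h21, h22⟩ := (hstep k).2.2.2.2.2.2.2.2.2.1
    refine ⟨V₁.map (twc_am_evm 𝒪 p Q qv hqv n hn), V₂.map (twc_am_evm 𝒪 p Q qv hqv n hn),
      ?_, ?_, ?_, ?_⟩
    · rw [← Matrix.map_mul, h11, Matrix.map_one _ (map_zero _) (map_one _)]
    · rw [← Matrix.map_mul, h12, Matrix.map_zero _ (map_zero _)]
    · rw [← Matrix.map_mul, h21, Matrix.map_zero _ (map_zero _)]
    · rw [← Matrix.map_mul, h22, Matrix.map_one _ (map_zero _) (map_one _)]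
  · -- (7) (I3)
    intro k P hP σ hσ
    obtain ⟨Y₁, Y₂, hY⟩ := (hstep k).2.2.2.2.2.2.2.2.2.2 P hP σ hσ
    refine ⟨Y₁.map (twc_am_evm 𝒪 p Q qv hqv n hn), Y₂.map (twc_am_evm 𝒪 p Q qv hqv n hn), ?_⟩
    rw [AlgHom.comp_apply, hY, AlgHom.mapMatrix_apply, Matrix.map_add _ (map_add _),
      Matrix.map_mul, Matrix.map_mul]

end main

end

end Fermat.Agent.M59
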