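/-
S59 / block [Act] (helper26).  Prefix `m59ac_`.  Cell [CI-TR] (helper25, finding #5433 (2)).

TRACE COMPATIBILITY ALONG `πT`.  For a step `St : m59ep_Step L₀ L₁ l` the ring map
`St.πT : T'₁ → T'₀` matches the Hecke operators at the common good primes (`πT_T`); by Chebotarev +
rigidity (main's `twc_fr_isEquiv_map`, TW/Def/Frames.lean) the push-forward of the representation of
the upper level is the representation of the lower level, hence

* `m59ac_trace_step` : `St.πT (tr ρ₁ σ) = tr ρ₀ σ` for ALL `σ`;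
* `m59ac_trace_Pi`   : `m59ac_Pi L l St k (tr ρ_top σ) = tr ρ_k σ` along the chain;
* `m59ac_trace_Pi_frob` : at a Frobenius element of a prime `q` good for the level `k`:
  `m59ac_Pi L l St k (tr ρ_top σ) = (L k).H'.π (T_q)`;
* `m59ac_det_step`, `m59ac_det_Pi` : the same for the determinants;
* `m59ac_Pi_surjective`, `m59ac_Pi_isEquiv` : `Π_k` is onto, and the push-forward along `Π_k` of a
  framing of `ρ_top` is a framing of `ρ_k` (rigidity along the chain).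
-/
import Mathlib
import Fermat.Agent.M59.Act.Chain
import Fermat.Agent.TW.Def.Frames

set_option autoImplicit false
set_option linter.unusedSectionVars false
set_option linter.unusedVariables false
set_option linter.style.haveILetI false

open Polynomial CuspForm IsLocalRing

namespace Fermat.Agent.M59

open Fermat.Agent.TW Fermat.Agent.S53

noncomputable section

local notation "GQ" => (AlgebraicClosure ℚ ≃ₐ[ℚ] AlgebraicClosure ℚ)

/-! ### traces of equivalent representations -/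

section equiv

variable {A : Type} [CommRing A] [IsLocalRing A]

/-- the trace of a representation is the trace of any framing of it. -/
theorem m59ac_trace_framed (ρ : GaloisRepAdic A) (r : FramedRep A)
    (hr : ρ.IsEquiv r.toGaloisRepAdic) (σ : GQ) : ρ.trace σ = (r σ).trace := by
  obtain ⟨e⟩ := hr
  have hconj : e.toLinearEquiv.conj (ρ.ρ σ) = r.toGaloisRepAdic.ρ σ := by
    ext1 x
    rw [LinearEquiv.conj_apply, LinearMap.comp_apply, LinearMap.comp_apply, LinearEquiv.coe_coe,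
      LinearEquiv.coe_coe, e.map_apply, LinearEquiv.apply_symm_apply]
  have h1 : LinearMap.trace A _ (r.toGaloisRepAdic.ρ σ) = (r σ).trace :=
    Matrix.trace_toLin'_eq (r σ)
  show LinearMap.trace A ρ.V (ρ.ρ σ) = (r σ).trace
  rw [← h1, ← hconj, LinearMap.trace_conj']

/-- the determinant of a representation is the determinant of any framing of it. -/
theorem m59ac_det_framed (ρ : GaloisRepAdic A) (r : FramedRep A)
    (hr : ρ.IsEquiv r.toGaloisRepAdic) (σ : GQ) : LinearMap.det (ρ.ρ σ) = (r σ).det := by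
  obtain ⟨e⟩ := hr
  have hconj : e.toLinearEquiv.conj (ρ.ρ σ) = r.toGaloisRepAdic.ρ σ := by
    ext1 x
    rw [LinearEquiv.conj_apply, LinearMap.comp_apply, LinearMap.comp_apply, LinearEquiv.coe_coe,
      LinearEquiv.coe_coe, e.map_apply, LinearEquiv.apply_symm_apply]
  have h1 : LinearMap.det (r.toGaloisRepAdic.ρ σ) = (r σ).det :=
    LinearMap.det_toLin' (r σ)
  rw [← h1, ← hconj]
  exact (LinearMap.det_conj (ρ.ρ σ) e.toLinearEquiv).symm

end equiv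

/-! ### one step -/

section step

variable {𝒪 : Type} [CommRing 𝒪] [IsDomain 𝒪] [IsDiscreteValuationRing 𝒪]
  [IsAdicComplete (maximalIdeal 𝒪) 𝒪]
  {N₀ N₁ : ℕ} [NeZero N₀] [NeZero N₁] {S₀ S₁ : Finset ℕ}
  {θ₀ : heckeAlgebra N₀ 2 (↑S₀ : Set ℕ) →+* ResidueField 𝒪}
  {θ₁ : heckeAlgebra N₁ 2 (↑S₁ : Set ℕ) →+* ResidueField 𝒪}
  {B₀ : twe_Base 𝒪 N₀ S₀ θ₀} {B₁ : twe_Base 𝒪 N₁ S₁ θ₁} {p : ℕ} {Q : Finset ℕ}
  [NeZero (twe_Nbal N₀ Q ∅)] [NeZero (twe_Nbal N₁ Q ∅)]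
  {L₀ : twe_Level B₀ p Q} {L₁ : twe_Level B₁ p Q} {l : ℕ}

/-- `πT` matches the Hecke operators outside `S₁ ∪ {ℓ ∣ N₁ ∏ t²}`. -/
theorem m59ac_match_step (St : m59ep_Step L₀ L₁ l) :
    twc_fr_Match L₁.H' L₀.H' St.πT (S₁ ∪ (twe_Nbal N₁ Q ∅).primeFactors) := by
  classical
  intro ℓ hℓ h2N h2S hℓS
  have h1N : ¬ ℓ ∣ twe_Nbal N₁ Q ∅ := fun h' =>
    hℓS (Finset.mem_union_right _ (Nat.mem_primeFactors.2 ⟨hℓ, h', NeZero.ne _⟩))
  have h1S : ℓ ∉ (↑(S₁ ∪ Q) : Set ℕ) := by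
    intro h'
    rcases Finset.mem_union.1 (Finset.mem_coe.1 h') with h'' | h''
    · exact hℓS (Finset.mem_union_left _ h'')
    · exact h2S (Finset.mem_coe.2 (Finset.mem_union_right _ h''))
  exact ⟨h1N, h1S, St.πT_T ℓ hℓ h1N h1S h2N h2S⟩

theorem m59ac_piT_surjective (hNS₀ : ∀ ℓ : ℕ, ℓ.Prime → ℓ ∣ twe_Nbal N₀ Q ∅ → ℓ ∈ S₀ ∪ Q)
    (St : m59ep_Step L₀ L₁ l) : Function.Surjective St.πT :=
  twc_fr_match_surjective hNS₀ (m59ac_match_step St)

/-- a framing of the upper level pushes forward to a framing of the lower level. -/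
theorem m59ac_step_isEquiv (hNS₀ : ∀ ℓ : ℕ, ℓ.Prime → ℓ ∣ twe_Nbal N₀ Q ∅ → ℓ ∈ S₀ ∪ Q)
    (St : m59ep_Step L₀ L₁ l) (hloc : IsLocalHom (St.πT : L₁.T' →+* L₀.T'))
    (r₁ : FramedRep L₁.T') (h₁ : L₁.H'.ρ.IsEquiv r₁.toGaloisRepAdic) :
    L₀.H'.ρ.IsEquiv (r₁.map (St.πT : L₁.T' →+* L₀.T') hloc).toGaloisRepAdic :=
  twc_fr_isEquiv_map hNS₀ (m59ac_match_step St) hloc r₁ h₁

/-- **[CI-TR], one step**: `πT (tr ρ₁ σ) = tr ρ₀ σ` for every `σ`. -/
theorem m59ac_trace_step (hNS₀ : ∀ ℓ : ℕ, ℓ.Prime → ℓ ∣ twe_Nbal N₀ Q ∅ → ℓ ∈ S₀ ∪ Q)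
    (St : m59ep_Step L₀ L₁ l) (σ : GQ) :
    St.πT (L₁.H'.ρ.trace σ) = L₀.H'.ρ.trace σ := by
  have hloc : IsLocalHom (St.πT : L₁.T' →+* L₀.T') :=
    IsLocalHom.of_surjective _ (m59ac_piT_surjective hNS₀ St)
  obtain ⟨r₁, h₁⟩ := exists_framedRep L₁.H'.ρ
  have h₀ := m59ac_step_isEquiv hNS₀ St hloc r₁ h₁
  rw [m59ac_trace_framed _ r₁ h₁ σ, m59ac_trace_framed _ _ h₀ σ, FramedRep.map_apply]
  show (St.πT : L₁.T' →+* L₀.T') (r₁ σ).trace = ((r₁ σ).map (St.πT : L₁.T' →+* L₀.T')).trace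
  rw [Matrix.trace, Matrix.trace, map_sum]
  rfl

/-- the determinants along one step. -/
theorem m59ac_det_step (hNS₀ : ∀ ℓ : ℕ, ℓ.Prime → ℓ ∣ twe_Nbal N₀ Q ∅ → ℓ ∈ S₀ ∪ Q)
    (St : m59ep_Step L₀ L₁ l) (σ : GQ) :
    St.πT (LinearMap.det (L₁.H'.ρ.ρ σ)) = LinearMap.det (L₀.H'.ρ.ρ σ) := by
  have hloc : IsLocalHom (St.πT : L₁.T' →+* L₀.T') :=
    IsLocalHom.of_surjective _ (m59ac_piT_surjective hNS₀ St)
  obtain ⟨r₁, h₁⟩ := exists_framedRep L₁.H'.ρ
  have h₀ := m59ac_step_isEquiv hNS₀ St hloc r₁ h₁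
  rw [m59ac_det_framed _ r₁ h₁ σ, m59ac_det_framed _ _ h₀ σ, FramedRep.map_apply]
  show (St.πT : L₁.T' →+* L₀.T') (r₁ σ).det = ((r₁ σ).map (St.πT : L₁.T' →+* L₀.T')).det
  rw [RingHom.map_det]
  rfl

end step

/-! ### the chain -/

section chain

variable {𝒪 : Type} [CommRing 𝒪] [IsDomain 𝒪] [IsDiscreteValuationRing 𝒪]
  [IsAdicComplete (maximalIdeal 𝒪) 𝒪] {p : ℕ} {m : ℕ}
  {N : Fin (m + 1) → ℕ} [∀ k, NeZero (N k)] {S : Fin (m + 1) → Finset ℕ}
  {θ : ∀ k, heckeAlgebra (N k) 2 (↑(S k) : Set ℕ) →+* ResidueField 𝒪}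
  {B : ∀ k, twe_Base 𝒪 (N k) (S k) (θ k)} {Q : Finset ℕ} [∀ k, NeZero (twe_Nbal (N k) Q ∅)]
  (L : ∀ k, twe_Level (B k) p Q) (l : Fin m → ℕ)
  (St : ∀ k : Fin m, m59ep_Step (L k.castSucc) (L k.succ) (l k))

/-- **[CI-TR]**: `Π_k (tr ρ_top σ) = tr ρ_k σ` for every level `k` and every `σ`. -/
theorem m59ac_trace_Pi
    (hNS : ∀ k, ∀ ℓ : ℕ, ℓ.Prime → ℓ ∣ twe_Nbal (N k) Q ∅ → ℓ ∈ S k ∪ Q) (k : Fin (m + 1))
    (σ : GQ) :
    m59ac_Pi L l St k ((L (Fin.last m)).H'.ρ.trace σ) = (L k).H'.ρ.trace σ := by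
  induction k using Fin.reverseInduction with
  | last =>
    rw [m59ac_Pi_last]
    rfl
  | cast k ih =>
    rw [m59ac_Pi_castSucc, AlgHom.comp_apply, ih]
    exact m59ac_trace_step (hNS k.castSucc) (St k) σ

/-- the determinants along the chain. -/
theorem m59ac_det_Pi
    (hNS : ∀ k, ∀ ℓ : ℕ, ℓ.Prime → ℓ ∣ twe_Nbal (N k) Q ∅ → ℓ ∈ S k ∪ Q) (k : Fin (m + 1))
    (σ : GQ) :
    m59ac_Pi L l St k (LinearMap.det ((L (Fin.last m)).H'.ρ.ρ σ)) =
      LinearMap.det ((L k).H'.ρ.ρ σ) := by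
  induction k using Fin.reverseInduction with
  | last =>
    rw [m59ac_Pi_last]
    rfl
  | cast k ih =>
    rw [m59ac_Pi_castSucc, AlgHom.comp_apply, ih]
    exact m59ac_det_step (hNS k.castSucc) (St k) σ

/-- the trace of a Frobenius element at a good prime is the Hecke operator. -/
theorem m59ac_trace_frob {N₀ : ℕ} [NeZero N₀] {S₀ : Finset ℕ}
    {θ₀ : heckeAlgebra N₀ 2 (↑S₀ : Set ℕ) →+* ResidueField 𝒪}
    {T : Type} [CommRing T] [IsLocalRing T] [IsNoetherianRing T]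
    [IsAdicComplete (maximalIdeal T) T] [Algebra 𝒪 T] [IsLocalHom (algebraMap 𝒪 T)]
    [Module.Finite 𝒪 T] [Module.Free 𝒪 T]
    (H : HeckeGaloisRepDatum N₀ (↑S₀ : Set ℕ) 𝒪 θ₀ T)
    (q : ℕ) (hq : q.Prime) (hqN : ¬ q ∣ N₀) (hqS : q ∉ (↑S₀ : Set ℕ))
    (A : ValuationSubring (AlgebraicClosure ℚ)) (hA : A.LiesOverPrime q) (τ : GQ)
    (hτ : A.IsFrobeniusAt τ q) :
    H.ρ.trace τ = H.π (heckeAlgebra.T hq hqN hqS) := by
  obtain ⟨r, hr⟩ := exists_framedRep H.ρ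
  rw [m59ac_trace_framed _ r hr τ]
  exact twc_hp_trace_frob H r hr q hq hqN hqS A hA τ hτ

/-- **[CI-TR] at a Frobenius element**: for a prime `q` good for the level `k` and a Frobenius
element `τ` at `q`: `Π_k (tr ρ_top τ) = T_q` in `T'_k`. -/
theorem m59ac_trace_Pi_frob
    (hNS : ∀ k, ∀ ℓ : ℕ, ℓ.Prime → ℓ ∣ twe_Nbal (N k) Q ∅ → ℓ ∈ S k ∪ Q) (k : Fin (m + 1))
    (q : ℕ) (hq : q.Prime) (hqN : ¬ q ∣ twe_Nbal (N k) Q ∅) (hqS : q ∉ (↑(S k ∪ Q) : Set ℕ))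
    (A : ValuationSubring (AlgebraicClosure ℚ)) (hA : A.LiesOverPrime q) (τ : GQ)
    (hτ : A.IsFrobeniusAt τ q) :
    m59ac_Pi L l St k ((L (Fin.last m)).H'.ρ.trace τ) =
      (L k).H'.π (heckeAlgebra.T hq hqN hqS) := by
  rw [m59ac_trace_Pi L l St hNS k τ]
  exact m59ac_trace_frob (L k).H' q hq hqN hqS A hA τ hτ

/-- `Π_k : T'_top → T'_k` is onto. -/
theorem m59ac_Pi_surjective
    (hNS : ∀ k, ∀ ℓ : ℕ, ℓ.Prime → ℓ ∣ twe_Nbal (N k) Q ∅ → ℓ ∈ S k ∪ Q) (k : Fin (m + 1)) :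
    Function.Surjective (m59ac_Pi L l St k) := by
  induction k using Fin.reverseInduction with
  | last =>
    rw [m59ac_Pi_last]
    exact Function.surjective_id
  | cast k ih =>
    rw [m59ac_Pi_castSucc]
    exact (m59ac_piT_surjective (hNS k.castSucc) (St k)).comp ih

/-- **rigidity along the chain**: the push-forward along `Π_k` of a framing of the representation
of the top level is a framing of the representation of the level `k`. -/
theorem m59ac_Pi_isEquiv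
    (hNS : ∀ k, ∀ ℓ : ℕ, ℓ.Prime → ℓ ∣ twe_Nbal (N k) Q ∅ → ℓ ∈ S k ∪ Q) (k : Fin (m + 1))
    (hloc : IsLocalHom (m59ac_Pi L l St k : (L (Fin.last m)).T' →+* (L k).T'))
    (r : FramedRep (L (Fin.last m)).T') (h : (L (Fin.last m)).H'.ρ.IsEquiv r.toGaloisRepAdic) :
    (L k).H'.ρ.IsEquiv
      (r.map (m59ac_Pi L l St k : (L (Fin.last m)).T' →+* (L k).T') hloc).toGaloisRepAdic := by
  induction k using Fin.reverseInduction with
  | last =>
    have e : r.map (m59ac_Pi L l St (Fin.last m) : (L (Fin.last m)).T' →+* (L (Fin.last m)).T')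
        hloc = r := by
      apply FramedRep.ext
      intro σ
      rw [FramedRep.map_apply, m59ac_Pi_last]
      ext i j
      rfl
    rw [e]
    exact h
  | cast k ih =>
    have hloc1 : IsLocalHom (m59ac_Pi L l St k.succ : (L (Fin.last m)).T' →+* (L k.succ).T') :=
      IsLocalHom.of_surjective _ (m59ac_Pi_surjective L l St hNS k.succ)
    have hloc2 : IsLocalHom ((St k).πT : (L k.succ).T' →+* (L k.castSucc).T') :=
      IsLocalHom.of_surjective _ (m59ac_piT_surjective (hNS k.castSucc) (St k))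
    have h1 := ih hloc1
    have h2 := m59ac_step_isEquiv (hNS k.castSucc) (St k) hloc2 _ h1
    have e : r.map (m59ac_Pi L l St k.castSucc :
        (L (Fin.last m)).T' →+* (L k.castSucc).T') hloc =
        (r.map (m59ac_Pi L l St k.succ : (L (Fin.last m)).T' →+* (L k.succ).T') hloc1).map
          ((St k).πT : (L k.succ).T' →+* (L k.castSucc).T') hloc2 := by
      apply FramedRep.ext
      intro σ
      rw [FramedRep.map_apply, FramedRep.map_apply, FramedRep.map_apply, m59ac_Pi_castSucc]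
      ext i j
      rfl
    rw [e]
    exact h2

end chain

end

end Fermat.Agent.M59
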