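/-
S59 / block [Act] (helper26).  Prefix `m59ac_`.  Cell [CI-ACT] (helper25, finding #5499 (1)).

THE MODULE SIDE OF THE CHAIN SYSTEM.  From the module-level chain of block [E'] (levels `L k`,
steps `St k`), Galois diamonds `u` at the TOP level and an enumeration `qv` of the Taylor–Wiles set,
the structure `m59ci_ActSys` (M59/Top/Chain/SysGlue.lean) over the Hecke ring `T'` of the top level:

* `act k := (act k of m59ac_chain) ∘ m59ac_Pi L l St k`;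
* `A'_B`, `B'_A`, `new` in TRACE form through [CI-TR] (`m59ac_trace_Pi`, `m59ac_trace_Pi_frob`,
  M59/Act/Trace.lean);
* `unr0` ([UNR-0], trace form) from main's `twt_dl_unram` (S31: a Hecke datum is unramified at the
  primes not dividing `N p`) at the level `0`, where the primes of the chain are good.

* `m59ac_unr_trace` : `tr ρ (σ τ) = tr ρ σ` for `τ` in an inertia group at a prime where `ρ` is
  unramified;
* `m59ac_level_unr_trace` : the same for the representation of a level `L : twe_Level B p Q` at a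
  prime `q ∤ N_bal p`;
* `m59ac_actSys` : THE HEADLINE.
-/
import Mathlib
import Fermat.Agent.M59.Act.Trace
import Fermat.Agent.M59.Top.Chain.SysGlue
import Fermat.Agent.TW.Top.DatumLocal

set_option autoImplicit false
set_option linter.unusedSectionVars false
set_option linter.unusedVariables false
set_option linter.style.haveILetI false

open Polynomial CuspForm IsLocalRing

namespace Fermat.Agent.M59

open Fermat.Agent.TW

noncomputable section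

local notation "GQ" => (AlgebraicClosure ℚ ≃ₐ[ℚ] AlgebraicClosure ℚ)

/-! ### [UNR-0] in trace form -/

/-- the trace does not see an inertia element at a prime where the representation is
unramified. -/
theorem m59ac_unr_trace {A : Type} [CommRing A] [IsLocalRing A] (ρ : GaloisRepAdic A) (q : ℕ)
    (hρ : ρ.IsUnramifiedAt q) (σ τ : GQ) (hτ : m59ci_IsInert τ q) :
    ρ.trace (σ * τ) = ρ.trace σ := by
  obtain ⟨P, hP, hτP⟩ := hτ
  have h1 : ρ.ρ τ = 1 := hρ P hP τ hτP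
  show LinearMap.trace A ρ.V (ρ.ρ (σ * τ)) = LinearMap.trace A ρ.V (ρ.ρ σ)
  rw [map_mul, h1, mul_one]

section level

variable {𝒪 : Type} [CommRing 𝒪] [IsDomain 𝒪] [IsDiscreteValuationRing 𝒪]
  [IsAdicComplete (maximalIdeal 𝒪) 𝒪]
  {N₀ : ℕ} [NeZero N₀] {S₀ : Finset ℕ}
  {θ₀ : heckeAlgebra N₀ 2 (↑S₀ : Set ℕ) →+* ResidueField 𝒪}
  {B₀ : twe_Base 𝒪 N₀ S₀ θ₀} {p : ℕ} {Q : Finset ℕ} [NeZero (twe_Nbal N₀ Q ∅)]

/-- the representation of a level is unramified at the primes `q ∤ N_bal p` (main's S31 in the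
form `twt_dl_unram`). -/
theorem m59ac_level_unram (hp : p.Prime) (hp𝒪 : (p : 𝒪) ∈ maximalIdeal 𝒪)
    (L₀ : twe_Level B₀ p Q) (hpS : p ∈ S₀ ∪ Q)
    (hNS₀ : ∀ ℓ : ℕ, ℓ.Prime → ℓ ∣ twe_Nbal N₀ Q ∅ → ℓ ∈ S₀ ∪ Q)
    (q : ℕ) (hq : q.Prime) (hqN : ¬ q ∣ twe_Nbal N₀ Q ∅) (hqp : q ≠ p) :
    L₀.H'.ρ.IsUnramifiedAt q :=
  twt_dl_unram hp hp𝒪 hpS hNS₀ L₀.H' q hq hqN hqp

/-- **[UNR-0], trace form, at one level.** -/
theorem m59ac_level_unr_trace (hp : p.Prime) (hp𝒪 : (p : 𝒪) ∈ maximalIdeal 𝒪)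
    (L₀ : twe_Level B₀ p Q) (hpS : p ∈ S₀ ∪ Q)
    (hNS₀ : ∀ ℓ : ℕ, ℓ.Prime → ℓ ∣ twe_Nbal N₀ Q ∅ → ℓ ∈ S₀ ∪ Q)
    (q : ℕ) (hq : q.Prime) (hqN : ¬ q ∣ twe_Nbal N₀ Q ∅) (hqp : q ≠ p) (σ τ : GQ)
    (hτ : m59ci_IsInert τ q) :
    L₀.H'.ρ.trace (σ * τ) = L₀.H'.ρ.trace σ :=
  m59ac_unr_trace _ q (m59ac_level_unram hp hp𝒪 L₀ hpS hNS₀ q hq hqN hqp) σ τ hτ

end level

/-! ### The headline -/

section main

variable {𝒪 : Type} [CommRing 𝒪] [IsDomain 𝒪] [IsDiscreteValuationRing 𝒪]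
  [IsAdicComplete (maximalIdeal 𝒪) 𝒪] {p : ℕ} {m : ℕ}
  {N : Fin (m + 1) → ℕ} [∀ k, NeZero (N k)] {S : Fin (m + 1) → Finset ℕ}
  {θ : ∀ k, heckeAlgebra (N k) 2 (↑(S k) : Set ℕ) →+* ResidueField 𝒪}
  {B : ∀ k, twe_Base 𝒪 (N k) (S k) (θ k)} {Q : Finset ℕ} [∀ k, NeZero (twe_Nbal (N k) Q ∅)]

/-- **[CI-ACT]: the module side of the chain system.**  Levels `L k` (`k : Fin (m + 1)`), steps
`St k` between `L k.castSucc` and `L k.succ` at the prime `l k`, which is good for the level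
`k.castSucc` (`hl`, `hlN`, `hlS`), prime to the level `0` (`hl0`) and `≠ p` (`hlp`); the primes of
every balanced level lie in its bad set (`hNS`), `p` is bad at the level `0` (`hpS`); Galois
diamonds `u` at the top level, `qv` an enumeration of `Q`, `p ^ n ∣ |Δ_t|`.  Then the module side
`m59ci_ActSys` over `T' = T'_top`, with `tr = tr ρ_top`, `jT = twc_j (B top) r ∘ π0`,
`uT i = u (qv i)`, `d k = (B k).d * 2 ^ r`, `ee k = (B (k+1)).d * 2 ^ r`. -/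
theorem m59ac_actSys [hp : Fact p.Prime] (hp𝒪 : (p : 𝒪) ∈ maximalIdeal 𝒪)
    (L : ∀ k, twe_Level (B k) p Q) (l : Fin m → ℕ)
    (St : ∀ k : Fin m, m59ep_Step (L k.castSucc) (L k.succ) (l k))
    (hNS : ∀ k, ∀ ℓ : ℕ, ℓ.Prime → ℓ ∣ twe_Nbal (N k) Q ∅ → ℓ ∈ S k ∪ Q)
    (hpS : p ∈ S 0 ∪ Q)
    (hl : ∀ k : Fin m, (l k).Prime)
    (hlN : ∀ k : Fin m, ¬ l k ∣ twe_Nbal (N k.castSucc) Q ∅)
    (hlS : ∀ k : Fin m, l k ∉ (↑(S k.castSucc ∪ Q) : Set ℕ))
    (hl0 : ∀ k : Fin m, ¬ l k ∣ twe_Nbal (N 0) Q ∅)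
    (hlp : ∀ k : Fin m, l k ≠ p)
    (u : ∀ t : ℕ, t ∈ Q → (L (Fin.last m)).T') (hu : m59ac_IsDia (L (Fin.last m)) u)
    (r : ℕ) (qv : Fin r → ℕ) (hqv : ∀ i, qv i ∈ Q) (hinj : Function.Injective qv)
    (hsurj : ∀ t ∈ Q, ∃ i, qv i = t) (n : ℕ) (hn : ∀ i, p ^ n ∣ twe_ord p (qv i)) :
    Nonempty (m59ci_ActSys 𝒪 r (fun k => (B k).d * 2 ^ r) l (fun k => (B k.succ).d * 2 ^ r)
      (twds_a 𝒪 r) (twds_b 𝒪 r (p ^ n)) (twds_b_le_a r (p ^ n))
      (L (Fin.last m)).T' (L (Fin.last m)).H'.ρ.trace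
      ((twc_j (B (Fin.last m)) r).comp
        ((L (Fin.last m)).π0 : (L (Fin.last m)).T' →+* (B (Fin.last m)).T))
      (fun i => u (qv i) (hqv i))) := by
  classical
  obtain ⟨act, MA, MB, MAt, MBt, h1, h2, h3A, h3B, h3At, h3Bt, h4AA, h4BB, h4AB, h4BA, h5, h6,
    h7⟩ := m59ac_chain hp𝒪 L l St u hu r qv hqv hinj hsurj n hn
  obtain rfl : Q.card = r := twc_sm_card_of_enum qv hqv hinj hsurj
  refine ⟨{
    act := fun k => (act k).comp (m59ac_Pi L l St k)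
    act_u := fun k i => ?_
    A := MA
    B := MB
    A' := MAt
    B' := MBt
    A_act := fun k x => ?_
    B_act := fun k x => ?_
    A'_act := fun k x => ?_
    B'_act := fun k x => ?_
    A'_A := fun k => ?_
    B'_B := fun k => ?_
    A'_B := fun k σ hσ => ?_
    B'_A := fun k σ hσ => ?_
    split := h5
    onto := fun k => ?_
    new := fun k σ hσ => ?_
    unr0 := ?_
    act_mod := fun t => ?_ }⟩
  · rw [AlgHom.comp_apply, h1 k i, map_add, map_one]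
  · rw [AlgHom.comp_apply, AlgHom.comp_apply, m59ac_Pi_castSucc, AlgHom.comp_apply]
    exact h3A k _
  · rw [AlgHom.comp_apply, AlgHom.comp_apply, m59ac_Pi_castSucc, AlgHom.comp_apply]
    exact h3B k _
  · rw [AlgHom.comp_apply, AlgHom.comp_apply, m59ac_Pi_castSucc, AlgHom.comp_apply]
    exact h3At k _
  · rw [AlgHom.comp_apply, AlgHom.comp_apply, m59ac_Pi_castSucc, AlgHom.comp_apply]
    exact h3Bt k _
  · rw [AlgHom.comp_apply, map_add, map_natCast, map_one]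
    exact h4AA k
  · rw [AlgHom.comp_apply, map_add, map_natCast, map_one]
    exact h4BB k
  · obtain ⟨P, hP, hσP⟩ := hσ
    rw [AlgHom.comp_apply,
      m59ac_trace_Pi_frob L l St hNS k.castSucc (l k) (hl k) (hlN k) (hlS k) P hP σ hσP]
    exact h4AB k (hl k) (hlN k) (hlS k)
  · obtain ⟨P, hP, hσP⟩ := hσ
    rw [AlgHom.comp_apply,
      m59ac_trace_Pi_frob L l St hNS k.castSucc (l k) (hl k) (hlN k) (hlS k) P hP σ hσP]
    exact h4BA k (hl k) (hlN k) (hlS k)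
  · obtain ⟨V₁, V₂, hV1, hV2, -, -⟩ := h6 k
    exact ⟨V₁, hV1, hV2⟩
  · obtain ⟨P, hP, hσP⟩ := hσ
    obtain ⟨Y₁, Y₂, hY⟩ := h7 k P hP σ hσP
    refine ⟨Y₁, Y₂, ?_⟩
    have e : m59ac_Pi L l St k.succ ((((L (Fin.last m)).H'.ρ.trace σ) ^ 2 -
        (((l k : ℕ) : (L (Fin.last m)).T') + 1) ^ 2) ^ ((B k.succ).d * 2 ^ Q.card)) =
        (((L k.succ).H'.ρ.trace σ) ^ 2 - (((l k : ℕ) : (L k.succ).T') + 1) ^ 2) ^
          ((B k.succ).d * 2 ^ Q.card) := by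
      rw [map_pow, map_sub, map_pow, map_pow, map_add, map_natCast, map_one,
        m59ac_trace_Pi L l St hNS k.succ σ]
    rw [AlgHom.comp_apply, e]
    exact hY
  · rintro x ⟨k, σ, τ, hτ, rfl⟩
    rw [AlgHom.comp_apply, map_sub, m59ac_trace_Pi L l St hNS 0 (σ * τ),
      m59ac_trace_Pi L l St hNS 0 σ,
      m59ac_level_unr_trace hp.out hp𝒪 (L 0) hpS (hNS 0) (l k) (hl k) (hl0 k) (hlp k) σ τ hτ,
      sub_self, map_zero]
  · rw [AlgHom.comp_apply, m59ac_Pi_last]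
    exact h2 (Fin.last m) t

end main

end

end Fermat.Agent.M59
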