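/-
S59 / block [Act] (helper26).  Prefix `m59ac_`.  Cell [CI-ACT] (helper25, finding #5499 (1)).

`m59ac_act_stmt : m59ci_Act_stmt`  (M59/Top/Chain/SysOf.lean), CLOSED: the literal leaf [CI-ACT] of
the cut of [CI-SYS], from `m59ac_actSys` (M59/Act/Sys.lean) at the chain `N k = m59ep_lvl N l k`,
`S k = m59ep_bad S₀ l k` (`k : Fin (m + 1)`), with the arithmetic of the chain:

* `m59ac_lvl_primes` : a prime dividing `m59ep_lvl N l k` lies in `m59ep_bad S₀ l k`;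
* `m59ac_nbal_primes` : a prime dividing the balanced level lies in `S ∪ Q`;
* `m59ac_chain_not_bad` : `l k ∉ m59ep_bad S₀ l k ∪ Q`.
-/
import Mathlib
import Fermat.Agent.M59.Act.Sys
import Fermat.Agent.M59.Top.Chain.SysOf

set_option autoImplicit false
set_option linter.unusedSectionVars false
set_option linter.unusedVariables false
set_option linter.style.haveILetI false

open Polynomial CuspForm IsLocalRing

namespace Fermat.Agent.M59

open Fermat.Agent.TW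

noncomputable section

/-! ### the arithmetic of the chain -/

/-- membership in the bad set after `k` steps. -/
theorem m59ac_mem_bad (S₀ : Finset ℕ) {m : ℕ} (l : Fin m → ℕ) (k x : ℕ) :
    x ∈ m59ep_bad S₀ l k ↔ x ∈ S₀ ∨ ∃ i : Fin m, (i : ℕ) < k ∧ l i = x := by
  unfold m59ep_bad
  rw [Finset.mem_union, Finset.mem_image]
  refine or_congr Iff.rfl ⟨?_, ?_⟩
  · rintro ⟨i, hi, rfl⟩
    exact ⟨i, (Finset.mem_filter.1 hi).2, rfl⟩
  · rintro ⟨i, hi, rfl⟩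
    exact ⟨i, Finset.mem_filter.2 ⟨Finset.mem_univ _, hi⟩, rfl⟩

/-- a prime dividing the level after `k` steps lies in the bad set after `k` steps. -/
theorem m59ac_lvl_primes (N : ℕ) (S₀ : Finset ℕ) (hNS₀ : ∀ ℓ : ℕ, ℓ.Prime → ℓ ∣ N → ℓ ∈ S₀)
    {m : ℕ} (l : Fin m → ℕ) (hl : ∀ i, (l i).Prime) (k : ℕ) (q : ℕ) (hq : q.Prime)
    (hdvd : q ∣ m59ep_lvl N l k) : q ∈ m59ep_bad S₀ l k := by
  unfold m59ep_lvl at hdvd
  rw [m59ac_mem_bad]
  rcases (Nat.Prime.dvd_mul hq).mp hdvd with h | h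
  · exact Or.inl (hNS₀ q hq h)
  · obtain ⟨i, -, hqi⟩ := (Prime.dvd_finsetProd_iff hq.prime _).mp h
    by_cases hik : (i : ℕ) < k
    · rw [if_pos hik] at hqi
      exact Or.inr ⟨i, hik, ((Nat.prime_dvd_prime_iff_eq hq (hl i)).mp hqi).symm⟩
    · rw [if_neg hik] at hqi
      exact absurd (Nat.dvd_one.1 hqi) hq.one_lt.ne'

/-- the primes of `N ∏_{t ∈ Q} t²` lie in `S ∪ Q`. -/
theorem m59ac_nbal_primes (N : ℕ) (S : Finset ℕ) (hNS : ∀ q : ℕ, q.Prime → q ∣ N → q ∈ S)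
    (Q : Finset ℕ) (hQ : ∀ t ∈ Q, t.Prime) :
    ∀ q : ℕ, q.Prime → q ∣ twe_Nbal N Q ∅ → q ∈ S ∪ Q := by
  intro q hq hdvd
  have hnb : twe_Nbal N Q ∅ = N * ∏ t ∈ Q, t ^ 2 := by
    unfold twe_Nbal
    rw [Finset.prod_empty, mul_one]
  rw [hnb] at hdvd
  rcases (Nat.Prime.dvd_mul hq).mp hdvd with h | h
  · exact Finset.mem_union_left _ (hNS q hq h)
  · obtain ⟨t, ht, hqt⟩ := (Prime.dvd_finsetProd_iff hq.prime _).mp h
    have hqt' : q ∣ t := hq.dvd_of_dvd_pow hqt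
    have : q = t := (Nat.prime_dvd_prime_iff_eq hq (hQ t ht)).mp hqt'
    exact Finset.mem_union_right _ (this ▸ ht)

/-- the prime of the step `k` is good for the level `k`. -/
theorem m59ac_chain_not_bad (S₀ : Finset ℕ) {m : ℕ} (l : Fin m → ℕ)
    (hinj : Function.Injective l) (hlS₀ : ∀ i, l i ∉ S₀) (Q : Finset ℕ)
    (hQ : ∀ t ∈ Q, ∀ i, t ≠ l i) (k : Fin m) (j : ℕ) (hj : j ≤ (k : ℕ)) :
    l k ∉ m59ep_bad S₀ l j ∪ Q := by
  intro h
  rcases Finset.mem_union.1 h with h | h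
  · rcases (m59ac_mem_bad S₀ l j (l k)).1 h with h | ⟨i, hi, hik⟩
    · exact hlS₀ k h
    · have : i = k := hinj hik
      subst this
      omega
  · exact hQ _ h k rfl

/-! ### the leaf -/

/-- **[CI-ACT]**, the literal leaf of the cut of [CI-SYS] (M59/Top/Chain/SysOf.lean), CLOSED. -/
theorem m59ac_act_stmt : m59ci_Act_stmt := by
  intro p hpF hp2 𝒪 _ _ _ _ _ _ hp𝒪 N _ S₀ hpS₀ hNS₀ m l hlinj hl _ θ ρbar hcompat hirr B Q _ hQ
    hTW L hSt u hu rr qv hqv hqinj hqsurj n hn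
  classical
  have hQprime : ∀ t ∈ Q, t.Prime := fun t ht => (hTW 0 t ht).1
  have hNS : ∀ k : ℕ, ∀ q : ℕ, q.Prime → q ∣ twe_Nbal (m59ep_lvl N l k) Q ∅ →
      q ∈ m59ep_bad S₀ l k ∪ Q := fun k =>
    m59ac_nbal_primes _ _
      (fun q hq hd => m59ac_lvl_primes N S₀ hNS₀ l (fun i => (hl i).1) k q hq hd) Q hQprime
  have hnb : ∀ (k : Fin m) (j : ℕ), j ≤ (k : ℕ) → l k ∉ m59ep_bad S₀ l j ∪ Q := fun k j hj =>
    m59ac_chain_not_bad S₀ l hlinj (fun i => (hl i).2.1) Q (fun t ht => (hQ t ht).2) k j hj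
  have hpS : p ∈ m59ep_bad S₀ l 0 ∪ Q :=
    Finset.mem_union_left _ ((m59ac_mem_bad S₀ l 0 p).2 (Or.inl hpS₀))
  exact m59ac_actSys (N := fun k : Fin (m + 1) => m59ep_lvl N l (k : ℕ))
    (S := fun k : Fin (m + 1) => m59ep_bad S₀ l (k : ℕ)) (θ := fun k : Fin (m + 1) => θ (k : ℕ))
    (B := fun k : Fin (m + 1) => B (k : ℕ)) hp𝒪 (fun k : Fin (m + 1) => L (k : ℕ)) l
    (fun k => (hSt k).some) (fun k => hNS (k : ℕ)) hpS (fun k => (hl k).1)
    (fun k hd => hnb k (k : ℕ) le_rfl (hNS (k : ℕ) (l k) (hl k).1 hd))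
    (fun k hd => hnb k (k : ℕ) le_rfl (Finset.mem_coe.1 hd))
    (fun k hd => hnb k 0 (Nat.zero_le _) (hNS 0 (l k) (hl k).1 hd))
    (fun k => (hl k).2.2) u hu rr qv hqv hqinj hqsurj n hn

end

end Fermat.Agent.M59
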