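/-
M59 / [CHAIN-inst], cell [CI-ACT-P] (helper26).  Prefix `m59ac_`.  CASE (III).

`ChainP.lean` : twin of `Chain.lean` WITH THE `p`-STEP ON TOP.  From the module-level chain of
block [E'] (`m59ep_Step`), helper10's step at `l = p` (`m59p_StepP`, M59/AtP/Seams.lean) between the
top level `L m` of the chain and the level `Lp` at `N_m · p`, and Galois diamonds at `Lp`, to the
MATRIX-level input of `m59eo_abs_step` / `m59p_abs_stepP` over `Λ_n = 𝒪[[y_1..y_r]] ⧸ 𝔟_n` at ALL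
levels, in COMPATIBLE bases.

* `m59ac_mat_sub`, `m59ac_mat_pow` : two more rules of the matrix calculus of `Abs.lean`;
* `m59ac_pushP` : Galois diamonds of `Lp` push down along `StP.πT`;
* `m59ac_stepP_semilinear`, `m59ac_stepP_A` : the matrix identities of the `p`-step over `𝒪[Δ_Q]`
  (`Tm` = the matrix of the Betti operator `T_p`; (ES-p)₀ and [STRICT-p] in matrix form);
* `m59ac_chainP` : THE HEADLINE (see the statement).
-/
import Mathlib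
import Fermat.Agent.M59.Act.Chain
import Fermat.Agent.M59.AtP.Seams

set_option autoImplicit false
set_option linter.unusedSectionVars false
set_option linter.unusedVariables false
set_option linter.style.haveILetI false

open Polynomial CuspForm IsLocalRing MonoidAlgebra

namespace Fermat.Agent.M59

open Fermat.Agent.TW

noncomputable section

/-! ### Two more rules of the matrix calculus -/

section mat

variable {𝒪 A : Type*} [CommRing 𝒪] [CommRing A] [Algebra 𝒪 A]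
  {M M' J J' : Type*} [AddCommGroup M] [Module 𝒪 M] [AddCommGroup M'] [Module 𝒪 M']
  [Fintype J] [DecidableEq J] [Fintype J'] [DecidableEq J']
  (F : m59ac_Fr 𝒪 A M J) (F' : m59ac_Fr 𝒪 A M' J')

theorem m59ac_mat_sub (f g : M →ₗ[𝒪] M') :
    m59ac_mat F F' (f - g) = m59ac_mat F F' f - m59ac_mat F F' g := by
  ext i j
  rw [Matrix.sub_apply, m59ac_mat_apply, m59ac_mat_apply, m59ac_mat_apply, LinearMap.sub_apply,
    map_sub, Pi.sub_apply]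

/-- powers of a semilinear endomorphism. -/
theorem m59ac_mat_pow (f : M →ₗ[𝒪] M) (hf : ∀ a m, f (F.ψ a m) = F.ψ a (f m)) (n : ℕ) :
    m59ac_mat F F (f ^ n) = m59ac_mat F F f ^ n := by
  have hpow : ∀ n : ℕ, ∀ a m, (f ^ n) (F.ψ a m) = F.ψ a ((f ^ n) m) := by
    intro n
    induction n with
    | zero => intro a m; rfl
    | succ n ih =>
      intro a m
      rw [pow_succ, Module.End.mul_apply, Module.End.mul_apply, hf, ih]
  induction n with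
  | zero =>
    rw [pow_zero, pow_zero]
    exact m59ac_mat_one F
  | succ n ih =>
    rw [pow_succ, pow_succ, Module.End.mul_eq_comp, m59ac_mat_comp F F F f (f ^ n) (hpow n), ih]

end mat

/-! ### The step at `p` -/

section stepP

variable {𝒪 : Type} [CommRing 𝒪] [IsDomain 𝒪] [IsDiscreteValuationRing 𝒪]
  [IsAdicComplete (maximalIdeal 𝒪) 𝒪]
  {N₀ N₁ : ℕ} [NeZero N₀] [NeZero N₁] {S : Finset ℕ}
  {θ₀ : heckeAlgebra N₀ 2 (↑S : Set ℕ) →+* ResidueField 𝒪}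
  {θ₁ : heckeAlgebra N₁ 2 (↑S : Set ℕ) →+* ResidueField 𝒪}
  {B₀ : twe_Base 𝒪 N₀ S θ₀} {B₁ : twe_Base 𝒪 N₁ S θ₁} {p : ℕ} {Q : Finset ℕ}
  [NeZero (twe_Nbal N₀ Q ∅)] [NeZero (twe_Nbal N₁ Q ∅)]
  {L₀ : twe_Level B₀ p Q} {L₁ : twe_Level B₁ p Q}

/-- **pushing the Galois diamonds down the step at `p`.** -/
theorem m59ac_pushP (St : m59p_StepP L₀ L₁) (u : ∀ t : ℕ, t ∈ Q → L₁.T')
    (hu : m59ac_IsDia L₁ u) : m59ac_IsDia L₀ (fun t ht => St.πT (u t ht)) := by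
  obtain ⟨hu1, hu2, hu3⟩ := hu
  have hsurj : ∀ x : L₀.M, ∃ m : L₁.M, St.At m = x := fun x => by
    obtain ⟨m, hm, -⟩ := St.onto x 0
    exact ⟨m, hm⟩
  have hdia : ∀ t ht (m : L₁.M), St.At (L₁.dia t ht m) = L₀.dia t ht (St.At m) :=
    fun t ht m => St.At_dia (twe_gen p Q t ht) m
  refine ⟨?_, ?_, ?_⟩
  · intro t ht x
    obtain ⟨m, rfl⟩ := hsurj x
    rw [← map_pow, ← St.At_hecke, hu1]
  · intro t ht x
    obtain ⟨m, rfl⟩ := hsurj x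
    obtain ⟨m', hm'⟩ := hu2 t ht m
    refine ⟨St.At m', ?_⟩
    rw [← map_one St.πT, ← map_sub, ← St.At_hecke, hm', map_sub, hdia]
  · intro t ht x
    obtain ⟨m, rfl⟩ := hsurj x
    obtain ⟨m', hm'⟩ := hu3 t ht m
    refine ⟨St.At m', ?_⟩
    rw [← map_one St.πT, ← map_sub, ← St.At_hecke, ← hm', map_sub, hdia]

variable (St : m59p_StepP L₀ L₁) (u : ∀ t : ℕ, t ∈ Q → L₁.T')
  (F₀ : m59ac_Fr 𝒪 (MonoidAlgebra 𝒪 (twe_Delta p Q)) L₀.M (Fin (B₀.d * 2 ^ Q.card)))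
  (F₁ : m59ac_Fr 𝒪 (MonoidAlgebra 𝒪 (twe_Delta p Q)) L₁.M (Fin (B₁.d * 2 ^ Q.card)))
  (hg₀ : ∀ t ht (x : L₀.M),
    F₀.ψ (of 𝒪 (twe_Delta p Q) (twe_gen p Q t ht)) x = St.πT (u t ht) • x)
  (hg₁ : ∀ t ht (x : L₁.M), F₁.ψ (of 𝒪 (twe_Delta p Q) (twe_gen p Q t ht)) x = u t ht • x)

include hg₀ hg₁ in
/-- the four degeneracy maps of the step at `p` and the Betti operator `T_p` are linear for the
Galois structures. -/
theorem m59ac_stepP_semilinear :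
    (∀ a m, St.A (F₀.ψ a m) = F₁.ψ a (St.A m)) ∧ (∀ a m, St.B (F₀.ψ a m) = F₁.ψ a (St.B m)) ∧
    (∀ a m, St.At (F₁.ψ a m) = F₀.ψ a (St.At m)) ∧
    (∀ a m, St.Bt (F₁.ψ a m) = F₀.ψ a (St.Bt m)) ∧
    (∀ a m, St.Tp (F₀.ψ a m) = F₀.ψ a (St.Tp m)) := by
  have hA : ∀ a m, St.A (F₀.ψ a m) = F₁.ψ a (St.A m) := by
    refine m59ac_semilinear_of_gens (fun t : ↥Q => twe_gen p Q (t : ℕ) t.2)
      (twc_am_closure_gen p Q) F₀.ψ F₁.ψ St.A (fun t m => ?_)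
    rw [hg₀, hg₁, St.A_hecke]
  have hB : ∀ a m, St.B (F₀.ψ a m) = F₁.ψ a (St.B m) := by
    refine m59ac_semilinear_of_gens (fun t : ↥Q => twe_gen p Q (t : ℕ) t.2)
      (twc_am_closure_gen p Q) F₀.ψ F₁.ψ St.B (fun t m => ?_)
    rw [hg₀, hg₁, St.B_hecke]
  have hAt : ∀ a m, St.At (F₁.ψ a m) = F₀.ψ a (St.At m) := by
    refine m59ac_semilinear_of_gens (fun t : ↥Q => twe_gen p Q (t : ℕ) t.2)
      (twc_am_closure_gen p Q) F₁.ψ F₀.ψ St.At (fun t m => ?_)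
    rw [hg₀, hg₁, St.At_hecke]
  have hBt : ∀ a m, St.Bt (F₁.ψ a m) = F₀.ψ a (St.Bt m) := by
    refine m59ac_semilinear_of_gens (fun t : ↥Q => twe_gen p Q (t : ℕ) t.2)
      (twc_am_closure_gen p Q) F₁.ψ F₀.ψ St.Bt (fun t m => ?_)
    rw [hg₀, hg₁, St.Bt_hecke]
  refine ⟨hA, hB, hAt, hBt, fun a m => ?_⟩
  rw [← St.At_B, ← St.At_B, hB, hAt]

variable (hc₀ : ∀ (a : MonoidAlgebra 𝒪 (twe_Delta p Q)) (y : L₀.T') (x : L₀.M),
    F₀.ψ a (y • x) = y • F₀.ψ a x)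
  (hc₁ : ∀ (a : MonoidAlgebra 𝒪 (twe_Delta p Q)) (y : L₁.T') (x : L₁.M),
    F₁.ψ a (y • x) = y • F₁.ψ a x)
  (hb₀ : ∀ j, m59ac_cn L₀ (F₀.b j) = Pi.single j 1)
  (hb₁ : ∀ j, m59ac_cn L₁ (F₁.b j) = Pi.single j 1)
  (hψ₀ : ∀ (a : MonoidAlgebra 𝒪 (twe_Delta p Q)) (x : L₀.M),
    m59ac_cn L₀ (F₀.ψ a x) = twc_am_aug 𝒪 (twe_Delta p Q) a • m59ac_cn L₀ x)
  (hψ₁ : ∀ (a : MonoidAlgebra 𝒪 (twe_Delta p Q)) (x : L₁.M),
    m59ac_cn L₁ (F₁.ψ a x) = twc_am_aug 𝒪 (twe_Delta p Q) a • m59ac_cn L₁ x)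

include hg₀ hg₁ hb₀ hb₁ hψ₀ hψ₁ in
/-- **the matrix identities of the step at `p` over `𝒪[Δ_Q]`.** -/
theorem m59ac_stepP_A :
    -- equivariance
    (∀ x : L₁.T', m59ac_act F₁ hc₁ x * m59ac_mat F₀ F₁ St.A =
      m59ac_mat F₀ F₁ St.A * m59ac_act F₀ hc₀ (St.πT x)) ∧
    (∀ x : L₁.T', m59ac_act F₁ hc₁ x * m59ac_mat F₀ F₁ St.B =
      m59ac_mat F₀ F₁ St.B * m59ac_act F₀ hc₀ (St.πT x)) ∧
    (∀ x : L₁.T', m59ac_mat F₁ F₀ St.At * m59ac_act F₁ hc₁ x =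
      m59ac_act F₀ hc₀ (St.πT x) * m59ac_mat F₁ F₀ St.At) ∧
    (∀ x : L₁.T', m59ac_mat F₁ F₀ St.Bt * m59ac_act F₁ hc₁ x =
      m59ac_act F₀ hc₀ (St.πT x) * m59ac_mat F₁ F₀ St.Bt) ∧
    -- the four relations
    (m59ac_mat F₁ F₀ St.At * m59ac_mat F₀ F₁ St.A = m59ac_act F₀ hc₀ ((p : L₀.T') + 1)) ∧
    (m59ac_mat F₁ F₀ St.Bt * m59ac_mat F₀ F₁ St.B = m59ac_act F₀ hc₀ ((p : L₀.T') + 1)) ∧
    (m59ac_mat F₁ F₀ St.At * m59ac_mat F₀ F₁ St.B = m59ac_mat F₀ F₀ St.Tp) ∧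
    (m59ac_mat F₁ F₀ St.Bt * m59ac_mat F₀ F₁ St.A = m59ac_mat F₀ F₀ St.Tp) ∧
    -- (I1), augmented
    (∃ R₁ R₂ : Matrix (Fin (B₀.d * 2 ^ Q.card)) (Fin (B₁.d * 2 ^ Q.card)) 𝒪,
      R₁ * (m59ac_mat F₀ F₁ St.A).map (twc_am_aug 𝒪 (twe_Delta p Q)) = 1 ∧
      R₁ * (m59ac_mat F₀ F₁ St.B).map (twc_am_aug 𝒪 (twe_Delta p Q)) = 0 ∧
      R₂ * (m59ac_mat F₀ F₁ St.A).map (twc_am_aug 𝒪 (twe_Delta p Q)) = 0 ∧
      R₂ * (m59ac_mat F₀ F₁ St.B).map (twc_am_aug 𝒪 (twe_Delta p Q)) = 1) ∧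
    -- (I2)
    (∃ V₁ V₂ : Matrix (Fin (B₁.d * 2 ^ Q.card)) (Fin (B₀.d * 2 ^ Q.card))
        (MonoidAlgebra 𝒪 (twe_Delta p Q)),
      m59ac_mat F₁ F₀ St.At * V₁ = 1 ∧ m59ac_mat F₁ F₀ St.Bt * V₁ = 0 ∧
      m59ac_mat F₁ F₀ St.At * V₂ = 0 ∧ m59ac_mat F₁ F₀ St.Bt * V₂ = 1) ∧
    -- (ES-p)₀, matrix form
    (∀ P : ValuationSubring (AlgebraicClosure ℚ), P.LiesOverPrime p →
      ∀ σ : AlgebraicClosure ℚ ≃ₐ[ℚ] AlgebraicClosure ℚ, P.IsFrobeniusAt σ p →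
      ∀ z : L₀.T', m59p_IsUrEig L₀.H'.ρ P σ z →
        (m59ac_act F₀ hc₀ z * m59ac_mat F₀ F₀ St.Tp - m59ac_act F₀ hc₀ (z ^ 2 + (p : L₀.T'))) ^
          (B₀.d * 2 ^ Q.card) = 0) ∧
    -- (I3) at `p` = [STRICT-p], matrix form
    (∀ P : ValuationSubring (AlgebraicClosure ℚ), P.LiesOverPrime p →
      ∀ σ : AlgebraicClosure ℚ ≃ₐ[ℚ] AlgebraicClosure ℚ, P.IsFrobeniusAt σ p →
      ∀ z' : L₁.T', m59p_IsUrEig L₁.H'.ρ P σ z' →
      ∃ Y₁ Y₂ : Matrix (Fin (B₀.d * 2 ^ Q.card)) (Fin (B₁.d * 2 ^ Q.card))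
          (MonoidAlgebra 𝒪 (twe_Delta p Q)),
        m59ac_act F₁ hc₁ ((z' ^ 2 - 1) ^ (B₁.d * 2 ^ Q.card)) =
          m59ac_mat F₀ F₁ St.A * Y₁ + m59ac_mat F₀ F₁ St.B * Y₂) := by
  obtain ⟨sA, sB, sAt, sBt, sTp⟩ := m59ac_stepP_semilinear St u F₀ F₁ hg₀ hg₁
  have hl1 : ∀ m : L₀.M, ((p : 𝒪) + 1) • m = ((p : L₀.T') + 1) • m := by
    intro m
    rw [← algebraMap_smul L₀.T' ((p : 𝒪) + 1) m, map_add, map_natCast, map_one]
  refine ⟨?_, ?_, ?_, ?_, ?_, ?_, ?_, ?_, ?_, ?_, ?_, ?_⟩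
  · exact m59ac_act_mat F₀ F₁ hc₀ hc₁ St.πT St.A sA St.A_hecke
  · exact m59ac_act_mat F₀ F₁ hc₀ hc₁ St.πT St.B sB St.B_hecke
  · exact m59ac_mat_act F₀ F₁ hc₀ hc₁ St.πT St.At sAt St.At_hecke
  · exact m59ac_mat_act F₀ F₁ hc₀ hc₁ St.πT St.Bt sBt St.Bt_hecke
  · rw [← m59ac_mat_comp F₀ F₁ F₀ St.A St.At sAt]
    refine m59ac_mat_congr F₀ F₀ (fun j => ?_)
    rw [LinearMap.comp_apply, St.At_A, hl1]
    rfl
  · rw [← m59ac_mat_comp F₀ F₁ F₀ St.B St.Bt sBt]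
    refine m59ac_mat_congr F₀ F₀ (fun j => ?_)
    rw [LinearMap.comp_apply, St.Bt_B, hl1]
    rfl
  · rw [← m59ac_mat_comp F₀ F₁ F₀ St.B St.At sAt]
    refine m59ac_mat_congr F₀ F₀ (fun j => ?_)
    rw [LinearMap.comp_apply, St.At_B]
  · rw [← m59ac_mat_comp F₀ F₁ F₀ St.A St.Bt sBt]
    refine m59ac_mat_congr F₀ F₀ (fun j => ?_)
    rw [LinearMap.comp_apply, St.Bt_A]
  · -- (I1)
    obtain ⟨rr, hrδ, hrAB⟩ := St.split
    have hk : ∀ m : L₁.M, m59ac_cn L₁ m = 0 →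
        m59ac_cn L₀ (rr m).1 = 0 ∧ m59ac_cn L₀ (rr m).2 = 0 := by
      intro m hm
      rw [m59ac_cn_eq_zero] at hm
      rw [m59ac_cn_eq_zero, m59ac_cn_eq_zero]
      have hm' : m ∈ LinearMap.ker L₁.c := hm
      rw [L₁.c_ker] at hm'
      refine Submodule.span_induction (p := fun m _ => L₀.c (rr m).1 = 0 ∧ L₀.c (rr m).2 = 0)
        ?_ ?_ ?_ ?_ hm'
      · rintro _ ⟨δ, m', rfl⟩
        rw [map_sub, hrδ]
        simp only [Prod.fst_sub, Prod.snd_sub, map_sub, m59ac_cn_dia, sub_self, and_self]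
      · simp
      · intro x y _ _ hx hy
        rw [map_add]
        simp only [Prod.fst_add, Prod.snd_add, map_add, hx.1, hx.2, hy.1, hy.2, add_zero,
          and_self]
      · intro c x _ hx
        rw [map_smul]
        simp only [Prod.smul_fst, Prod.smul_snd, map_smul, hx.1, hx.2, smul_zero, and_self]
    exact m59ac_I1 F₀ F₁ (twc_am_aug 𝒪 (twe_Delta p Q)) (m59ac_cn L₀) hb₀ hψ₀ (m59ac_cn L₁) hb₁ hψ₁
      St.A St.B ((LinearMap.fst 𝒪 L₀.M L₀.M).comp rr) ((LinearMap.snd 𝒪 L₀.M L₀.M).comp rr)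
      (fun x y => by
        rw [LinearMap.comp_apply, hrAB]
        rfl)
      (fun x y => by
        rw [LinearMap.comp_apply, hrAB]
        rfl)
      (fun m hm => (hk m hm).1) (fun m hm => (hk m hm).2)
  · exact m59ac_I2 F₀ F₁ St.At St.Bt sAt sBt St.onto
  · -- (ES-p)₀
    intro P hP σ hσ z hz
    set lz : L₀.M →ₗ[𝒪] L₀.M := (Algebra.lsmul 𝒪 𝒪 L₀.M : L₀.T' →ₐ[𝒪] Module.End 𝒪 L₀.M) z
      with hlz
    set lw : L₀.M →ₗ[𝒪] L₀.M :=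
      (Algebra.lsmul 𝒪 𝒪 L₀.M : L₀.T' →ₐ[𝒪] Module.End 𝒪 L₀.M) (z ^ 2 + (p : L₀.T')) with hlw
    set G : L₀.M →ₗ[𝒪] L₀.M := lz ∘ₗ St.Tp - lw with hG
    have slz : ∀ a m, lz (F₀.ψ a m) = F₀.ψ a (lz m) := fun a m => by
      simp only [hlz, Algebra.lsmul_coe]
      exact (hc₀ a z m).symm
    have slw : ∀ a m, lw (F₀.ψ a m) = F₀.ψ a (lw m) := fun a m => by
      simp only [hlw, Algebra.lsmul_coe]
      exact (hc₀ a _ m).symm
    have sG : ∀ a m, G (F₀.ψ a m) = F₀.ψ a (G m) := fun a m => by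
      rw [hG, LinearMap.sub_apply, LinearMap.sub_apply, LinearMap.comp_apply,
        LinearMap.comp_apply, sTp, slz, slw, map_sub]
    have hmatG : m59ac_mat F₀ F₀ G =
        m59ac_act F₀ hc₀ z * m59ac_mat F₀ F₀ St.Tp - m59ac_act F₀ hc₀ (z ^ 2 + (p : L₀.T')) := by
      rw [hG, m59ac_mat_sub, m59ac_mat_comp F₀ F₀ F₀ St.Tp lz slz]
      rfl
    rw [← hmatG, ← m59ac_mat_pow F₀ G sG]
    have hzero : G ^ (B₀.d * 2 ^ Q.card) = 0 := by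
      apply LinearMap.ext
      intro m
      rw [Module.End.pow_apply, LinearMap.zero_apply]
      exact St.esp P hP σ hσ z hz m
    rw [hzero]
    exact m59ac_mat_zero F₀ F₀
  · intro P hP σ hσ z' hz'
    exact m59ac_I3 F₀ F₁ hc₁ St.A St.B sA sB _ (St.new P hP σ hσ z' hz')

end stepP

/-! ### The headline -/

section main

variable {𝒪 : Type} [CommRing 𝒪] [IsDomain 𝒪] [IsDiscreteValuationRing 𝒪]
  [IsAdicComplete (maximalIdeal 𝒪) 𝒪] {p : ℕ} {m : ℕ}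
  {N : Fin (m + 1) → ℕ} [∀ k, NeZero (N k)] {S : Fin (m + 1) → Finset ℕ}
  {θ : ∀ k, heckeAlgebra (N k) 2 (↑(S k) : Set ℕ) →+* ResidueField 𝒪}
  {B : ∀ k, twe_Base 𝒪 (N k) (S k) (θ k)} {Q : Finset ℕ} [∀ k, NeZero (twe_Nbal (N k) Q ∅)]
  {Np : ℕ} [NeZero Np]
  {θp : heckeAlgebra Np 2 (↑(S (Fin.last m)) : Set ℕ) →+* ResidueField 𝒪}
  {Bp : twe_Base 𝒪 Np (S (Fin.last m)) θp} [NeZero (twe_Nbal Np Q ∅)]

/-- **[Act]-level for the chain with the `p`-step on top** (case (III)).  Levels `L k`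
(`k : Fin (m + 1)`), steps `St k`, the level `Lp` at `N_m · p` with the step
`StP : m59p_StepP (L (Fin.last m)) Lp`, Galois diamonds `u` AT `Lp`; `qv` an enumeration of the
Taylor–Wiles set `Q`, `p ^ n ∣ |Δ_t|`.  Over `Λ = 𝒪[[y_1..y_r]] ⧸ ((1 + y_i)^{p^n} - 1)`:
everything `m59ac_chain` gives for the chain `L` (the diamonds pushed down through `StP.πT`, then
`m59ac_Pi`), the matrix action `actp` of `T'_p` on `Λ^{d_p 2^r}`, the matrices `PA, PB`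
(`α^*, β^*`), `PAt, PBt` (`α_*, β_*`) of the `p`-step and `Tm` (the Betti operator `T_p` on the
level `m`), IN COMPATIBLE BASES, with: equivariance along `StP.πT`, the four relations
(`α_* β^* = β_* α^* = Tm`), (I1), (I2), (ES-p)₀ in the nilpotent form
`(act z * Tm - act (z² + p))^e = 0`, and (I3) at `p`: `(z'² - 1)^e` factors through `(PA | PB)`. -/
theorem m59ac_chainP [hp : Fact p.Prime] (hp𝒪 : (p : 𝒪) ∈ maximalIdeal 𝒪)
    (L : ∀ k, twe_Level (B k) p Q) (l : Fin m → ℕ)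
    (St : ∀ k : Fin m, m59ep_Step (L k.castSucc) (L k.succ) (l k))
    (Lp : twe_Level Bp p Q) (StP : m59p_StepP (L (Fin.last m)) Lp)
    (u : ∀ t : ℕ, t ∈ Q → Lp.T') (hu : m59ac_IsDia Lp u)
    (r : ℕ) (qv : Fin r → ℕ) (hqv : ∀ i, qv i ∈ Q) (hinj : Function.Injective qv)
    (hsurj : ∀ t ∈ Q, ∃ i, qv i = t) (n : ℕ) (hn : ∀ i, p ^ n ∣ twe_ord p (qv i)) :
    ∃ (act : ∀ k, (L k).T' →ₐ[𝒪] Matrix (Fin ((B k).d * 2 ^ r)) (Fin ((B k).d * 2 ^ r))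
          (MvPowerSeries (Fin r) 𝒪 ⧸ twds_b 𝒪 r (p ^ n)))
      (actp : Lp.T' →ₐ[𝒪] Matrix (Fin (Bp.d * 2 ^ r)) (Fin (Bp.d * 2 ^ r))
          (MvPowerSeries (Fin r) 𝒪 ⧸ twds_b 𝒪 r (p ^ n)))
      (MA MB : ∀ k : Fin m, Matrix (Fin ((B k.succ).d * 2 ^ r)) (Fin ((B k.castSucc).d * 2 ^ r))
          (MvPowerSeries (Fin r) 𝒪 ⧸ twds_b 𝒪 r (p ^ n)))
      (MAt MBt : ∀ k : Fin m, Matrix (Fin ((B k.castSucc).d * 2 ^ r))
          (Fin ((B k.succ).d * 2 ^ r)) (MvPowerSeries (Fin r) 𝒪 ⧸ twds_b 𝒪 r (p ^ n)))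
      (PA PB : Matrix (Fin (Bp.d * 2 ^ r)) (Fin ((B (Fin.last m)).d * 2 ^ r))
          (MvPowerSeries (Fin r) 𝒪 ⧸ twds_b 𝒪 r (p ^ n)))
      (PAt PBt : Matrix (Fin ((B (Fin.last m)).d * 2 ^ r)) (Fin (Bp.d * 2 ^ r))
          (MvPowerSeries (Fin r) 𝒪 ⧸ twds_b 𝒪 r (p ^ n)))
      (Tm : Matrix (Fin ((B (Fin.last m)).d * 2 ^ r)) (Fin ((B (Fin.last m)).d * 2 ^ r))
          (MvPowerSeries (Fin r) 𝒪 ⧸ twds_b 𝒪 r (p ^ n))),
      -- (1) the Galois diamonds are scalars at every level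
      (∀ k i, act k (m59ac_Pi L l St k (StP.πT (u (qv i) (hqv i)))) =
        Matrix.scalar (Fin ((B k).d * 2 ^ r))
          (Ideal.Quotient.mk (twds_b 𝒪 r (p ^ n)) (1 + MvPowerSeries.X i))) ∧
      (∀ i, actp (u (qv i) (hqv i)) =
        Matrix.scalar (Fin (Bp.d * 2 ^ r))
          (Ideal.Quotient.mk (twds_b 𝒪 r (p ^ n)) (1 + MvPowerSeries.X i))) ∧
      -- (2) reduction modulo the augmentation ideal
      (∀ k (x : (L k).T'), (act k x).map (Ideal.Quotient.factor (twds_b_le_a r (p ^ n))) =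
        twc_j (B k) r ((L k).π0 x)) ∧
      (∀ x : Lp.T', (actp x).map (Ideal.Quotient.factor (twds_b_le_a r (p ^ n))) =
        twc_j Bp r (Lp.π0 x)) ∧
      -- (3) equivariance along the chain
      (∀ (k : Fin m) (x : (L k.succ).T'),
        act k.succ x * MA k = MA k * act k.castSucc ((St k).πT x)) ∧
      (∀ (k : Fin m) (x : (L k.succ).T'),
        act k.succ x * MB k = MB k * act k.castSucc ((St k).πT x)) ∧
      (∀ (k : Fin m) (x : (L k.succ).T'),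
        MAt k * act k.succ x = act k.castSucc ((St k).πT x) * MAt k) ∧
      (∀ (k : Fin m) (x : (L k.succ).T'),
        MBt k * act k.succ x = act k.castSucc ((St k).πT x) * MBt k) ∧
      -- (4) the four relations along the chain
      (∀ k : Fin m, MAt k * MA k = act k.castSucc ((l k : (L k.castSucc).T') + 1)) ∧
      (∀ k : Fin m, MBt k * MB k = act k.castSucc ((l k : (L k.castSucc).T') + 1)) ∧
      (∀ (k : Fin m) (hl : (l k).Prime) (h1 : ¬ l k ∣ twe_Nbal (N k.castSucc) Q ∅)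
        (h2 : l k ∉ (↑(S k.castSucc ∪ Q) : Set ℕ)),
        MAt k * MB k = act k.castSucc ((L k.castSucc).H'.π (heckeAlgebra.T hl h1 h2))) ∧
      (∀ (k : Fin m) (hl : (l k).Prime) (h1 : ¬ l k ∣ twe_Nbal (N k.castSucc) Q ∅)
        (h2 : l k ∉ (↑(S k.castSucc ∪ Q) : Set ℕ)),
        MBt k * MA k = act k.castSucc ((L k.castSucc).H'.π (heckeAlgebra.T hl h1 h2))) ∧
      -- (5) (I1) along the chain
      (∀ k : Fin m, ∃ L₁ L₂ : Matrix (Fin ((B k.castSucc).d * 2 ^ r))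
          (Fin ((B k.succ).d * 2 ^ r)) (MvPowerSeries (Fin r) 𝒪 ⧸ twds_b 𝒪 r (p ^ n)),
        L₁ * MA k = 1 ∧ L₁ * MB k = 0 ∧ L₂ * MA k = 0 ∧ L₂ * MB k = 1) ∧
      -- (6) (I2) along the chain
      (∀ k : Fin m, ∃ V₁ V₂ : Matrix (Fin ((B k.succ).d * 2 ^ r))
          (Fin ((B k.castSucc).d * 2 ^ r)) (MvPowerSeries (Fin r) 𝒪 ⧸ twds_b 𝒪 r (p ^ n)),
        MAt k * V₁ = 1 ∧ MBt k * V₁ = 0 ∧ MAt k * V₂ = 0 ∧ MBt k * V₂ = 1) ∧
      -- (7) (I3) along the chain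
      (∀ (k : Fin m) (P : ValuationSubring (AlgebraicClosure ℚ)), P.LiesOverPrime (l k) →
        ∀ σ : AlgebraicClosure ℚ ≃ₐ[ℚ] AlgebraicClosure ℚ, P.IsFrobeniusAt σ (l k) →
        ∃ Y₁ Y₂ : Matrix (Fin ((B k.castSucc).d * 2 ^ r)) (Fin ((B k.succ).d * 2 ^ r))
            (MvPowerSeries (Fin r) 𝒪 ⧸ twds_b 𝒪 r (p ^ n)),
          act k.succ ((((L k.succ).H'.ρ.trace σ) ^ 2 - ((l k : (L k.succ).T') + 1) ^ 2) ^
            ((B k.succ).d * 2 ^ Q.card)) = MA k * Y₁ + MB k * Y₂) ∧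
      -- (P3) equivariance of the `p`-step
      (∀ x : Lp.T', actp x * PA = PA * act (Fin.last m) (StP.πT x)) ∧
      (∀ x : Lp.T', actp x * PB = PB * act (Fin.last m) (StP.πT x)) ∧
      (∀ x : Lp.T', PAt * actp x = act (Fin.last m) (StP.πT x) * PAt) ∧
      (∀ x : Lp.T', PBt * actp x = act (Fin.last m) (StP.πT x) * PBt) ∧
      -- (P4) the four relations of the `p`-step
      (PAt * PA = act (Fin.last m) ((p : (L (Fin.last m)).T') + 1)) ∧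
      (PBt * PB = act (Fin.last m) ((p : (L (Fin.last m)).T') + 1)) ∧
      (PAt * PB = Tm) ∧ (PBt * PA = Tm) ∧
      -- (P5) (I1) at `p`
      (∃ L₁ L₂ : Matrix (Fin ((B (Fin.last m)).d * 2 ^ r)) (Fin (Bp.d * 2 ^ r))
          (MvPowerSeries (Fin r) 𝒪 ⧸ twds_b 𝒪 r (p ^ n)),
        L₁ * PA = 1 ∧ L₁ * PB = 0 ∧ L₂ * PA = 0 ∧ L₂ * PB = 1) ∧
      -- (P6) (I2) at `p`
      (∃ V₁ V₂ : Matrix (Fin (Bp.d * 2 ^ r)) (Fin ((B (Fin.last m)).d * 2 ^ r))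
          (MvPowerSeries (Fin r) 𝒪 ⧸ twds_b 𝒪 r (p ^ n)),
        PAt * V₁ = 1 ∧ PBt * V₁ = 0 ∧ PAt * V₂ = 0 ∧ PBt * V₂ = 1) ∧
      -- (P7) (ES-p)₀
      (∀ P : ValuationSubring (AlgebraicClosure ℚ), P.LiesOverPrime p →
        ∀ σ : AlgebraicClosure ℚ ≃ₐ[ℚ] AlgebraicClosure ℚ, P.IsFrobeniusAt σ p →
        ∀ z : (L (Fin.last m)).T', m59p_IsUrEig (L (Fin.last m)).H'.ρ P σ z →
          (act (Fin.last m) z * Tm - act (Fin.last m) (z ^ 2 + (p : (L (Fin.last m)).T'))) ^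
            ((B (Fin.last m)).d * 2 ^ Q.card) = 0) ∧
      -- (P8) (I3) at `p`
      (∀ P : ValuationSubring (AlgebraicClosure ℚ), P.LiesOverPrime p →
        ∀ σ : AlgebraicClosure ℚ ≃ₐ[ℚ] AlgebraicClosure ℚ, P.IsFrobeniusAt σ p →
        ∀ z' : Lp.T', m59p_IsUrEig Lp.H'.ρ P σ z' →
        ∃ Y₁ Y₂ : Matrix (Fin ((B (Fin.last m)).d * 2 ^ r)) (Fin (Bp.d * 2 ^ r))
            (MvPowerSeries (Fin r) 𝒪 ⧸ twds_b 𝒪 r (p ^ n)),
          actp ((z' ^ 2 - 1) ^ (Bp.d * 2 ^ Q.card)) = PA * Y₁ + PB * Y₂) := by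
  classical
  obtain rfl : Q.card = r := twc_sm_card_of_enum qv hqv hinj hsurj
  have hum := m59ac_pushP StP u hu
  have hdia := m59ac_dia_all L l St _ hum
  choose F hFg hFc hFb hFψ using fun k => m59ac_level_frame hp𝒪 (L k) _ (hdia k)
  obtain ⟨Fp, hFpg, hFpc, hFpb, hFpψ⟩ := m59ac_level_frame hp𝒪 Lp u hu
  -- the local ring `Λ` and the local homomorphism `Λ → S ⧸ 𝔞`
  have h𝔞 : twds_a 𝒪 Q.card ≠ ⊤ := (twds_a_isPrime (O := 𝒪) (r := Q.card)).ne_top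
  have h𝔟 : twds_b 𝒪 Q.card (p ^ n) ≠ ⊤ := fun h =>
    h𝔞 (top_le_iff.1 (h ▸ twds_b_le_a (O := 𝒪) Q.card (p ^ n)))
  haveI : IsLocalRing (MvPowerSeries (Fin Q.card) 𝒪 ⧸ twds_b 𝒪 Q.card (p ^ n)) :=
    twc_lv_B_isLocalRing h𝔟
  haveI : Nontrivial (MvPowerSeries (Fin Q.card) 𝒪 ⧸ twds_a 𝒪 Q.card) :=
    Ideal.Quotient.nontrivial_iff.mpr h𝔞
  haveI : IsLocalHom (Ideal.Quotient.factor (twds_b_le_a (O := 𝒪) Q.card (p ^ n))) :=
    IsLocalHom.of_surjective _ (Ideal.Quotient.factor_surjective _)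
  -- the steps over `𝒪[Δ_Q]`
  have hstep := fun k : Fin m => m59ac_step_A (St k)
    (fun t ht => m59ac_Pi L l St k.succ (StP.πT (u t ht))) (F k.castSucc) (F k.succ)
    (fun t ht x => by
      rw [hFg k.castSucc t ht x, m59ac_Pi_castSucc]
      rfl)
    (hFg k.succ) (hFc k.castSucc) (hFc k.succ) (hFb k.castSucc) (hFb k.succ) (hFψ k.castSucc)
    (hFψ k.succ)
  have hstepP := m59ac_stepP_A StP u (F (Fin.last m)) Fp
    (fun t ht x => by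
      rw [hFg (Fin.last m) t ht x, m59ac_Pi_last]
      rfl)
    hFpg (hFc (Fin.last m)) hFpc (hFb (Fin.last m)) hFpb (hFψ (Fin.last m)) hFpψ
  -- the two compatibilities of the evaluation with the augmentation
  have hfe : ∀ z : MonoidAlgebra 𝒪 (twe_Delta p Q),
      Ideal.Quotient.factor (twds_b_le_a (O := 𝒪) Q.card (p ^ n))
        (twc_am_evm 𝒪 p Q qv hqv n hn z) =
      algebraMap 𝒪 (MvPowerSeries (Fin Q.card) 𝒪 ⧸ twds_a 𝒪 Q.card)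
        (twc_am_aug 𝒪 (twe_Delta p Q) z) := twc_am_evm_factor 𝒪 p Q qv hqv n hn
  have hfa : ∀ c : 𝒪, Ideal.Quotient.factor (twds_b_le_a (O := 𝒪) Q.card (p ^ n))
      (algebraMap 𝒪 (MvPowerSeries (Fin Q.card) 𝒪 ⧸ twds_b 𝒪 Q.card (p ^ n)) c) =
      algebraMap 𝒪 (MvPowerSeries (Fin Q.card) 𝒪 ⧸ twds_a 𝒪 Q.card) c := fun c => rfl
  have key : ∀ {J₀ J₁ : Type} [Fintype J₀] [Fintype J₁] (R : Matrix J₀ J₁ 𝒪)
      (X : Matrix J₁ J₀ (MonoidAlgebra 𝒪 (twe_Delta p Q))),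
      ((R.map (algebraMap 𝒪 (MvPowerSeries (Fin Q.card) 𝒪 ⧸ twds_b 𝒪 Q.card (p ^ n)))) *
        (X.map (twc_am_evm 𝒪 p Q qv hqv n hn))).map
          (Ideal.Quotient.factor (twds_b_le_a (O := 𝒪) Q.card (p ^ n))) =
      (R * X.map (twc_am_aug 𝒪 (twe_Delta p Q))).map
        (algebraMap 𝒪 (MvPowerSeries (Fin Q.card) 𝒪 ⧸ twds_a 𝒪 Q.card)) := by
    intro J₀ J₁ _ _ R X
    have e1 : (⇑(Ideal.Quotient.factor (twds_b_le_a (O := 𝒪) Q.card (p ^ n))) ∘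
        ⇑(algebraMap 𝒪 (MvPowerSeries (Fin Q.card) 𝒪 ⧸ twds_b 𝒪 Q.card (p ^ n)))) =
        ⇑(algebraMap 𝒪 (MvPowerSeries (Fin Q.card) 𝒪 ⧸ twds_a 𝒪 Q.card)) := funext hfa
    have e2 : (⇑(Ideal.Quotient.factor (twds_b_le_a (O := 𝒪) Q.card (p ^ n))) ∘
        ⇑(twc_am_evm 𝒪 p Q qv hqv n hn)) =
        ⇑(algebraMap 𝒪 (MvPowerSeries (Fin Q.card) 𝒪 ⧸ twds_a 𝒪 Q.card)) ∘
          ⇑(twc_am_aug 𝒪 (twe_Delta p Q)) := funext hfe
    rw [Matrix.map_mul, Matrix.map_mul, Matrix.map_map, Matrix.map_map, Matrix.map_map, e1, e2]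
  -- the evaluation of a matrix identity
  have hev : ∀ {J₀ J₁ : Type} [Fintype J₀] [Fintype J₁]
      {X Y : Matrix J₀ J₁ (MonoidAlgebra 𝒪 (twe_Delta p Q))}, X = Y →
      X.map (twc_am_evm 𝒪 p Q qv hqv n hn) = Y.map (twc_am_evm 𝒪 p Q qv hqv n hn) :=
    fun h => by rw [h]
  refine ⟨fun k => (twc_am_evm 𝒪 p Q qv hqv n hn).mapMatrix.comp (m59ac_act (F k) (hFc k)),
    (twc_am_evm 𝒪 p Q qv hqv n hn).mapMatrix.comp (m59ac_act Fp hFpc),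
    fun k => (m59ac_mat (F k.castSucc) (F k.succ) (St k).A).map (twc_am_evm 𝒪 p Q qv hqv n hn),
    fun k => (m59ac_mat (F k.castSucc) (F k.succ) (St k).B).map (twc_am_evm 𝒪 p Q qv hqv n hn),
    fun k => (m59ac_mat (F k.succ) (F k.castSucc) (St k).At).map (twc_am_evm 𝒪 p Q qv hqv n hn),
    fun k => (m59ac_mat (F k.succ) (F k.castSucc) (St k).Bt).map (twc_am_evm 𝒪 p Q qv hqv n hn),
    (m59ac_mat (F (Fin.last m)) Fp StP.A).map (twc_am_evm 𝒪 p Q qv hqv n hn),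
    (m59ac_mat (F (Fin.last m)) Fp StP.B).map (twc_am_evm 𝒪 p Q qv hqv n hn),
    (m59ac_mat Fp (F (Fin.last m)) StP.At).map (twc_am_evm 𝒪 p Q qv hqv n hn),
    (m59ac_mat Fp (F (Fin.last m)) StP.Bt).map (twc_am_evm 𝒪 p Q qv hqv n hn),
    (m59ac_mat (F (Fin.last m)) (F (Fin.last m)) StP.Tp).map (twc_am_evm 𝒪 p Q qv hqv n hn),
    ?_, ?_, ?_, ?_, ?_, ?_, ?_, ?_, ?_, ?_, ?_, ?_, ?_, ?_, ?_, ?_, ?_, ?_, ?_, ?_, ?_, ?_, ?_,
    ?_, ?_, ?_, ?_⟩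
  · -- (1)
    intro k i
    rw [AlgHom.comp_apply, m59ac_act_scalar (F k) (hFc k) _
      (of 𝒪 (twe_Delta p Q) (twe_gen p Q (qv i) (hqv i))) (fun x => (hFg k _ _ x).symm),
      AlgHom.mapMatrix_apply, Matrix.scalar_apply, Matrix.diagonal_map (map_zero _),
      Matrix.scalar_apply]
    congr 1
    funext _
    exact twc_am_evm_gen 𝒪 p Q qv hqv n hn hinj i
  · -- (1p)
    intro i
    rw [AlgHom.comp_apply, m59ac_act_scalar Fp hFpc _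
      (of 𝒪 (twe_Delta p Q) (twe_gen p Q (qv i) (hqv i))) (fun x => (hFpg _ _ x).symm),
      AlgHom.mapMatrix_apply, Matrix.scalar_apply, Matrix.diagonal_map (map_zero _),
      Matrix.scalar_apply]
    congr 1
    funext _
    exact twc_am_evm_gen 𝒪 p Q qv hqv n hn hinj i
  · -- (2)
    intro k x
    ext j j'
    obtain ⟨⟨a, i⟩, rfl⟩ := finProdFinEquiv.surjective j
    obtain ⟨⟨a', i'⟩, rfl⟩ := finProdFinEquiv.surjective j'
    rw [twc_j_apply, Matrix.map_apply, AlgHom.comp_apply, AlgHom.mapMatrix_apply,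
      Matrix.map_apply, hfe,
      m59ac_aug_act (F k) (twc_am_aug 𝒪 (twe_Delta p Q)) (m59ac_cn (L k)) (hFb k) (hFψ k) (hFc k)
        (m59ac_j0 (L k)) (m59ac_cn_hecke (L k)), m59ac_j0_apply]
    split_ifs
    · rfl
    · rw [map_zero]
  · -- (2p)
    intro x
    ext j j'
    obtain ⟨⟨a, i⟩, rfl⟩ := finProdFinEquiv.surjective j
    obtain ⟨⟨a', i'⟩, rfl⟩ := finProdFinEquiv.surjective j'
    rw [twc_j_apply, Matrix.map_apply, AlgHom.comp_apply, AlgHom.mapMatrix_apply,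
      Matrix.map_apply, hfe,
      m59ac_aug_act Fp (twc_am_aug 𝒪 (twe_Delta p Q)) (m59ac_cn Lp) hFpb hFpψ hFpc
        (m59ac_j0 Lp) (m59ac_cn_hecke Lp), m59ac_j0_apply]
    split_ifs
    · rfl
    · rw [map_zero]
  · -- (3)
    intro k x
    have h := hev ((hstep k).1 x)
    simp only [Matrix.map_mul] at h
    exact h
  · intro k x
    have h := hev ((hstep k).2.1 x)
    simp only [Matrix.map_mul] at h
    exact h
  · intro k x
    have h := hev ((hstep k).2.2.1 x)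
    simp only [Matrix.map_mul] at h
    exact h
  · intro k x
    have h := hev ((hstep k).2.2.2.1 x)
    simp only [Matrix.map_mul] at h
    exact h
  · -- (4)
    intro k
    have h := hev (hstep k).2.2.2.2.1
    simp only [Matrix.map_mul] at h
    exact h
  · intro k
    have h := hev (hstep k).2.2.2.2.2.1
    simp only [Matrix.map_mul] at h
    exact h
  · intro k hl h1 h2
    have h := hev ((hstep k).2.2.2.2.2.2.1 hl h1 h2)
    simp only [Matrix.map_mul] at h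
    exact h
  · intro k hl h1 h2
    have h := hev ((hstep k).2.2.2.2.2.2.2.1 hl h1 h2)
    simp only [Matrix.map_mul] at h
    exact h
  · -- (5) (I1)
    intro k
    obtain ⟨R₁, R₂, h11, h12, h21, h22⟩ := (hstep k).2.2.2.2.2.2.2.2.1
    refine m59ac_I1_lift (Ideal.Quotient.factor (twds_b_le_a (O := 𝒪) Q.card (p ^ n))) _ _
      (R₁.map (algebraMap 𝒪 _)) (R₂.map (algebraMap 𝒪 _)) ?_ ?_ ?_ ?_
    · rw [key, h11, Matrix.map_one _ (map_zero _) (map_one _)]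
    · rw [key, h12, Matrix.map_zero _ (map_zero _)]
    · rw [key, h21, Matrix.map_zero _ (map_zero _)]
    · rw [key, h22, Matrix.map_one _ (map_zero _) (map_one _)]
  · -- (6) (I2)
    intro k
    obtain ⟨V₁, V₂, h11, h12, h21, h22⟩ := (hstep k).2.2.2.2.2.2.2.2.2.1
    refine ⟨V₁.map (twc_am_evm 𝒪 p Q qv hqv n hn), V₂.map (twc_am_evm 𝒪 p Q qv hqv n hn),
      ?_, ?_, ?_, ?_⟩
    · rw [← Matrix.map_mul, h11, Matrix.map_one _ (map_zero _) (map_one _)]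
    · rw [← Matrix.map_mul, h12, Matrix.map_zero _ (map_zero _)]
    · rw [← Matrix.map_mul, h21, Matrix.map_zero _ (map_zero _)]
    · rw [← Matrix.map_mul, h22, Matrix.map_one _ (map_zero _) (map_one _)]
  · -- (7) (I3)
    intro k P hP σ hσ
    obtain ⟨Y₁, Y₂, hY⟩ := (hstep k).2.2.2.2.2.2.2.2.2.2 P hP σ hσ
    refine ⟨Y₁.map (twc_am_evm 𝒪 p Q qv hqv n hn), Y₂.map (twc_am_evm 𝒪 p Q qv hqv n hn), ?_⟩
    rw [AlgHom.comp_apply, hY, AlgHom.mapMatrix_apply, Matrix.map_add _ (map_add _),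
      Matrix.map_mul, Matrix.map_mul]
  · -- (P3)
    intro x
    have h := hev (hstepP.1 x)
    simp only [Matrix.map_mul] at h
    exact h
  · intro x
    have h := hev (hstepP.2.1 x)
    simp only [Matrix.map_mul] at h
    exact h
  · intro x
    have h := hev (hstepP.2.2.1 x)
    simp only [Matrix.map_mul] at h
    exact h
  · intro x
    have h := hev (hstepP.2.2.2.1 x)
    simp only [Matrix.map_mul] at h
    exact h
  · -- (P4)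
    have h := hev hstepP.2.2.2.2.1
    simp only [Matrix.map_mul] at h
    exact h
  · have h := hev hstepP.2.2.2.2.2.1
    simp only [Matrix.map_mul] at h
    exact h
  · have h := hev hstepP.2.2.2.2.2.2.1
    simp only [Matrix.map_mul] at h
    exact h
  · have h := hev hstepP.2.2.2.2.2.2.2.1
    simp only [Matrix.map_mul] at h
    exact h
  · -- (P5) (I1)
    obtain ⟨R₁, R₂, h11, h12, h21, h22⟩ := hstepP.2.2.2.2.2.2.2.2.1
    refine m59ac_I1_lift (Ideal.Quotient.factor (twds_b_le_a (O := 𝒪) Q.card (p ^ n))) _ _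
      (R₁.map (algebraMap 𝒪 _)) (R₂.map (algebraMap 𝒪 _)) ?_ ?_ ?_ ?_
    · rw [key, h11, Matrix.map_one _ (map_zero _) (map_one _)]
    · rw [key, h12, Matrix.map_zero _ (map_zero _)]
    · rw [key, h21, Matrix.map_zero _ (map_zero _)]
    · rw [key, h22, Matrix.map_one _ (map_zero _) (map_one _)]
  · -- (P6) (I2)
    obtain ⟨V₁, V₂, h11, h12, h21, h22⟩ := hstepP.2.2.2.2.2.2.2.2.2.1
    refine ⟨V₁.map (twc_am_evm 𝒪 p Q qv hqv n hn), V₂.map (twc_am_evm 𝒪 p Q qv hqv n hn),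
      ?_, ?_, ?_, ?_⟩
    · rw [← Matrix.map_mul, h11, Matrix.map_one _ (map_zero _) (map_one _)]
    · rw [← Matrix.map_mul, h12, Matrix.map_zero _ (map_zero _)]
    · rw [← Matrix.map_mul, h21, Matrix.map_zero _ (map_zero _)]
    · rw [← Matrix.map_mul, h22, Matrix.map_one _ (map_zero _) (map_one _)]
  · -- (P7) (ES-p)₀
    intro P hP σ hσ z hz
    have h := hstepP.2.2.2.2.2.2.2.2.2.2.1 P hP σ hσ z hz
    have h' := congrArg (twc_am_evm 𝒪 p Q qv hqv n hn).mapMatrix h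
    rw [map_pow, map_sub, map_mul, map_zero] at h'
    exact h'
  · -- (P8) (I3) at `p`
    intro P hP σ hσ z' hz'
    obtain ⟨Y₁, Y₂, hY⟩ := hstepP.2.2.2.2.2.2.2.2.2.2.2 P hP σ hσ z' hz'
    refine ⟨Y₁.map (twc_am_evm 𝒪 p Q qv hqv n hn), Y₂.map (twc_am_evm 𝒪 p Q qv hqv n hn), ?_⟩
    rw [AlgHom.comp_apply, hY, AlgHom.mapMatrix_apply, Matrix.map_add _ (map_add _),
      Matrix.map_mul, Matrix.map_mul]

end main

end

end Fermat.Agent.M59
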