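/-
M59 / [CHAIN-inst], cell [CI-ACT-P] (helper26).  Prefix `m59ac_`.  CASE (III), uniform form.

`Gen.lean` : the [Act]-level for a chain of GENERALISED steps.  The chain of case (III) is the chain
of block [E'] (`m59ep_Step`, primes `l ≠ p`) with helper10's step at `l = p` (`m59p_StepP`) on top.
To index it uniformly (`Fin (m + 2)` levels, `Fin (m + 1)` steps) without dependent `Fin.snoc`:

* `m59ac_Pk 𝒪 p Q` : a level `L : twe_Level B p Q` BUNDLED with all its parameters (a plain type, so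
  families of levels are non-dependent functions `Fin (m + 1) → m59ac_Pk 𝒪 p Q`);
* `m59ac_StepG L₀ L₁ l` : a GENERALISED step = the common part of `m59ep_Step` and `m59p_StepP`:
  `πT`, `α^*, β^*, α_*, β_*`, an endomorphism `Tp` of the lower module with
  `α_* β^* = β_* α^* = Tp`, equivariance, `α_* α^* = β_* β^* = l + 1`, (I1), (I2);
  `m59ac_StepG.ofStep` (`Tp := T_l`), `m59ac_StepG.ofStepP`;
* `m59ac_pushG`, `m59ac_PiG`, `m59ac_diaG_all`, `m59ac_stepG_A` : twins of `Chain.lean`;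
* `m59ac_chainG` : THE HEADLINE: matrices over `Λ_n` at all levels in compatible bases, with the two
  GENERIC transport clauses (I3g) `x M₁ ⊆ α^* M₀ + β^* M₀ ⟹ act x = MA Y₁ + MB Y₂` and (ESg)
  `(z Tp - w)^e = 0 on M₀ ⟹ (act z * Tm - act w)^e = 0`.
-/
import Mathlib
import Fermat.Agent.M59.Act.ChainP

set_option autoImplicit false
set_option linter.unusedSectionVars false
set_option linter.unusedVariables false
set_option linter.style.haveILetI false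

open Polynomial CuspForm IsLocalRing MonoidAlgebra

namespace Fermat.Agent.M59

open Fermat.Agent.TW

noncomputable section

/-! ### Bundled levels and generalised steps -/

/-- a level `L : twe_Level B p Q` bundled with all its parameters. -/
structure m59ac_Pk (𝒪 : Type) [CommRing 𝒪] [IsDomain 𝒪] [IsDiscreteValuationRing 𝒪]
    [IsAdicComplete (maximalIdeal 𝒪) 𝒪] (p : ℕ) (Q : Finset ℕ) : Type 1 where
  /-- the level -/
  N : ℕ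
  [hN : NeZero N]
  /-- the bad set -/
  S : Finset ℕ
  /-- the eigensystem -/
  θ : heckeAlgebra N 2 (↑S : Set ℕ) →+* ResidueField 𝒪
  /-- the base package -/
  B : twe_Base 𝒪 N S θ
  [hNb : NeZero (twe_Nbal N Q ∅)]
  /-- the unipotent system at `Q` -/
  L : twe_Level B p Q

attribute [instance] m59ac_Pk.hN m59ac_Pk.hNb

section stepG

variable {𝒪 : Type} [CommRing 𝒪] [IsDomain 𝒪] [IsDiscreteValuationRing 𝒪]
  [IsAdicComplete (maximalIdeal 𝒪) 𝒪]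
  {N₀ N₁ : ℕ} [NeZero N₀] [NeZero N₁] {S₀ S₁ : Finset ℕ}
  {θ₀ : heckeAlgebra N₀ 2 (↑S₀ : Set ℕ) →+* ResidueField 𝒪}
  {θ₁ : heckeAlgebra N₁ 2 (↑S₁ : Set ℕ) →+* ResidueField 𝒪}
  {B₀ : twe_Base 𝒪 N₀ S₀ θ₀} {B₁ : twe_Base 𝒪 N₁ S₁ θ₁} {p : ℕ} {Q : Finset ℕ}
  [NeZero (twe_Nbal N₀ Q ∅)] [NeZero (twe_Nbal N₁ Q ∅)]

/-- **a generalised step**: the common part of `m59ep_Step` (`Tp = T_l`) and `m59p_StepP`
(`Tp` = the Betti operator at `p`). -/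
structure m59ac_StepG (L₀ : twe_Level B₀ p Q) (L₁ : twe_Level B₁ p Q) (l : ℕ) : Type where
  /-- `T'₁ → T'₀`, `T_q ↦ T_q` at the common good primes -/
  πT : L₁.T' →ₐ[𝒪] L₀.T'
  πT_T : ∀ (q : ℕ) (hq : q.Prime) (h1 : ¬ q ∣ twe_Nbal N₁ Q ∅) (h2 : q ∉ (↑(S₁ ∪ Q) : Set ℕ))
    (h3 : ¬ q ∣ twe_Nbal N₀ Q ∅) (h4 : q ∉ (↑(S₀ ∪ Q) : Set ℕ)),
    πT (L₁.H'.π (heckeAlgebra.T hq h1 h2)) = L₀.H'.π (heckeAlgebra.T hq h3 h4)
  /-- `α^*` -/
  A : L₀.M →ₗ[𝒪] L₁.M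
  /-- `β^*` -/
  B : L₀.M →ₗ[𝒪] L₁.M
  /-- `α_*` -/
  At : L₁.M →ₗ[𝒪] L₀.M
  /-- `β_*` -/
  Bt : L₁.M →ₗ[𝒪] L₀.M
  /-- the Hecke operator at `l` on the lower module -/
  Tp : L₀.M →ₗ[𝒪] L₀.M
  A_dia : ∀ (δ : twe_Delta p Q) (m : L₀.M),
    A (MonoidAlgebra.of 𝒪 (twe_Delta p Q) δ • m) = MonoidAlgebra.of 𝒪 (twe_Delta p Q) δ • A m
  B_dia : ∀ (δ : twe_Delta p Q) (m : L₀.M),
    B (MonoidAlgebra.of 𝒪 (twe_Delta p Q) δ • m) = MonoidAlgebra.of 𝒪 (twe_Delta p Q) δ • B m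
  At_dia : ∀ (δ : twe_Delta p Q) (m : L₁.M),
    At (MonoidAlgebra.of 𝒪 (twe_Delta p Q) δ • m) = MonoidAlgebra.of 𝒪 (twe_Delta p Q) δ • At m
  Bt_dia : ∀ (δ : twe_Delta p Q) (m : L₁.M),
    Bt (MonoidAlgebra.of 𝒪 (twe_Delta p Q) δ • m) = MonoidAlgebra.of 𝒪 (twe_Delta p Q) δ • Bt m
  A_hecke : ∀ (x : L₁.T') (m : L₀.M), x • A m = A (πT x • m)
  B_hecke : ∀ (x : L₁.T') (m : L₀.M), x • B m = B (πT x • m)
  At_hecke : ∀ (x : L₁.T') (m : L₁.M), At (x • m) = πT x • At m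
  Bt_hecke : ∀ (x : L₁.T') (m : L₁.M), Bt (x • m) = πT x • Bt m
  At_A : ∀ m : L₀.M, At (A m) = ((l : 𝒪) + 1) • m
  Bt_B : ∀ m : L₀.M, Bt (B m) = ((l : 𝒪) + 1) • m
  At_B : ∀ m : L₀.M, At (B m) = Tp m
  Bt_A : ∀ m : L₀.M, Bt (A m) = Tp m
  split : ∃ r : L₁.M →ₗ[𝒪] L₀.M × L₀.M,
    (∀ (δ : twe_Delta p Q) (m : L₁.M),
      r (MonoidAlgebra.of 𝒪 (twe_Delta p Q) δ • m) =
        (MonoidAlgebra.of 𝒪 (twe_Delta p Q) δ • (r m).1,
          MonoidAlgebra.of 𝒪 (twe_Delta p Q) δ • (r m).2)) ∧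
    ∀ x y : L₀.M, r (A x + B y) = (x, y)
  onto : ∀ x y : L₀.M, ∃ m : L₁.M, At m = x ∧ Bt m = y

/-- a step of the chain of [E'] at a prime `l` good for the lower level, `Tp := T_l`. -/
def m59ac_StepG.ofStep {L₀ : twe_Level B₀ p Q} {L₁ : twe_Level B₁ p Q} {l : ℕ}
    (St : m59ep_Step L₀ L₁ l) (hl : l.Prime) (h1 : ¬ l ∣ twe_Nbal N₀ Q ∅)
    (h2 : l ∉ (↑(S₀ ∪ Q) : Set ℕ)) : m59ac_StepG L₀ L₁ l where
  πT := St.πT
  πT_T := St.πT_T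
  A := St.A
  B := St.B
  At := St.At
  Bt := St.Bt
  Tp := (Algebra.lsmul 𝒪 𝒪 L₀.M : L₀.T' →ₐ[𝒪] Module.End 𝒪 L₀.M)
    (L₀.H'.π (heckeAlgebra.T hl h1 h2))
  A_dia := St.A_dia
  B_dia := St.B_dia
  At_dia := St.At_dia
  Bt_dia := St.Bt_dia
  A_hecke := St.A_hecke
  B_hecke := St.B_hecke
  At_hecke := St.At_hecke
  Bt_hecke := St.Bt_hecke
  At_A := St.At_A
  Bt_B := St.Bt_B
  At_B := fun m => St.At_B hl h1 h2 m
  Bt_A := fun m => St.Bt_A hl h1 h2 m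
  split := St.split
  onto := St.onto

theorem m59ac_StepG.ofStep_Tp {L₀ : twe_Level B₀ p Q} {L₁ : twe_Level B₁ p Q} {l : ℕ}
    (St : m59ep_Step L₀ L₁ l) (hl : l.Prime) (h1 : ¬ l ∣ twe_Nbal N₀ Q ∅)
    (h2 : l ∉ (↑(S₀ ∪ Q) : Set ℕ)) (m : L₀.M) :
    (m59ac_StepG.ofStep St hl h1 h2).Tp m = L₀.H'.π (heckeAlgebra.T hl h1 h2) • m := rfl

end stepG

section stepGP

variable {𝒪 : Type} [CommRing 𝒪] [IsDomain 𝒪] [IsDiscreteValuationRing 𝒪]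
  [IsAdicComplete (maximalIdeal 𝒪) 𝒪]
  {N₀ N₁ : ℕ} [NeZero N₀] [NeZero N₁] {S : Finset ℕ}
  {θ₀ : heckeAlgebra N₀ 2 (↑S : Set ℕ) →+* ResidueField 𝒪}
  {θ₁ : heckeAlgebra N₁ 2 (↑S : Set ℕ) →+* ResidueField 𝒪}
  {B₀ : twe_Base 𝒪 N₀ S θ₀} {B₁ : twe_Base 𝒪 N₁ S θ₁} {p : ℕ} {Q : Finset ℕ}
  [NeZero (twe_Nbal N₀ Q ∅)] [NeZero (twe_Nbal N₁ Q ∅)]

/-- helper10's step at `l = p`, `Tp` = the Betti operator. -/
def m59ac_StepG.ofStepP {L₀ : twe_Level B₀ p Q} {L₁ : twe_Level B₁ p Q}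
    (St : m59p_StepP L₀ L₁) : m59ac_StepG L₀ L₁ p where
  πT := St.πT
  πT_T := fun q hq h1 h2 h3 _ => St.πT_T q hq h1 h2 h3
  A := St.A
  B := St.B
  At := St.At
  Bt := St.Bt
  Tp := St.Tp
  A_dia := St.A_dia
  B_dia := St.B_dia
  At_dia := St.At_dia
  Bt_dia := St.Bt_dia
  A_hecke := St.A_hecke
  B_hecke := St.B_hecke
  At_hecke := St.At_hecke
  Bt_hecke := St.Bt_hecke
  At_A := St.At_A
  Bt_B := St.Bt_B
  At_B := St.At_B
  Bt_A := St.Bt_A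
  split := St.split
  onto := St.onto

end stepGP

/-! ### One generalised step -/

section step

variable {𝒪 : Type} [CommRing 𝒪] [IsDomain 𝒪] [IsDiscreteValuationRing 𝒪]
  [IsAdicComplete (maximalIdeal 𝒪) 𝒪]
  {N₀ N₁ : ℕ} [NeZero N₀] [NeZero N₁] {S₀ S₁ : Finset ℕ}
  {θ₀ : heckeAlgebra N₀ 2 (↑S₀ : Set ℕ) →+* ResidueField 𝒪}
  {θ₁ : heckeAlgebra N₁ 2 (↑S₁ : Set ℕ) →+* ResidueField 𝒪}
  {B₀ : twe_Base 𝒪 N₀ S₀ θ₀} {B₁ : twe_Base 𝒪 N₁ S₁ θ₁} {p : ℕ} {Q : Finset ℕ}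
  [NeZero (twe_Nbal N₀ Q ∅)] [NeZero (twe_Nbal N₁ Q ∅)]
  {L₀ : twe_Level B₀ p Q} {L₁ : twe_Level B₁ p Q} {l : ℕ}

/-- **pushing the Galois diamonds down a generalised step.** -/
theorem m59ac_pushG (St : m59ac_StepG L₀ L₁ l) (u : ∀ t : ℕ, t ∈ Q → L₁.T')
    (hu : m59ac_IsDia L₁ u) : m59ac_IsDia L₀ (fun t ht => St.πT (u t ht)) := by
  obtain ⟨hu1, hu2, hu3⟩ := hu
  have hsurj : ∀ x : L₀.M, ∃ m : L₁.M, St.At m = x := fun x => by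
    obtain ⟨m, hm, -⟩ := St.onto x 0
    exact ⟨m, hm⟩
  have hdia : ∀ t ht (m : L₁.M), St.At (L₁.dia t ht m) = L₀.dia t ht (St.At m) :=
    fun t ht m => St.At_dia (twe_gen p Q t ht) m
  refine ⟨?_, ?_, ?_⟩
  · intro t ht x
    obtain ⟨m, rfl⟩ := hsurj x
    rw [← map_pow, ← St.At_hecke, hu1]
  · intro t ht x
    obtain ⟨m, rfl⟩ := hsurj x
    obtain ⟨m', hm'⟩ := hu2 t ht m
    refine ⟨St.At m', ?_⟩
    rw [← map_one St.πT, ← map_sub, ← St.At_hecke, hm', map_sub, hdia]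
  · intro t ht x
    obtain ⟨m, rfl⟩ := hsurj x
    obtain ⟨m', hm'⟩ := hu3 t ht m
    refine ⟨St.At m', ?_⟩
    rw [← map_one St.πT, ← map_sub, ← St.At_hecke, ← hm', map_sub, hdia]

variable (St : m59ac_StepG L₀ L₁ l) (u : ∀ t : ℕ, t ∈ Q → L₁.T')
  (F₀ : m59ac_Fr 𝒪 (MonoidAlgebra 𝒪 (twe_Delta p Q)) L₀.M (Fin (B₀.d * 2 ^ Q.card)))
  (F₁ : m59ac_Fr 𝒪 (MonoidAlgebra 𝒪 (twe_Delta p Q)) L₁.M (Fin (B₁.d * 2 ^ Q.card)))
  (hg₀ : ∀ t ht (x : L₀.M),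
    F₀.ψ (of 𝒪 (twe_Delta p Q) (twe_gen p Q t ht)) x = St.πT (u t ht) • x)
  (hg₁ : ∀ t ht (x : L₁.M), F₁.ψ (of 𝒪 (twe_Delta p Q) (twe_gen p Q t ht)) x = u t ht • x)

include hg₀ hg₁ in
/-- the maps of a generalised step are linear for the Galois structures. -/
theorem m59ac_stepG_semilinear :
    (∀ a m, St.A (F₀.ψ a m) = F₁.ψ a (St.A m)) ∧ (∀ a m, St.B (F₀.ψ a m) = F₁.ψ a (St.B m)) ∧
    (∀ a m, St.At (F₁.ψ a m) = F₀.ψ a (St.At m)) ∧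
    (∀ a m, St.Bt (F₁.ψ a m) = F₀.ψ a (St.Bt m)) ∧
    (∀ a m, St.Tp (F₀.ψ a m) = F₀.ψ a (St.Tp m)) := by
  have hA : ∀ a m, St.A (F₀.ψ a m) = F₁.ψ a (St.A m) := by
    refine m59ac_semilinear_of_gens (fun t : ↥Q => twe_gen p Q (t : ℕ) t.2)
      (twc_am_closure_gen p Q) F₀.ψ F₁.ψ St.A (fun t m => ?_)
    rw [hg₀, hg₁, St.A_hecke]
  have hB : ∀ a m, St.B (F₀.ψ a m) = F₁.ψ a (St.B m) := by
    refine m59ac_semilinear_of_gens (fun t : ↥Q => twe_gen p Q (t : ℕ) t.2)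
      (twc_am_closure_gen p Q) F₀.ψ F₁.ψ St.B (fun t m => ?_)
    rw [hg₀, hg₁, St.B_hecke]
  have hAt : ∀ a m, St.At (F₁.ψ a m) = F₀.ψ a (St.At m) := by
    refine m59ac_semilinear_of_gens (fun t : ↥Q => twe_gen p Q (t : ℕ) t.2)
      (twc_am_closure_gen p Q) F₁.ψ F₀.ψ St.At (fun t m => ?_)
    rw [hg₀, hg₁, St.At_hecke]
  have hBt : ∀ a m, St.Bt (F₁.ψ a m) = F₀.ψ a (St.Bt m) := by
    refine m59ac_semilinear_of_gens (fun t : ↥Q => twe_gen p Q (t : ℕ) t.2)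
      (twc_am_closure_gen p Q) F₁.ψ F₀.ψ St.Bt (fun t m => ?_)
    rw [hg₀, hg₁, St.Bt_hecke]
  refine ⟨hA, hB, hAt, hBt, fun a m => ?_⟩
  rw [← St.At_B, ← St.At_B, hB, hAt]

variable (hc₀ : ∀ (a : MonoidAlgebra 𝒪 (twe_Delta p Q)) (y : L₀.T') (x : L₀.M),
    F₀.ψ a (y • x) = y • F₀.ψ a x)
  (hc₁ : ∀ (a : MonoidAlgebra 𝒪 (twe_Delta p Q)) (y : L₁.T') (x : L₁.M),
    F₁.ψ a (y • x) = y • F₁.ψ a x)
  (hb₀ : ∀ j, m59ac_cn L₀ (F₀.b j) = Pi.single j 1)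
  (hb₁ : ∀ j, m59ac_cn L₁ (F₁.b j) = Pi.single j 1)
  (hψ₀ : ∀ (a : MonoidAlgebra 𝒪 (twe_Delta p Q)) (x : L₀.M),
    m59ac_cn L₀ (F₀.ψ a x) = twc_am_aug 𝒪 (twe_Delta p Q) a • m59ac_cn L₀ x)
  (hψ₁ : ∀ (a : MonoidAlgebra 𝒪 (twe_Delta p Q)) (x : L₁.M),
    m59ac_cn L₁ (F₁.ψ a x) = twc_am_aug 𝒪 (twe_Delta p Q) a • m59ac_cn L₁ x)

include hg₀ hg₁ hb₀ hb₁ hψ₀ hψ₁ in
/-- **the matrix identities of a generalised step over `𝒪[Δ_Q]`.** -/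
theorem m59ac_stepG_A :
    -- equivariance
    (∀ x : L₁.T', m59ac_act F₁ hc₁ x * m59ac_mat F₀ F₁ St.A =
      m59ac_mat F₀ F₁ St.A * m59ac_act F₀ hc₀ (St.πT x)) ∧
    (∀ x : L₁.T', m59ac_act F₁ hc₁ x * m59ac_mat F₀ F₁ St.B =
      m59ac_mat F₀ F₁ St.B * m59ac_act F₀ hc₀ (St.πT x)) ∧
    (∀ x : L₁.T', m59ac_mat F₁ F₀ St.At * m59ac_act F₁ hc₁ x =
      m59ac_act F₀ hc₀ (St.πT x) * m59ac_mat F₁ F₀ St.At) ∧
    (∀ x : L₁.T', m59ac_mat F₁ F₀ St.Bt * m59ac_act F₁ hc₁ x =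
      m59ac_act F₀ hc₀ (St.πT x) * m59ac_mat F₁ F₀ St.Bt) ∧
    -- the four relations
    (m59ac_mat F₁ F₀ St.At * m59ac_mat F₀ F₁ St.A = m59ac_act F₀ hc₀ ((l : L₀.T') + 1)) ∧
    (m59ac_mat F₁ F₀ St.Bt * m59ac_mat F₀ F₁ St.B = m59ac_act F₀ hc₀ ((l : L₀.T') + 1)) ∧
    (m59ac_mat F₁ F₀ St.At * m59ac_mat F₀ F₁ St.B = m59ac_mat F₀ F₀ St.Tp) ∧
    (m59ac_mat F₁ F₀ St.Bt * m59ac_mat F₀ F₁ St.A = m59ac_mat F₀ F₀ St.Tp) ∧
    -- (I1), augmented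
    (∃ R₁ R₂ : Matrix (Fin (B₀.d * 2 ^ Q.card)) (Fin (B₁.d * 2 ^ Q.card)) 𝒪,
      R₁ * (m59ac_mat F₀ F₁ St.A).map (twc_am_aug 𝒪 (twe_Delta p Q)) = 1 ∧
      R₁ * (m59ac_mat F₀ F₁ St.B).map (twc_am_aug 𝒪 (twe_Delta p Q)) = 0 ∧
      R₂ * (m59ac_mat F₀ F₁ St.A).map (twc_am_aug 𝒪 (twe_Delta p Q)) = 0 ∧
      R₂ * (m59ac_mat F₀ F₁ St.B).map (twc_am_aug 𝒪 (twe_Delta p Q)) = 1) ∧
    -- (I2)
    (∃ V₁ V₂ : Matrix (Fin (B₁.d * 2 ^ Q.card)) (Fin (B₀.d * 2 ^ Q.card))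
        (MonoidAlgebra 𝒪 (twe_Delta p Q)),
      m59ac_mat F₁ F₀ St.At * V₁ = 1 ∧ m59ac_mat F₁ F₀ St.Bt * V₁ = 0 ∧
      m59ac_mat F₁ F₀ St.At * V₂ = 0 ∧ m59ac_mat F₁ F₀ St.Bt * V₂ = 1) ∧
    -- (ESg): a nilpotent relation `(z Tp - w)^e = 0` on the lower module, in matrix form
    (∀ (z w : L₀.T') (e : ℕ),
      (∀ m : L₀.M, ((fun m' : L₀.M => z • St.Tp m' - w • m')^[e]) m = 0) →
        (m59ac_act F₀ hc₀ z * m59ac_mat F₀ F₀ St.Tp - m59ac_act F₀ hc₀ w) ^ e = 0) ∧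
    -- (I3g): `x M₁ ⊆ α^* M₀ + β^* M₀`, in matrix form
    (∀ x : L₁.T', (∀ m : L₁.M, ∃ y z : L₀.M, x • m = St.A y + St.B z) →
      ∃ Y₁ Y₂ : Matrix (Fin (B₀.d * 2 ^ Q.card)) (Fin (B₁.d * 2 ^ Q.card))
          (MonoidAlgebra 𝒪 (twe_Delta p Q)),
        m59ac_act F₁ hc₁ x = m59ac_mat F₀ F₁ St.A * Y₁ + m59ac_mat F₀ F₁ St.B * Y₂) := by
  obtain ⟨sA, sB, sAt, sBt, sTp⟩ := m59ac_stepG_semilinear St u F₀ F₁ hg₀ hg₁
  have hl1 : ∀ m : L₀.M, ((l : 𝒪) + 1) • m = ((l : L₀.T') + 1) • m := by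
    intro m
    rw [← algebraMap_smul L₀.T' ((l : 𝒪) + 1) m, map_add, map_natCast, map_one]
  refine ⟨?_, ?_, ?_, ?_, ?_, ?_, ?_, ?_, ?_, ?_, ?_, ?_⟩
  · exact m59ac_act_mat F₀ F₁ hc₀ hc₁ St.πT St.A sA St.A_hecke
  · exact m59ac_act_mat F₀ F₁ hc₀ hc₁ St.πT St.B sB St.B_hecke
  · exact m59ac_mat_act F₀ F₁ hc₀ hc₁ St.πT St.At sAt St.At_hecke
  · exact m59ac_mat_act F₀ F₁ hc₀ hc₁ St.πT St.Bt sBt St.Bt_hecke
  · rw [← m59ac_mat_comp F₀ F₁ F₀ St.A St.At sAt]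
    refine m59ac_mat_congr F₀ F₀ (fun j => ?_)
    rw [LinearMap.comp_apply, St.At_A, hl1]
    rfl
  · rw [← m59ac_mat_comp F₀ F₁ F₀ St.B St.Bt sBt]
    refine m59ac_mat_congr F₀ F₀ (fun j => ?_)
    rw [LinearMap.comp_apply, St.Bt_B, hl1]
    rfl
  · rw [← m59ac_mat_comp F₀ F₁ F₀ St.B St.At sAt]
    refine m59ac_mat_congr F₀ F₀ (fun j => ?_)
    rw [LinearMap.comp_apply, St.At_B]
  · rw [← m59ac_mat_comp F₀ F₁ F₀ St.A St.Bt sBt]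
    refine m59ac_mat_congr F₀ F₀ (fun j => ?_)
    rw [LinearMap.comp_apply, St.Bt_A]
  · -- (I1)
    obtain ⟨rr, hrδ, hrAB⟩ := St.split
    have hk : ∀ m : L₁.M, m59ac_cn L₁ m = 0 →
        m59ac_cn L₀ (rr m).1 = 0 ∧ m59ac_cn L₀ (rr m).2 = 0 := by
      intro m hm
      rw [m59ac_cn_eq_zero] at hm
      rw [m59ac_cn_eq_zero, m59ac_cn_eq_zero]
      have hm' : m ∈ LinearMap.ker L₁.c := hm
      rw [L₁.c_ker] at hm'
      refine Submodule.span_induction (p := fun m _ => L₀.c (rr m).1 = 0 ∧ L₀.c (rr m).2 = 0)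
        ?_ ?_ ?_ ?_ hm'
      · rintro _ ⟨δ, m', rfl⟩
        rw [map_sub, hrδ]
        simp only [Prod.fst_sub, Prod.snd_sub, map_sub, m59ac_cn_dia, sub_self, and_self]
      · simp
      · intro x y _ _ hx hy
        rw [map_add]
        simp only [Prod.fst_add, Prod.snd_add, map_add, hx.1, hx.2, hy.1, hy.2, add_zero,
          and_self]
      · intro c x _ hx
        rw [map_smul]
        simp only [Prod.smul_fst, Prod.smul_snd, map_smul, hx.1, hx.2, smul_zero, and_self]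
    exact m59ac_I1 F₀ F₁ (twc_am_aug 𝒪 (twe_Delta p Q)) (m59ac_cn L₀) hb₀ hψ₀ (m59ac_cn L₁) hb₁ hψ₁
      St.A St.B ((LinearMap.fst 𝒪 L₀.M L₀.M).comp rr) ((LinearMap.snd 𝒪 L₀.M L₀.M).comp rr)
      (fun x y => by
        rw [LinearMap.comp_apply, hrAB]
        rfl)
      (fun x y => by
        rw [LinearMap.comp_apply, hrAB]
        rfl)
      (fun m hm => (hk m hm).1) (fun m hm => (hk m hm).2)
  · exact m59ac_I2 F₀ F₁ St.At St.Bt sAt sBt St.onto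
  · -- (ESg)
    intro z w e hzw
    set lz : L₀.M →ₗ[𝒪] L₀.M := (Algebra.lsmul 𝒪 𝒪 L₀.M : L₀.T' →ₐ[𝒪] Module.End 𝒪 L₀.M) z
      with hlz
    set lw : L₀.M →ₗ[𝒪] L₀.M :=
      (Algebra.lsmul 𝒪 𝒪 L₀.M : L₀.T' →ₐ[𝒪] Module.End 𝒪 L₀.M) w with hlw
    set G : L₀.M →ₗ[𝒪] L₀.M := lz ∘ₗ St.Tp - lw with hG
    have slz : ∀ a m, lz (F₀.ψ a m) = F₀.ψ a (lz m) := fun a m => by
      simp only [hlz, Algebra.lsmul_coe]
      exact (hc₀ a z m).symm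
    have slw : ∀ a m, lw (F₀.ψ a m) = F₀.ψ a (lw m) := fun a m => by
      simp only [hlw, Algebra.lsmul_coe]
      exact (hc₀ a _ m).symm
    have sG : ∀ a m, G (F₀.ψ a m) = F₀.ψ a (G m) := fun a m => by
      rw [hG, LinearMap.sub_apply, LinearMap.sub_apply, LinearMap.comp_apply,
        LinearMap.comp_apply, sTp, slz, slw, map_sub]
    have hmatG : m59ac_mat F₀ F₀ G =
        m59ac_act F₀ hc₀ z * m59ac_mat F₀ F₀ St.Tp - m59ac_act F₀ hc₀ w := by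
      rw [hG, m59ac_mat_sub, m59ac_mat_comp F₀ F₀ F₀ St.Tp lz slz]
      rfl
    rw [← hmatG, ← m59ac_mat_pow F₀ G sG]
    have hzero : G ^ e = 0 := by
      apply LinearMap.ext
      intro m
      rw [Module.End.pow_apply, LinearMap.zero_apply]
      exact hzw m
    rw [hzero]
    exact m59ac_mat_zero F₀ F₀
  · intro x hx
    exact m59ac_I3 F₀ F₁ hc₁ St.A St.B sA sB x hx

end step

/-! ### The chain -/

section chain

variable {𝒪 : Type} [CommRing 𝒪] [IsDomain 𝒪] [IsDiscreteValuationRing 𝒪]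
  [IsAdicComplete (maximalIdeal 𝒪) 𝒪] {p : ℕ} {Q : Finset ℕ} {m : ℕ}
  (pk : Fin (m + 1) → m59ac_Pk 𝒪 p Q) (l : Fin m → ℕ)
  (stg : ∀ k : Fin m, m59ac_StepG (pk k.castSucc).L (pk k.succ).L (l k))

/-- the composite `T'_top → T'_k` of the `πT`'s. -/
def m59ac_PiG : ∀ k, (pk (Fin.last m)).L.T' →ₐ[𝒪] (pk k).L.T' :=
  Fin.reverseInduction (AlgHom.id 𝒪 _) (fun k Pk => (stg k).πT.comp Pk)

theorem m59ac_PiG_last : m59ac_PiG pk l stg (Fin.last m) = AlgHom.id 𝒪 _ :=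
  Fin.reverseInduction_last

theorem m59ac_PiG_castSucc (k : Fin m) :
    m59ac_PiG pk l stg k.castSucc = (stg k).πT.comp (m59ac_PiG pk l stg k.succ) :=
  Fin.reverseInduction_castSucc k

/-- the pushed-down diamonds are Galois diamonds at every level. -/
theorem m59ac_diaG_all (u : ∀ t : ℕ, t ∈ Q → (pk (Fin.last m)).L.T')
    (hu : m59ac_IsDia (pk (Fin.last m)).L u) :
    ∀ k, m59ac_IsDia (pk k).L (fun t ht => m59ac_PiG pk l stg k (u t ht)) := by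
  intro k
  induction k using Fin.reverseInduction with
  | last =>
    rw [m59ac_PiG_last]
    exact hu
  | cast k ih =>
    have h := m59ac_pushG (stg k) _ ih
    rw [m59ac_PiG_castSucc]
    exact h

end chain

/-! ### The headline -/

section main

variable {𝒪 : Type} [CommRing 𝒪] [IsDomain 𝒪] [IsDiscreteValuationRing 𝒪]
  [IsAdicComplete (maximalIdeal 𝒪) 𝒪] {p : ℕ} {Q : Finset ℕ} {m : ℕ}

/-- **[Act]-level for a chain of generalised steps.**  Levels `pk k` (`k : Fin (m + 1)`, bundled),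
generalised steps `stg k` between `pk k.castSucc` and `pk k.succ`, Galois diamonds `u` at the TOP
level; `qv` an enumeration of the Taylor–Wiles set `Q`, `p ^ n ∣ |Δ_t|`.  Over
`Λ = 𝒪[[y_1..y_r]] ⧸ ((1 + y_i)^{p^n} - 1)`: matrix actions `act k` of `T'_k` on `Λ^{d_k 2^r}` at
every level, matrices `MA, MB` (`α^*, β^*`), `MAt, MBt` (`α_*, β_*`), `Tm` (`Tp`) of every step, IN
COMPATIBLE BASES, with the clauses of `m59ac_chain`; the relation of `Tm` with the ring and (I3) are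
given as TRANSPORT clauses (ESg), (I3g). -/
theorem m59ac_chainG [hp : Fact p.Prime] (hp𝒪 : (p : 𝒪) ∈ maximalIdeal 𝒪)
    (pk : Fin (m + 1) → m59ac_Pk 𝒪 p Q) (l : Fin m → ℕ)
    (stg : ∀ k : Fin m, m59ac_StepG (pk k.castSucc).L (pk k.succ).L (l k))
    (u : ∀ t : ℕ, t ∈ Q → (pk (Fin.last m)).L.T') (hu : m59ac_IsDia (pk (Fin.last m)).L u)
    (r : ℕ) (qv : Fin r → ℕ) (hqv : ∀ i, qv i ∈ Q) (hinj : Function.Injective qv)
    (hsurj : ∀ t ∈ Q, ∃ i, qv i = t) (n : ℕ) (hn : ∀ i, p ^ n ∣ twe_ord p (qv i)) :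
    ∃ (act : ∀ k, (pk k).L.T' →ₐ[𝒪]
          Matrix (Fin ((pk k).B.d * 2 ^ r)) (Fin ((pk k).B.d * 2 ^ r))
          (MvPowerSeries (Fin r) 𝒪 ⧸ twds_b 𝒪 r (p ^ n)))
      (MA MB : ∀ k : Fin m,
        Matrix (Fin ((pk k.succ).B.d * 2 ^ r)) (Fin ((pk k.castSucc).B.d * 2 ^ r))
          (MvPowerSeries (Fin r) 𝒪 ⧸ twds_b 𝒪 r (p ^ n)))
      (MAt MBt : ∀ k : Fin m, Matrix (Fin ((pk k.castSucc).B.d * 2 ^ r))
          (Fin ((pk k.succ).B.d * 2 ^ r)) (MvPowerSeries (Fin r) 𝒪 ⧸ twds_b 𝒪 r (p ^ n)))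
      (Tm : ∀ k : Fin m, Matrix (Fin ((pk k.castSucc).B.d * 2 ^ r))
          (Fin ((pk k.castSucc).B.d * 2 ^ r)) (MvPowerSeries (Fin r) 𝒪 ⧸ twds_b 𝒪 r (p ^ n))),
      -- (1) the Galois diamonds are scalars at every level
      (∀ k i, act k (m59ac_PiG pk l stg k (u (qv i) (hqv i))) =
        Matrix.scalar (Fin ((pk k).B.d * 2 ^ r))
          (Ideal.Quotient.mk (twds_b 𝒪 r (p ^ n)) (1 + MvPowerSeries.X i))) ∧
      -- (2) reduction modulo the augmentation ideal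
      (∀ k (x : (pk k).L.T'), (act k x).map (Ideal.Quotient.factor (twds_b_le_a r (p ^ n))) =
        twc_j (pk k).B r ((pk k).L.π0 x)) ∧
      -- (3) equivariance
      (∀ (k : Fin m) (x : (pk k.succ).L.T'),
        act k.succ x * MA k = MA k * act k.castSucc ((stg k).πT x)) ∧
      (∀ (k : Fin m) (x : (pk k.succ).L.T'),
        act k.succ x * MB k = MB k * act k.castSucc ((stg k).πT x)) ∧
      (∀ (k : Fin m) (x : (pk k.succ).L.T'),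
        MAt k * act k.succ x = act k.castSucc ((stg k).πT x) * MAt k) ∧
      (∀ (k : Fin m) (x : (pk k.succ).L.T'),
        MBt k * act k.succ x = act k.castSucc ((stg k).πT x) * MBt k) ∧
      -- (4) the four relations
      (∀ k : Fin m, MAt k * MA k = act k.castSucc ((l k : (pk k.castSucc).L.T') + 1)) ∧
      (∀ k : Fin m, MBt k * MB k = act k.castSucc ((l k : (pk k.castSucc).L.T') + 1)) ∧
      (∀ k : Fin m, MAt k * MB k = Tm k) ∧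
      (∀ k : Fin m, MBt k * MA k = Tm k) ∧
      -- (5) (I1)
      (∀ k : Fin m, ∃ L₁ L₂ : Matrix (Fin ((pk k.castSucc).B.d * 2 ^ r))
          (Fin ((pk k.succ).B.d * 2 ^ r)) (MvPowerSeries (Fin r) 𝒪 ⧸ twds_b 𝒪 r (p ^ n)),
        L₁ * MA k = 1 ∧ L₁ * MB k = 0 ∧ L₂ * MA k = 0 ∧ L₂ * MB k = 1) ∧
      -- (6) (I2)
      (∀ k : Fin m, ∃ V₁ V₂ : Matrix (Fin ((pk k.succ).B.d * 2 ^ r))
          (Fin ((pk k.castSucc).B.d * 2 ^ r)) (MvPowerSeries (Fin r) 𝒪 ⧸ twds_b 𝒪 r (p ^ n)),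
        MAt k * V₁ = 1 ∧ MBt k * V₁ = 0 ∧ MAt k * V₂ = 0 ∧ MBt k * V₂ = 1) ∧
      -- (ESg)
      (∀ (k : Fin m) (z w : (pk k.castSucc).L.T') (e : ℕ),
        (∀ x : (pk k.castSucc).L.M,
          ((fun m' : (pk k.castSucc).L.M => z • (stg k).Tp m' - w • m')^[e]) x = 0) →
        (act k.castSucc z * Tm k - act k.castSucc w) ^ e = 0) ∧
      -- (I3g)
      (∀ (k : Fin m) (x : (pk k.succ).L.T'),
        (∀ y : (pk k.succ).L.M, ∃ y₁ y₂ : (pk k.castSucc).L.M,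
          x • y = (stg k).A y₁ + (stg k).B y₂) →
        ∃ Y₁ Y₂ : Matrix (Fin ((pk k.castSucc).B.d * 2 ^ r)) (Fin ((pk k.succ).B.d * 2 ^ r))
            (MvPowerSeries (Fin r) 𝒪 ⧸ twds_b 𝒪 r (p ^ n)),
          act k.succ x = MA k * Y₁ + MB k * Y₂) := by
  classical
  obtain rfl : Q.card = r := twc_sm_card_of_enum qv hqv hinj hsurj
  have hdia := m59ac_diaG_all pk l stg u hu
  choose F hFg hFc hFb hFψ using fun k => m59ac_level_frame hp𝒪 (pk k).L _ (hdia k)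
  -- the local ring `Λ` and the local homomorphism `Λ → S ⧸ 𝔞`
  have h𝔞 : twds_a 𝒪 Q.card ≠ ⊤ := (twds_a_isPrime (O := 𝒪) (r := Q.card)).ne_top
  have h𝔟 : twds_b 𝒪 Q.card (p ^ n) ≠ ⊤ := fun h =>
    h𝔞 (top_le_iff.1 (h ▸ twds_b_le_a (O := 𝒪) Q.card (p ^ n)))
  haveI : IsLocalRing (MvPowerSeries (Fin Q.card) 𝒪 ⧸ twds_b 𝒪 Q.card (p ^ n)) :=
    twc_lv_B_isLocalRing h𝔟
  haveI : Nontrivial (MvPowerSeries (Fin Q.card) 𝒪 ⧸ twds_a 𝒪 Q.card) :=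
    Ideal.Quotient.nontrivial_iff.mpr h𝔞
  haveI : IsLocalHom (Ideal.Quotient.factor (twds_b_le_a (O := 𝒪) Q.card (p ^ n))) :=
    IsLocalHom.of_surjective _ (Ideal.Quotient.factor_surjective _)
  -- the steps over `𝒪[Δ_Q]`
  have hstep := fun k : Fin m => m59ac_stepG_A (stg k)
    (fun t ht => m59ac_PiG pk l stg k.succ (u t ht)) (F k.castSucc) (F k.succ)
    (fun t ht x => by
      rw [hFg k.castSucc t ht x, m59ac_PiG_castSucc]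
      rfl)
    (hFg k.succ) (hFc k.castSucc) (hFc k.succ) (hFb k.castSucc) (hFb k.succ) (hFψ k.castSucc)
    (hFψ k.succ)
  -- the two compatibilities of the evaluation with the augmentation
  have hfe : ∀ z : MonoidAlgebra 𝒪 (twe_Delta p Q),
      Ideal.Quotient.factor (twds_b_le_a (O := 𝒪) Q.card (p ^ n))
        (twc_am_evm 𝒪 p Q qv hqv n hn z) =
      algebraMap 𝒪 (MvPowerSeries (Fin Q.card) 𝒪 ⧸ twds_a 𝒪 Q.card)
        (twc_am_aug 𝒪 (twe_Delta p Q) z) := twc_am_evm_factor 𝒪 p Q qv hqv n hn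
  have hfa : ∀ c : 𝒪, Ideal.Quotient.factor (twds_b_le_a (O := 𝒪) Q.card (p ^ n))
      (algebraMap 𝒪 (MvPowerSeries (Fin Q.card) 𝒪 ⧸ twds_b 𝒪 Q.card (p ^ n)) c) =
      algebraMap 𝒪 (MvPowerSeries (Fin Q.card) 𝒪 ⧸ twds_a 𝒪 Q.card) c := fun c => rfl
  have key : ∀ {J₀ J₁ : Type} [Fintype J₀] [Fintype J₁] (R : Matrix J₀ J₁ 𝒪)
      (X : Matrix J₁ J₀ (MonoidAlgebra 𝒪 (twe_Delta p Q))),
      ((R.map (algebraMap 𝒪 (MvPowerSeries (Fin Q.card) 𝒪 ⧸ twds_b 𝒪 Q.card (p ^ n)))) *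
        (X.map (twc_am_evm 𝒪 p Q qv hqv n hn))).map
          (Ideal.Quotient.factor (twds_b_le_a (O := 𝒪) Q.card (p ^ n))) =
      (R * X.map (twc_am_aug 𝒪 (twe_Delta p Q))).map
        (algebraMap 𝒪 (MvPowerSeries (Fin Q.card) 𝒪 ⧸ twds_a 𝒪 Q.card)) := by
    intro J₀ J₁ _ _ R X
    have e1 : (⇑(Ideal.Quotient.factor (twds_b_le_a (O := 𝒪) Q.card (p ^ n))) ∘
        ⇑(algebraMap 𝒪 (MvPowerSeries (Fin Q.card) 𝒪 ⧸ twds_b 𝒪 Q.card (p ^ n)))) =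
        ⇑(algebraMap 𝒪 (MvPowerSeries (Fin Q.card) 𝒪 ⧸ twds_a 𝒪 Q.card)) := funext hfa
    have e2 : (⇑(Ideal.Quotient.factor (twds_b_le_a (O := 𝒪) Q.card (p ^ n))) ∘
        ⇑(twc_am_evm 𝒪 p Q qv hqv n hn)) =
        ⇑(algebraMap 𝒪 (MvPowerSeries (Fin Q.card) 𝒪 ⧸ twds_a 𝒪 Q.card)) ∘
          ⇑(twc_am_aug 𝒪 (twe_Delta p Q)) := funext hfe
    rw [Matrix.map_mul, Matrix.map_mul, Matrix.map_map, Matrix.map_map, Matrix.map_map, e1, e2]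
  -- the evaluation of a matrix identity
  have hev : ∀ {J₀ J₁ : Type} [Fintype J₀] [Fintype J₁]
      {X Y : Matrix J₀ J₁ (MonoidAlgebra 𝒪 (twe_Delta p Q))}, X = Y →
      X.map (twc_am_evm 𝒪 p Q qv hqv n hn) = Y.map (twc_am_evm 𝒪 p Q qv hqv n hn) :=
    fun h => by rw [h]
  refine ⟨fun k => (twc_am_evm 𝒪 p Q qv hqv n hn).mapMatrix.comp (m59ac_act (F k) (hFc k)),
    fun k => (m59ac_mat (F k.castSucc) (F k.succ) (stg k).A).map (twc_am_evm 𝒪 p Q qv hqv n hn),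
    fun k => (m59ac_mat (F k.castSucc) (F k.succ) (stg k).B).map (twc_am_evm 𝒪 p Q qv hqv n hn),
    fun k => (m59ac_mat (F k.succ) (F k.castSucc) (stg k).At).map (twc_am_evm 𝒪 p Q qv hqv n hn),
    fun k => (m59ac_mat (F k.succ) (F k.castSucc) (stg k).Bt).map (twc_am_evm 𝒪 p Q qv hqv n hn),
    fun k => (m59ac_mat (F k.castSucc) (F k.castSucc) (stg k).Tp).map
      (twc_am_evm 𝒪 p Q qv hqv n hn),
    ?_, ?_, ?_, ?_, ?_, ?_, ?_, ?_, ?_, ?_, ?_, ?_, ?_, ?_⟩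
  · -- (1)
    intro k i
    rw [AlgHom.comp_apply, m59ac_act_scalar (F k) (hFc k) _
      (of 𝒪 (twe_Delta p Q) (twe_gen p Q (qv i) (hqv i))) (fun x => (hFg k _ _ x).symm),
      AlgHom.mapMatrix_apply, Matrix.scalar_apply, Matrix.diagonal_map (map_zero _),
      Matrix.scalar_apply]
    congr 1
    funext _
    exact twc_am_evm_gen 𝒪 p Q qv hqv n hn hinj i
  · -- (2)
    intro k x
    ext j j'
    obtain ⟨⟨a, i⟩, rfl⟩ := finProdFinEquiv.surjective j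
    obtain ⟨⟨a', i'⟩, rfl⟩ := finProdFinEquiv.surjective j'
    rw [twc_j_apply, Matrix.map_apply, AlgHom.comp_apply, AlgHom.mapMatrix_apply,
      Matrix.map_apply, hfe,
      m59ac_aug_act (F k) (twc_am_aug 𝒪 (twe_Delta p Q)) (m59ac_cn (pk k).L) (hFb k) (hFψ k)
        (hFc k) (m59ac_j0 (pk k).L) (m59ac_cn_hecke (pk k).L), m59ac_j0_apply]
    split_ifs
    · rfl
    · rw [map_zero]
  · -- (3)
    intro k x
    have h := hev ((hstep k).1 x)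
    simp only [Matrix.map_mul] at h
    exact h
  · intro k x
    have h := hev ((hstep k).2.1 x)
    simp only [Matrix.map_mul] at h
    exact h
  · intro k x
    have h := hev ((hstep k).2.2.1 x)
    simp only [Matrix.map_mul] at h
    exact h
  · intro k x
    have h := hev ((hstep k).2.2.2.1 x)
    simp only [Matrix.map_mul] at h
    exact h
  · -- (4)
    intro k
    have h := hev (hstep k).2.2.2.2.1
    simp only [Matrix.map_mul] at h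
    exact h
  · intro k
    have h := hev (hstep k).2.2.2.2.2.1
    simp only [Matrix.map_mul] at h
    exact h
  · intro k
    have h := hev (hstep k).2.2.2.2.2.2.1
    simp only [Matrix.map_mul] at h
    exact h
  · intro k
    have h := hev (hstep k).2.2.2.2.2.2.2.1
    simp only [Matrix.map_mul] at h
    exact h
  · -- (5) (I1)
    intro k
    obtain ⟨R₁, R₂, h11, h12, h21, h22⟩ := (hstep k).2.2.2.2.2.2.2.2.1
    refine m59ac_I1_lift (Ideal.Quotient.factor (twds_b_le_a (O := 𝒪) Q.card (p ^ n))) _ _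
      (R₁.map (algebraMap 𝒪 _)) (R₂.map (algebraMap 𝒪 _)) ?_ ?_ ?_ ?_
    · rw [key, h11, Matrix.map_one _ (map_zero _) (map_one _)]
    · rw [key, h12, Matrix.map_zero _ (map_zero _)]
    · rw [key, h21, Matrix.map_zero _ (map_zero _)]
    · rw [key, h22, Matrix.map_one _ (map_zero _) (map_one _)]
  · -- (6) (I2)
    intro k
    obtain ⟨V₁, V₂, h11, h12, h21, h22⟩ := (hstep k).2.2.2.2.2.2.2.2.2.1
    refine ⟨V₁.map (twc_am_evm 𝒪 p Q qv hqv n hn), V₂.map (twc_am_evm 𝒪 p Q qv hqv n hn),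
      ?_, ?_, ?_, ?_⟩
    · rw [← Matrix.map_mul, h11, Matrix.map_one _ (map_zero _) (map_one _)]
    · rw [← Matrix.map_mul, h12, Matrix.map_zero _ (map_zero _)]
    · rw [← Matrix.map_mul, h21, Matrix.map_zero _ (map_zero _)]
    · rw [← Matrix.map_mul, h22, Matrix.map_one _ (map_zero _) (map_one _)]
  · -- (ESg)
    intro k z w e hzw
    have h := (hstep k).2.2.2.2.2.2.2.2.2.2.1 z w e hzw
    have h' := congrArg (twc_am_evm 𝒪 p Q qv hqv n hn).mapMatrix h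
    rw [map_pow, map_sub, map_mul, map_zero] at h'
    exact h'
  · -- (I3g)
    intro k x hx
    obtain ⟨Y₁, Y₂, hY⟩ := (hstep k).2.2.2.2.2.2.2.2.2.2.2 x hx
    refine ⟨Y₁.map (twc_am_evm 𝒪 p Q qv hqv n hn), Y₂.map (twc_am_evm 𝒪 p Q qv hqv n hn), ?_⟩
    rw [AlgHom.comp_apply, hY, AlgHom.mapMatrix_apply, Matrix.map_add _ (map_add _),
      Matrix.map_mul, Matrix.map_mul]

end main

end

end Fermat.Agent.M59
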