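/-
S59 / block [Act] (helper26).  Prefix `m59ac_`.  CASE (III): trace compatibility and the unramified
eigenvalue along a chain of GENERALISED steps (`m59ac_StepG`, M59/Act/Gen.lean).  Twin of
M59/Act/Trace.lean.

* `m59ac_isUrEig_equiv` : helper10's `m59p_IsUrEig` along an equivalence of representations;
* `m59ac_isUrEig_map`   : along (anything equivalent to) the entrywise push-forward of a framing;
* `m59ac_matchG`, `m59ac_piTG_surjective`, `m59ac_stepG_isEquiv`, `m59ac_trace_stepG` : one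
  generalised step;
* `m59ac_trace_PiG`, `m59ac_trace_PiG_frob`, `m59ac_PiG_surjective`, `m59ac_PiG_isEquiv`,
  `m59ac_isUrEig_PiG` : the chain.
-/
import Mathlib
import Fermat.Agent.M59.Act.Gen
import Fermat.Agent.M59.Act.Trace
import Fermat.Agent.M59.AtP.UrEig
import Fermat.Agent.S56.Tan.Transport

set_option autoImplicit false
set_option linter.unusedSectionVars false
set_option linter.unusedVariables false
set_option linter.style.haveILetI false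

open Polynomial CuspForm IsLocalRing

namespace Fermat.Agent.M59

open Fermat.Agent.TW Fermat.Agent.S53 Fermat.Agent.S56

noncomputable section

local notation "GQ" => (AlgebraicClosure ℚ ≃ₐ[ℚ] AlgebraicClosure ℚ)
local notation "Qbar" => AlgebraicClosure ℚ

/-! ### the unramified eigenvalue along equivalences and push-forwards -/

section equiv

variable {A : Type} [CommRing A] [IsLocalRing A]

/-- `m59p_IsUrEig` passes along an equivalence of representations. -/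
theorem m59ac_isUrEig_equiv {ρ ρ' : GaloisRepAdic A} (e : ρ.Equiv ρ')
    (P : ValuationSubring Qbar) (σ : GQ) (z : A) (h : m59p_IsUrEig ρ P σ z) :
    m59p_IsUrEig ρ' P σ z := by
  obtain ⟨L, hb, hD, hI, hz⟩ := h
  refine ⟨L.map (e.toLinearEquiv : ρ.V →ₗ[A] ρ'.V), s56t_tr_line e L hb, ?_, ?_, ?_⟩
  · intro g hg v hv
    rw [s56t_tr_mem_map] at hv ⊢
    rw [s56t_tr_symm_apply]
    exact hD g hg _ hv
  · intro g hg v
    rw [s56t_tr_mem_map, map_sub, s56t_tr_symm_apply]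
    exact hI g hg _
  · intro v
    rw [s56t_tr_mem_map, map_sub, s56t_tr_symm_apply, map_smul]
    exact hz _

variable {B : Type} [CommRing B] [IsLocalRing B]

/-- `m59p_IsUrEig` passes to (anything equivalent to) the entrywise push-forward of a framing. -/
theorem m59ac_isUrEig_map (φ : A →+* B) (hφ : IsLocalHom φ) (ρ : GaloisRepAdic A)
    (r : FramedRep A) (hr : ρ.IsEquiv r.toGaloisRepAdic)
    (ρ' : GaloisRepAdic B) (h : ρ'.IsEquiv (r.map φ hφ).toGaloisRepAdic)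
    (P : ValuationSubring Qbar) (σ : GQ) (z : A) (hz : m59p_IsUrEig ρ P σ z) :
    m59p_IsUrEig ρ' P σ (φ z) := by
  obtain ⟨e₁⟩ := hr
  obtain ⟨e₂⟩ := FramedRep.baseChangeAlong_isEquiv φ hφ r
  obtain ⟨e₃⟩ := h
  exact m59ac_isUrEig_equiv (e₂.trans e₃.symm) P σ _
    (m59p_isUrEig_baseChange φ hφ r.toGaloisRepAdic P σ z (m59ac_isUrEig_equiv e₁ P σ z hz))

end equiv

/-! ### one generalised step -/

section step

variable {𝒪 : Type} [CommRing 𝒪] [IsDomain 𝒪] [IsDiscreteValuationRing 𝒪]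
  [IsAdicComplete (maximalIdeal 𝒪) 𝒪]
  {N₀ N₁ : ℕ} [NeZero N₀] [NeZero N₁] {S₀ S₁ : Finset ℕ}
  {θ₀ : heckeAlgebra N₀ 2 (↑S₀ : Set ℕ) →+* ResidueField 𝒪}
  {θ₁ : heckeAlgebra N₁ 2 (↑S₁ : Set ℕ) →+* ResidueField 𝒪}
  {B₀ : twe_Base 𝒪 N₀ S₀ θ₀} {B₁ : twe_Base 𝒪 N₁ S₁ θ₁} {p : ℕ} {Q : Finset ℕ}
  [NeZero (twe_Nbal N₀ Q ∅)] [NeZero (twe_Nbal N₁ Q ∅)]
  {L₀ : twe_Level B₀ p Q} {L₁ : twe_Level B₁ p Q} {l : ℕ}

/-- `πT` matches the Hecke operators outside `S₁ ∪ Q ∪ {ℓ ∣ N₁ ∏ t²}`. -/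
theorem m59ac_matchG (St : m59ac_StepG L₀ L₁ l) :
    twc_fr_Match L₁.H' L₀.H' St.πT ((S₁ ∪ Q) ∪ (twe_Nbal N₁ Q ∅).primeFactors) := by
  classical
  intro ℓ hℓ h2N h2S hℓS
  have h1N : ¬ ℓ ∣ twe_Nbal N₁ Q ∅ := fun h' =>
    hℓS (Finset.mem_union_right _ (Nat.mem_primeFactors.2 ⟨hℓ, h', NeZero.ne _⟩))
  have h1S : ℓ ∉ (↑(S₁ ∪ Q) : Set ℕ) := fun h' =>
    hℓS (Finset.mem_union_left _ (Finset.mem_coe.1 h'))
  exact ⟨h1N, h1S, St.πT_T ℓ hℓ h1N h1S h2N h2S⟩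

theorem m59ac_piTG_surjective (hNS₀ : ∀ ℓ : ℕ, ℓ.Prime → ℓ ∣ twe_Nbal N₀ Q ∅ → ℓ ∈ S₀ ∪ Q)
    (St : m59ac_StepG L₀ L₁ l) : Function.Surjective St.πT :=
  twc_fr_match_surjective hNS₀ (m59ac_matchG St)

/-- a framing of the upper level pushes forward to a framing of the lower level. -/
theorem m59ac_stepG_isEquiv (hNS₀ : ∀ ℓ : ℕ, ℓ.Prime → ℓ ∣ twe_Nbal N₀ Q ∅ → ℓ ∈ S₀ ∪ Q)
    (St : m59ac_StepG L₀ L₁ l) (hloc : IsLocalHom (St.πT : L₁.T' →+* L₀.T'))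
    (r₁ : FramedRep L₁.T') (h₁ : L₁.H'.ρ.IsEquiv r₁.toGaloisRepAdic) :
    L₀.H'.ρ.IsEquiv (r₁.map (St.πT : L₁.T' →+* L₀.T') hloc).toGaloisRepAdic :=
  twc_fr_isEquiv_map hNS₀ (m59ac_matchG St) hloc r₁ h₁

/-- **[CI-TR], one generalised step**: `πT (tr ρ₁ σ) = tr ρ₀ σ` for every `σ`. -/
theorem m59ac_trace_stepG (hNS₀ : ∀ ℓ : ℕ, ℓ.Prime → ℓ ∣ twe_Nbal N₀ Q ∅ → ℓ ∈ S₀ ∪ Q)
    (St : m59ac_StepG L₀ L₁ l) (σ : GQ) :
    St.πT (L₁.H'.ρ.trace σ) = L₀.H'.ρ.trace σ := by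
  have hloc : IsLocalHom (St.πT : L₁.T' →+* L₀.T') :=
    IsLocalHom.of_surjective _ (m59ac_piTG_surjective hNS₀ St)
  obtain ⟨r₁, h₁⟩ := exists_framedRep L₁.H'.ρ
  have h₀ := m59ac_stepG_isEquiv hNS₀ St hloc r₁ h₁
  rw [m59ac_trace_framed _ r₁ h₁ σ, m59ac_trace_framed _ _ h₀ σ, FramedRep.map_apply]
  show (St.πT : L₁.T' →+* L₀.T') (r₁ σ).trace = ((r₁ σ).map (St.πT : L₁.T' →+* L₀.T')).trace
  rw [Matrix.trace, Matrix.trace, map_sum]
  rfl

end step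

/-! ### the chain -/

section chain

variable {𝒪 : Type} [CommRing 𝒪] [IsDomain 𝒪] [IsDiscreteValuationRing 𝒪]
  [IsAdicComplete (maximalIdeal 𝒪) 𝒪] {p : ℕ} {Q : Finset ℕ} {m : ℕ}
  (pk : Fin (m + 1) → m59ac_Pk 𝒪 p Q) (l : Fin m → ℕ)
  (stg : ∀ k : Fin m, m59ac_StepG (pk k.castSucc).L (pk k.succ).L (l k))

/-- **[CI-TR]**: `Π_k (tr ρ_top σ) = tr ρ_k σ` for every level `k` and every `σ`. -/
theorem m59ac_trace_PiG
    (hNS : ∀ k, ∀ ℓ : ℕ, ℓ.Prime → ℓ ∣ twe_Nbal (pk k).N Q ∅ → ℓ ∈ (pk k).S ∪ Q)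
    (k : Fin (m + 1)) (σ : GQ) :
    m59ac_PiG pk l stg k ((pk (Fin.last m)).L.H'.ρ.trace σ) = (pk k).L.H'.ρ.trace σ := by
  induction k using Fin.reverseInduction with
  | last =>
    rw [m59ac_PiG_last]
    rfl
  | cast k ih =>
    rw [m59ac_PiG_castSucc, AlgHom.comp_apply, ih]
    exact m59ac_trace_stepG (hNS k.castSucc) (stg k) σ

/-- **[CI-TR] at a Frobenius element**: for a prime `q` good for the level `k` and a Frobenius
element `τ` at `q`: `Π_k (tr ρ_top τ) = T_q` in `T'_k`. -/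
theorem m59ac_trace_PiG_frob
    (hNS : ∀ k, ∀ ℓ : ℕ, ℓ.Prime → ℓ ∣ twe_Nbal (pk k).N Q ∅ → ℓ ∈ (pk k).S ∪ Q)
    (k : Fin (m + 1)) (q : ℕ) (hq : q.Prime) (hqN : ¬ q ∣ twe_Nbal (pk k).N Q ∅)
    (hqS : q ∉ (↑((pk k).S ∪ Q) : Set ℕ))
    (A : ValuationSubring (AlgebraicClosure ℚ)) (hA : A.LiesOverPrime q) (τ : GQ)
    (hτ : A.IsFrobeniusAt τ q) :
    m59ac_PiG pk l stg k ((pk (Fin.last m)).L.H'.ρ.trace τ) =
      (pk k).L.H'.π (heckeAlgebra.T hq hqN hqS) := by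
  rw [m59ac_trace_PiG pk l stg hNS k τ]
  exact m59ac_trace_frob (pk k).L.H' q hq hqN hqS A hA τ hτ

/-- `Π_k : T'_top → T'_k` is onto. -/
theorem m59ac_PiG_surjective
    (hNS : ∀ k, ∀ ℓ : ℕ, ℓ.Prime → ℓ ∣ twe_Nbal (pk k).N Q ∅ → ℓ ∈ (pk k).S ∪ Q)
    (k : Fin (m + 1)) : Function.Surjective (m59ac_PiG pk l stg k) := by
  induction k using Fin.reverseInduction with
  | last =>
    rw [m59ac_PiG_last]
    exact Function.surjective_id
  | cast k ih =>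
    rw [m59ac_PiG_castSucc]
    exact (m59ac_piTG_surjective (hNS k.castSucc) (stg k)).comp ih

/-- **rigidity along the chain**: the push-forward along `Π_k` of a framing of the representation
of the top level is a framing of the representation of the level `k`. -/
theorem m59ac_PiG_isEquiv
    (hNS : ∀ k, ∀ ℓ : ℕ, ℓ.Prime → ℓ ∣ twe_Nbal (pk k).N Q ∅ → ℓ ∈ (pk k).S ∪ Q)
    (k : Fin (m + 1))
    (hloc : IsLocalHom (m59ac_PiG pk l stg k : (pk (Fin.last m)).L.T' →+* (pk k).L.T'))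
    (r : FramedRep (pk (Fin.last m)).L.T')
    (h : (pk (Fin.last m)).L.H'.ρ.IsEquiv r.toGaloisRepAdic) :
    (pk k).L.H'.ρ.IsEquiv
      (r.map (m59ac_PiG pk l stg k : (pk (Fin.last m)).L.T' →+* (pk k).L.T')
        hloc).toGaloisRepAdic := by
  induction k using Fin.reverseInduction with
  | last =>
    have e : r.map (m59ac_PiG pk l stg (Fin.last m) :
        (pk (Fin.last m)).L.T' →+* (pk (Fin.last m)).L.T') hloc = r := by
      apply FramedRep.ext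
      intro σ
      rw [FramedRep.map_apply, m59ac_PiG_last]
      ext i j
      rfl
    rw [e]
    exact h
  | cast k ih =>
    have hloc1 : IsLocalHom (m59ac_PiG pk l stg k.succ :
        (pk (Fin.last m)).L.T' →+* (pk k.succ).L.T') :=
      IsLocalHom.of_surjective _ (m59ac_PiG_surjective pk l stg hNS k.succ)
    have hloc2 : IsLocalHom ((stg k).πT : (pk k.succ).L.T' →+* (pk k.castSucc).L.T') :=
      IsLocalHom.of_surjective _ (m59ac_piTG_surjective (hNS k.castSucc) (stg k))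
    have h1 := ih hloc1
    have h2 := m59ac_stepG_isEquiv (hNS k.castSucc) (stg k) hloc2 _ h1
    have e : r.map (m59ac_PiG pk l stg k.castSucc :
        (pk (Fin.last m)).L.T' →+* (pk k.castSucc).L.T') hloc =
        (r.map (m59ac_PiG pk l stg k.succ :
          (pk (Fin.last m)).L.T' →+* (pk k.succ).L.T') hloc1).map
          ((stg k).πT : (pk k.succ).L.T' →+* (pk k.castSucc).L.T') hloc2 := by
      apply FramedRep.ext
      intro σ
      rw [FramedRep.map_apply, FramedRep.map_apply, FramedRep.map_apply, m59ac_PiG_castSucc]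
      ext i j
      rfl
    rw [e]
    exact h2

/-- **the unramified eigenvalue along the chain**: `Π_k` of an eigenvalue of `σ` on an unramified
quotient line of `ρ_top` is one for `ρ_k`. -/
theorem m59ac_isUrEig_PiG
    (hNS : ∀ k, ∀ ℓ : ℕ, ℓ.Prime → ℓ ∣ twe_Nbal (pk k).N Q ∅ → ℓ ∈ (pk k).S ∪ Q)
    (k : Fin (m + 1)) (P : ValuationSubring Qbar) (σ : GQ) (z : (pk (Fin.last m)).L.T')
    (hz : m59p_IsUrEig (pk (Fin.last m)).L.H'.ρ P σ z) :
    m59p_IsUrEig (pk k).L.H'.ρ P σ (m59ac_PiG pk l stg k z) := by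
  have hloc : IsLocalHom (m59ac_PiG pk l stg k : (pk (Fin.last m)).L.T' →+* (pk k).L.T') :=
    IsLocalHom.of_surjective _ (m59ac_PiG_surjective pk l stg hNS k)
  obtain ⟨r, hr⟩ := exists_framedRep (pk (Fin.last m)).L.H'.ρ
  exact m59ac_isUrEig_map
    (m59ac_PiG pk l stg k : (pk (Fin.last m)).L.T' →+* (pk k).L.T') hloc
    (pk (Fin.last m)).L.H'.ρ r hr (pk k).L.H'.ρ (m59ac_PiG_isEquiv pk l stg hNS k hloc r hr)
    P σ z hz

end chain

end

end Fermat.Agent.M59
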