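/-
S59 / block [Act] (helper26).  Prefix `m59ac_`.  Cell [CI3-ACT], CASE (III).

THE MODULE SIDE OF THE CHAIN SYSTEM OF CASE (III).  From a chain of generalised steps with their
arithmetic clauses (`m59ac_StepG3` = `m59ac_StepG` + the relation of `Tp` with the trace / (I3) at a
prime `≠ p`, (ES-p)₀ / (I3)-at-`p` at the prime `p`), Galois diamonds at the TOP level, an eigenvalue
`zT'` of a Frobenius element at `p` on an unramified quotient line of `ρ_top` and the flat clause at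
the level `0`, the structure `m59ci3_ActSys` (M59/Top/Chain3/SysGlue3.lean) over the Hecke ring of
the top level.

* `m59ci3_jcast` : the identity `M_n(R) → M_{n'}(R)` for `n = n'`;
* `m59ac_StepG3`, `.ofStep`, `.ofStepP`, `.cast`;
* `m59ac_actSys3` : THE HEADLINE (the top level is named by `htop : pk (Fin.last m) = Ptop` and the
  ranks by `hd : d k = (pk k).B.d * 2 ^ r`, so that the consumer is free to choose the presentation
  of the bundled family `pk`).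
-/
import Mathlib
import Fermat.Agent.M59.Act.TraceG
import Fermat.Agent.M59.Act.Sys
import Fermat.Agent.M59.Top.Chain3.SysGlue3

set_option autoImplicit false
set_option linter.unusedSectionVars false
set_option linter.unusedVariables false
set_option linter.style.haveILetI false

open Polynomial CuspForm IsLocalRing

namespace Fermat.Agent.M59

open Fermat.Agent.TW

noncomputable section

local notation "GQ" => (AlgebraicClosure ℚ ≃ₐ[ℚ] AlgebraicClosure ℚ)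
local notation "Qbar" => AlgebraicClosure ℚ

/-! ### the cast of matrix rings -/

/-- the identity `M_n(R) → M_{n'}(R)` for `n = n'`. -/
def m59ci3_jcast {R : Type*} [Semiring R] {n n' : ℕ} (h : n = n') :
    Matrix (Fin n) (Fin n) R →+* Matrix (Fin n') (Fin n') R :=
  h ▸ RingHom.id _

theorem m59ci3_jcast_self {R : Type*} [Semiring R] {n : ℕ} (h : n = n)
    (M : Matrix (Fin n) (Fin n) R) : m59ci3_jcast h M = M := rfl

/-! ### generalised steps with their arithmetic clauses -/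

section stepG3

variable {𝒪 : Type} [CommRing 𝒪] [IsDomain 𝒪] [IsDiscreteValuationRing 𝒪]
  [IsAdicComplete (maximalIdeal 𝒪) 𝒪]
  {N₀ N₁ : ℕ} [NeZero N₀] [NeZero N₁] {S₀ S₁ : Finset ℕ}
  {θ₀ : heckeAlgebra N₀ 2 (↑S₀ : Set ℕ) →+* ResidueField 𝒪}
  {θ₁ : heckeAlgebra N₁ 2 (↑S₁ : Set ℕ) →+* ResidueField 𝒪}
  {B₀ : twe_Base 𝒪 N₀ S₀ θ₀} {B₁ : twe_Base 𝒪 N₁ S₁ θ₁} {p : ℕ} {Q : Finset ℕ}
  [NeZero (twe_Nbal N₀ Q ∅)] [NeZero (twe_Nbal N₁ Q ∅)]

/-- **a generalised step with its arithmetic clauses**: at a prime `l ≠ p` the clauses of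
`m59ep_Step` (`Tp = tr ρ₀(Frob_l)`, (I3)); at `l = p` the clauses of `m59p_StepP` ((ES-p)₀,
(I3) at `p`). -/
structure m59ac_StepG3 (L₀ : twe_Level B₀ p Q) (L₁ : twe_Level B₁ p Q) (l : ℕ) : Type where
  /-- the underlying generalised step -/
  toStepG : m59ac_StepG L₀ L₁ l
  tp_eq : l ≠ p → ∀ P : ValuationSubring Qbar, P.LiesOverPrime l → ∀ σ : GQ,
    P.IsFrobeniusAt σ l → ∀ x : L₀.M, toStepG.Tp x = L₀.H'.ρ.trace σ • x
  new : l ≠ p → ∀ P : ValuationSubring Qbar, P.LiesOverPrime l → ∀ σ : GQ,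
    P.IsFrobeniusAt σ l → ∀ y : L₁.M, ∃ y₁ y₂ : L₀.M,
      ((L₁.H'.ρ.trace σ) ^ 2 - ((l : L₁.T') + 1) ^ 2) ^ (B₁.d * 2 ^ Q.card) • y =
        toStepG.A y₁ + toStepG.B y₂
  esp : l = p → ∀ P : ValuationSubring Qbar, P.LiesOverPrime p → ∀ σ : GQ,
    P.IsFrobeniusAt σ p → ∀ z : L₀.T', m59p_IsUrEig L₀.H'.ρ P σ z → ∀ x : L₀.M,
      ((fun m' : L₀.M => z • toStepG.Tp m' - (z ^ 2 + (p : L₀.T')) • m')^[B₀.d * 2 ^ Q.card]) x = 0
  newp : l = p → ∀ P : ValuationSubring Qbar, P.LiesOverPrime p → ∀ σ : GQ,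
    P.IsFrobeniusAt σ p → ∀ z' : L₁.T', m59p_IsUrEig L₁.H'.ρ P σ z' → ∀ y : L₁.M,
      ∃ y₁ y₂ : L₀.M, (z' ^ 2 - 1) ^ (B₁.d * 2 ^ Q.card) • y = toStepG.A y₁ + toStepG.B y₂

/-- a step of the chain of [E'] at a prime `l ≠ p` good for the lower level. -/
def m59ac_StepG3.ofStep {L₀ : twe_Level B₀ p Q} {L₁ : twe_Level B₁ p Q} {l : ℕ}
    (St : m59ep_Step L₀ L₁ l) (hl : l.Prime) (h1 : ¬ l ∣ twe_Nbal N₀ Q ∅)
    (h2 : l ∉ (↑(S₀ ∪ Q) : Set ℕ)) (hlp : l ≠ p) : m59ac_StepG3 L₀ L₁ l where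
  toStepG := m59ac_StepG.ofStep St hl h1 h2
  tp_eq := fun _ P hP σ hσ x => by
    rw [m59ac_StepG.ofStep_Tp, m59ac_trace_frob L₀.H' l hl h1 h2 P hP σ hσ]
  new := fun _ P hP σ hσ y => St.new P hP σ hσ y
  esp := fun h => absurd h hlp
  newp := fun h => absurd h hlp

end stepG3

section stepG3P

variable {𝒪 : Type} [CommRing 𝒪] [IsDomain 𝒪] [IsDiscreteValuationRing 𝒪]
  [IsAdicComplete (maximalIdeal 𝒪) 𝒪]
  {N₀ N₁ : ℕ} [NeZero N₀] [NeZero N₁] {S : Finset ℕ}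
  {θ₀ : heckeAlgebra N₀ 2 (↑S : Set ℕ) →+* ResidueField 𝒪}
  {θ₁ : heckeAlgebra N₁ 2 (↑S : Set ℕ) →+* ResidueField 𝒪}
  {B₀ : twe_Base 𝒪 N₀ S θ₀} {B₁ : twe_Base 𝒪 N₁ S θ₁} {p : ℕ} {Q : Finset ℕ}
  [NeZero (twe_Nbal N₀ Q ∅)] [NeZero (twe_Nbal N₁ Q ∅)]

/-- helper10's step at `l = p`. -/
def m59ac_StepG3.ofStepP {L₀ : twe_Level B₀ p Q} {L₁ : twe_Level B₁ p Q}
    (St : m59p_StepP L₀ L₁) : m59ac_StepG3 L₀ L₁ p where
  toStepG := m59ac_StepG.ofStepP St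
  tp_eq := fun h => absurd rfl h
  new := fun h => absurd rfl h
  esp := fun _ P hP σ hσ z hz x => St.esp P hP σ hσ z hz x
  newp := fun _ P hP σ hσ z' hz' y => St.new P hP σ hσ z' hz' y

end stepG3P

section cast

variable {𝒪 : Type} [CommRing 𝒪] [IsDomain 𝒪] [IsDiscreteValuationRing 𝒪]
  [IsAdicComplete (maximalIdeal 𝒪) 𝒪] {p : ℕ} {Q : Finset ℕ}

/-- transport of a step along equalities of bundled levels. -/
def m59ac_StepG3.cast {P₀ P₀' P₁ P₁' : m59ac_Pk 𝒪 p Q} {l l' : ℕ} (h₀ : P₀' = P₀)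
    (h₁ : P₁' = P₁) (hl : l' = l) (st : m59ac_StepG3 P₀.L P₁.L l) :
    m59ac_StepG3 P₀'.L P₁'.L l' := by
  subst h₀
  subst h₁
  subst hl
  exact st

end cast

/-! ### The headline -/

section main

variable {𝒪 : Type} [CommRing 𝒪] [IsDomain 𝒪] [IsDiscreteValuationRing 𝒪]
  [IsAdicComplete (maximalIdeal 𝒪) 𝒪] {p : ℕ} {Q : Finset ℕ} {m : ℕ}

/-- **[CI3-ACT]: the module side of the chain system of case (III).** -/
theorem m59ac_actSys3 [hp : Fact p.Prime] (hp𝒪 : (p : 𝒪) ∈ maximalIdeal 𝒪)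
    (pk : Fin (m + 1) → m59ac_Pk 𝒪 p Q) (l : Fin m → ℕ)
    (stg : ∀ k : Fin m, m59ac_StepG3 (pk k.castSucc).L (pk k.succ).L (l k))
    (hNS : ∀ k, ∀ ℓ : ℕ, ℓ.Prime → ℓ ∣ twe_Nbal (pk k).N Q ∅ → ℓ ∈ (pk k).S ∪ Q)
    (hpS : p ∈ (pk 0).S ∪ Q)
    (hl : ∀ k : Fin m, (l k).Prime)
    (hl0 : ∀ k : Fin m, l k ≠ p → ¬ l k ∣ twe_Nbal (pk 0).N Q ∅)
    (r : ℕ) (qv : Fin r → ℕ) (hqv : ∀ i, qv i ∈ Q) (hinj : Function.Injective qv)
    (hsurj : ∀ t ∈ Q, ∃ i, qv i = t) (n : ℕ) (hn : ∀ i, p ^ n ∣ twe_ord p (qv i))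
    (Ptop : m59ac_Pk 𝒪 p Q) (htop : pk (Fin.last m) = Ptop)
    (d : Fin (m + 1) → ℕ) (hd : ∀ k, d k = (pk k).B.d * 2 ^ r)
    (hdl : d (Fin.last m) = Ptop.B.d * 2 ^ r)
    (EE : ℕ) (hEE : ∀ k : Fin m, l k = p → EE = d k.castSucc)
    (u : ∀ t : ℕ, t ∈ Q → Ptop.L.T') (hu : m59ac_IsDia Ptop.L u)
    (P : ValuationSubring Qbar) (hP : P.LiesOverPrime p) (σp : GQ) (hσp : P.IsFrobeniusAt σp p)
    (zT' : Ptop.L.T') (hz : m59p_IsUrEig Ptop.L.H'.ρ P σp zT')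
    (lam : 𝒪) (g0 tv : GQ)
    (hv0 : (pk 0).L.H'.ρ.trace (g0 * tv) - (pk 0).L.H'.ρ.trace g0 ∈
      Ideal.span {algebraMap 𝒪 (pk 0).L.T' lam} ⊔ maximalIdeal (pk 0).L.T' ^ 2) :
    Nonempty (m59ci3_ActSys 𝒪 r d l p (fun k => d k.succ) EE lam
      (twds_a 𝒪 r) (twds_b 𝒪 r (p ^ n)) (twds_b_le_a r (p ^ n))
      Ptop.L.T' (fun σ => Ptop.L.H'.ρ.trace σ) zT'
      (Ptop.L.H'.ρ.trace (g0 * tv) - Ptop.L.H'.ρ.trace g0)
      ((m59ci3_jcast hdl.symm).comp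
        ((twc_j Ptop.B r).comp (Ptop.L.π0 : Ptop.L.T' →+* Ptop.B.T)))
      (fun i => u (qv i) (hqv i))) := by
  classical
  subst htop
  obtain rfl : d = fun k => (pk k).B.d * 2 ^ r := funext hd
  set stG : ∀ k : Fin m, m59ac_StepG (pk k.castSucc).L (pk k.succ).L (l k) :=
    fun k => (stg k).toStepG with hstG
  obtain ⟨act, MA, MB, MAt, MBt, Tm, h1, h2, h3A, h3B, h3At, h3Bt, h4AA, h4BB, h4AB, h4BA, h5, h6,
    hES, hI3⟩ := m59ac_chainG hp𝒪 pk l stG u hu r qv hqv hinj hsurj n hn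
  obtain rfl : Q.card = r := twc_sm_card_of_enum qv hqv hinj hsurj
  have htr := m59ac_trace_PiG pk l stG hNS
  have hur := fun k => m59ac_isUrEig_PiG pk l stG hNS k P σp zT' hz
  refine ⟨{
    act := fun k => (act k).comp (m59ac_PiG pk l stG k)
    act_u := fun k i => ?_
    A := MA
    B := MB
    A' := MAt
    B' := MBt
    Tm := Tm
    A_act := fun k x => ?_
    B_act := fun k x => ?_
    A'_act := fun k x => ?_
    B'_act := fun k x => ?_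
    A'_A := fun k => ?_
    B'_B := fun k => ?_
    A'_B := h4AB
    B'_A := h4BA
    Tm_eq := fun k hlk σ hσ => ?_
    Tm_nil := fun k hlk => ?_
    split := h5
    onto := fun k => ?_
    new := fun k hlk σ hσ => ?_
    newp := fun k hlk => ?_
    unr0 := ?_
    flat0 := ?_
    act_mod := fun t => ?_ }⟩
  · rw [AlgHom.comp_apply, h1 k i, map_add, map_one]
  · rw [AlgHom.comp_apply, AlgHom.comp_apply, m59ac_PiG_castSucc, AlgHom.comp_apply]
    exact h3A k _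
  · rw [AlgHom.comp_apply, AlgHom.comp_apply, m59ac_PiG_castSucc, AlgHom.comp_apply]
    exact h3B k _
  · rw [AlgHom.comp_apply, AlgHom.comp_apply, m59ac_PiG_castSucc, AlgHom.comp_apply]
    exact h3At k _
  · rw [AlgHom.comp_apply, AlgHom.comp_apply, m59ac_PiG_castSucc, AlgHom.comp_apply]
    exact h3Bt k _
  · rw [AlgHom.comp_apply, map_add, map_natCast, map_one]
    exact h4AA k
  · rw [AlgHom.comp_apply, map_add, map_natCast, map_one]
    exact h4BB k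
  · -- `Tm_eq`
    obtain ⟨P', hP', hσP'⟩ := hσ
    rw [AlgHom.comp_apply, htr k.castSucc σ]
    have h := hES k 1 ((pk k.castSucc).L.H'.ρ.trace σ) 1 (fun x => by
      rw [Function.iterate_one, one_smul, (stg k).tp_eq hlk P' hP' σ hσP' x, sub_self])
    rw [pow_one, map_one, one_mul, sub_eq_zero] at h
    exact h
  · -- `Tm_nil`
    have h := hES k (m59ac_PiG pk l stG k.castSucc zT')
      (m59ac_PiG pk l stG k.castSucc zT' ^ 2 + (p : (pk k.castSucc).L.T'))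
      ((pk k.castSucc).B.d * 2 ^ Q.card)
      (fun x => (stg k).esp hlk P hP σp hσp _ (hur k.castSucc) x)
    rw [hEE k hlk, AlgHom.comp_apply, AlgHom.comp_apply, map_add, map_pow, map_natCast]
    exact h
  · obtain ⟨V₁, V₂, hV1, hV2, -, -⟩ := h6 k
    exact ⟨V₁, hV1, hV2⟩
  · -- `new`
    obtain ⟨P', hP', hσP'⟩ := hσ
    obtain ⟨Y₁, Y₂, hY⟩ := hI3 k _ ((stg k).new hlk P' hP' σ hσP')
    refine ⟨Y₁, Y₂, ?_⟩
    have e : m59ac_PiG pk l stG k.succ ((((pk (Fin.last m)).L.H'.ρ.trace σ) ^ 2 -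
        (((l k : ℕ) : (pk (Fin.last m)).L.T') + 1) ^ 2) ^ ((pk k.succ).B.d * 2 ^ Q.card)) =
        (((pk k.succ).L.H'.ρ.trace σ) ^ 2 - (((l k : ℕ) : (pk k.succ).L.T') + 1) ^ 2) ^
          ((pk k.succ).B.d * 2 ^ Q.card) := by
      rw [map_pow, map_sub, map_pow, map_pow, map_add, map_natCast, map_one, htr k.succ σ]
    rw [AlgHom.comp_apply, e]
    exact hY
  · -- `newp`
    obtain ⟨Y₁, Y₂, hY⟩ := hI3 k _ ((stg k).newp hlk P hP σp hσp _ (hur k.succ))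
    refine ⟨Y₁, Y₂, ?_⟩
    have e : m59ac_PiG pk l stG k.succ ((zT' ^ 2 - 1) ^ ((pk k.succ).B.d * 2 ^ Q.card)) =
        (m59ac_PiG pk l stG k.succ zT' ^ 2 - 1) ^ ((pk k.succ).B.d * 2 ^ Q.card) := by
      rw [map_pow, map_sub, map_pow, map_one]
    rw [AlgHom.comp_apply, e]
    exact hY
  · -- `unr0`
    rintro x ⟨k, σ, τ, hlk, hτ, rfl⟩
    rw [AlgHom.comp_apply, map_sub, htr 0 (σ * τ), htr 0 σ,
      m59ac_level_unr_trace hp.out hp𝒪 (pk 0).L hpS (hNS 0) (l k) (hl k) (hl0 k hlk) hlk σ τ hτ,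
      sub_self, map_zero]
  · -- `flat0`
    have hsur : Function.Surjective
        (m59ac_PiG pk l stG 0 : (pk (Fin.last m)).L.T' →+* (pk 0).L.T') :=
      m59ac_PiG_surjective pk l stG hNS 0
    have hcc : (pk 0).L.H'.ρ.trace (g0 * tv) - (pk 0).L.H'.ρ.trace g0 ∈
        Ideal.span {(m59ac_PiG pk l stG 0 : (pk (Fin.last m)).L.T' →+* (pk 0).L.T')
          (algebraMap 𝒪 (pk (Fin.last m)).L.T' lam)} ⊔ maximalIdeal (pk 0).L.T' ^ 2 := by
      have e : (m59ac_PiG pk l stG 0 : (pk (Fin.last m)).L.T' →+* (pk 0).L.T')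
          (algebraMap 𝒪 (pk (Fin.last m)).L.T' lam) = algebraMap 𝒪 (pk 0).L.T' lam :=
        (m59ac_PiG pk l stG 0).commutes lam
      rw [e]
      exact hv0
    obtain ⟨c, hc1, hc2⟩ := m59ci3_exists_preimage
      (m59ac_PiG pk l stG 0 : (pk (Fin.last m)).L.T' →+* (pk 0).L.T') hsur
      (algebraMap 𝒪 (pk (Fin.last m)).L.T' lam) _ hcc
    refine ⟨c, hc1, ?_⟩
    have hc3 : m59ac_PiG pk l stG 0 c =
        (pk 0).L.H'.ρ.trace (g0 * tv) - (pk 0).L.H'.ρ.trace g0 := hc2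
    rw [AlgHom.comp_apply, map_sub (m59ac_PiG pk l stG 0), map_sub (m59ac_PiG pk l stG 0),
      htr 0 (g0 * tv), htr 0 g0, hc3, sub_self, map_zero]
  · -- `act_mod`
    rw [AlgHom.comp_apply, m59ac_PiG_last]
    exact h2 (Fin.last m) t

end main

end

end Fermat.Agent.M59
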