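/-
S59 / block [Act] (helper26).  Prefix `m59ac_` / `m59ci3_`.  Cell [CI3-ACT], CASE (III).

`m59ci3_Act_stmt` : the module side of the cut of [CI3-SYS] (M59/Top/Chain3/SysGlue3.lean), in the
literal context of the OUTPUT of helper10's `m59p_ChainP_stmt` (M59/AtP/Seams.lean): bases `B k`,
`Bp`, levels `L k`, `Lp` (`Lp` at the level `N_m · p`), steps `m59ep_Step`, the step `m59p_StepP` on
top; Galois diamonds `u` at `Lp`; an eigenvalue `zT'` of a Frobenius element at `p` on an unramified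
quotient line of `ρ_{Lp}`; the flat clause at the level `0` in trace form.  Conclusion: ranks
`d : Fin (m + 2) → ℕ` with `d k.castSucc = (B k).d * 2 ^ rr`, `d (Fin.last _) = Bp.d * 2 ^ rr`, and
`m59ci3_ActSys` over `Lp.T'` for the chain of primes `Fin.snoc l p`.

`m59ac_act3_stmt : m59ci3_Act_stmt`  CLOSED (from `m59ac_actSys3`, M59/Act/Sys3.lean).
-/
import Mathlib
import Fermat.Agent.M59.Act.Sys3
import Fermat.Agent.M59.Act.ActStmt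

set_option autoImplicit false
set_option linter.unusedSectionVars false
set_option linter.unusedVariables false
set_option linter.style.haveILetI false

open Polynomial CuspForm IsLocalRing

namespace Fermat.Agent.M59

open Fermat.Agent.TW

noncomputable section

local notation "GQ" => (AlgebraicClosure ℚ ≃ₐ[ℚ] AlgebraicClosure ℚ)
local notation "Qbar" => AlgebraicClosure ℚ

/-- **[CI3-ACT]** (module side, case (III)). -/
def m59ci3_Act_stmt : Prop :=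
  ∀ (p : ℕ) [Fact p.Prime], p ≠ 2 →
  ∀ (𝒪 : Type) [CommRing 𝒪] [IsDomain 𝒪] [IsDiscreteValuationRing 𝒪]
    [IsAdicComplete (maximalIdeal 𝒪) 𝒪] [Finite (ResidueField 𝒪)] [CharZero 𝒪],
    (p : 𝒪) ∈ maximalIdeal 𝒪 →
  ∀ (N : ℕ) [NeZero N] (S₀ : Finset ℕ), p ∈ S₀ → (∀ ℓ : ℕ, ℓ.Prime → ℓ ∣ N → ℓ ∈ S₀) →
  ∀ (m : ℕ) (l : Fin m → ℕ), Function.Injective l →
    (∀ i, (l i).Prime ∧ l i ∉ S₀ ∧ l i ≠ p) →
  ∀ [∀ k : ℕ, NeZero (m59ep_lvl N l k)] [NeZero (m59ep_lvl N l m * p)]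
    (θ : ∀ k : ℕ, heckeAlgebra (m59ep_lvl N l k) 2 (↑(m59ep_bad S₀ l k) : Set ℕ) →+*
      ResidueField 𝒪)
    (θp : heckeAlgebra (m59ep_lvl N l m * p) 2 (↑(m59ep_bad S₀ l m) : Set ℕ) →+* ResidueField 𝒪)
    (B : ∀ k : ℕ, twe_Base 𝒪 (m59ep_lvl N l k) (m59ep_bad S₀ l k) (θ k))
    (Bp : twe_Base 𝒪 (m59ep_lvl N l m * p) (m59ep_bad S₀ l m) θp)
    (Q : Finset ℕ) [∀ k : ℕ, NeZero (twe_Nbal (m59ep_lvl N l k) Q ∅)]
    [NeZero (twe_Nbal (m59ep_lvl N l m * p) Q ∅)],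
    (∀ t ∈ Q, t.Prime) → (∀ t ∈ Q, t ∉ S₀ ∧ ∀ i, t ≠ l i) →
  ∀ (L : ∀ k : ℕ, twe_Level (B k) p Q) (Lp : twe_Level Bp p Q),
    (∀ k : Fin m, Nonempty (m59ep_Step (L (k : ℕ)) (L ((k : ℕ) + 1)) (l k))) →
    Nonempty (m59p_StepP (L m) Lp) →
  ∀ (u : ∀ t : ℕ, t ∈ Q → Lp.T'), m59ac_IsDia Lp u →
  ∀ (P : ValuationSubring Qbar), P.LiesOverPrime p → ∀ σp : GQ, P.IsFrobeniusAt σp p →
  ∀ zT' : Lp.T', m59p_IsUrEig Lp.H'.ρ P σp zT' →
  ∀ (lam : 𝒪) (g0 tv : GQ),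
    (L 0).H'.ρ.trace (g0 * tv) - (L 0).H'.ρ.trace g0 ∈
      Ideal.span {algebraMap 𝒪 (L 0).T' lam} ⊔ maximalIdeal (L 0).T' ^ 2 →
  ∀ (rr : ℕ) (qv : Fin rr → ℕ) (hqv : ∀ i, qv i ∈ Q), Function.Injective qv →
    (∀ t ∈ Q, ∃ i, qv i = t) →
  ∀ n : ℕ, (∀ i, p ^ n ∣ twe_ord p (qv i)) →
    ∃ (d : Fin (m + 2) → ℕ) (_ : ∀ k : Fin (m + 1), d k.castSucc = (B (k : ℕ)).d * 2 ^ rr)
      (hdp : d (Fin.last (m + 1)) = Bp.d * 2 ^ rr),
      Nonempty (m59ci3_ActSys 𝒪 rr d (@Fin.snoc m (fun _ => ℕ) l p) p (fun k => d k.succ)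
        ((B m).d * 2 ^ rr) lam
        (twds_a 𝒪 rr) (twds_b 𝒪 rr (p ^ n)) (twds_b_le_a rr (p ^ n))
        Lp.T' (fun σ => Lp.H'.ρ.trace σ) zT' (Lp.H'.ρ.trace (g0 * tv) - Lp.H'.ρ.trace g0)
        ((m59ci3_jcast hdp.symm).comp ((twc_j Bp rr).comp (Lp.π0 : Lp.T' →+* Bp.T)))
        (fun i => u (qv i) (hqv i)))

/-- **[CI3-ACT]**, CLOSED. -/
theorem m59ac_act3_stmt : m59ci3_Act_stmt := by
  intro p hpF hp2 𝒪 _ _ _ _ _ _ hp𝒪 N _ S₀ hpS₀ hNS₀ m l hlinj hl _ _ θ θp B Bp Q _ _ hQprime hQ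
    L Lp hSt hStP u hu P hP σp hσp zT' hz lam g0 tv hv0 rr qv hqv hqinj hqsurj n hn
  classical
  have hp : p.Prime := hpF.out
  -- the arithmetic of the chain
  have hNS : ∀ k : ℕ, ∀ q : ℕ, q.Prime → q ∣ twe_Nbal (m59ep_lvl N l k) Q ∅ →
      q ∈ m59ep_bad S₀ l k ∪ Q := fun k =>
    m59ac_nbal_primes _ _
      (fun q hq hd => m59ac_lvl_primes N S₀ hNS₀ l (fun i => (hl i).1) k q hq hd) Q hQprime
  have hNSp : ∀ q : ℕ, q.Prime → q ∣ twe_Nbal (m59ep_lvl N l m * p) Q ∅ →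
      q ∈ m59ep_bad S₀ l m ∪ Q :=
    m59ac_nbal_primes _ _ (fun q hq hd => by
      rcases (Nat.Prime.dvd_mul hq).mp hd with h | h
      · exact m59ac_lvl_primes N S₀ hNS₀ l (fun i => (hl i).1) m q hq h
      · have : q = p := (Nat.prime_dvd_prime_iff_eq hq hp).mp h
        exact (m59ac_mem_bad S₀ l m q).2 (Or.inl (this ▸ hpS₀))) Q hQprime
  have hnb : ∀ (k : Fin m) (j : ℕ), j ≤ (k : ℕ) → l k ∉ m59ep_bad S₀ l j ∪ Q := fun k j hj =>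
    m59ac_chain_not_bad S₀ l hlinj (fun i => (hl i).2.1) Q (fun t ht => (hQ t ht).2) k j hj
  -- the bundled family
  let Pb : ℕ → m59ac_Pk 𝒪 p Q := fun k =>
    { N := m59ep_lvl N l k, S := m59ep_bad S₀ l k, θ := θ k, B := B k, L := L k }
  let Pp : m59ac_Pk 𝒪 p Q :=
    { N := m59ep_lvl N l m * p, S := m59ep_bad S₀ l m, θ := θp, B := Bp, L := Lp }
  obtain ⟨pk, hpk0, hpkp⟩ : ∃ pk : Fin (m + 2) → m59ac_Pk 𝒪 p Q,
      (∀ k : Fin (m + 1), pk k.castSucc = Pb (k : ℕ)) ∧ pk (Fin.last (m + 1)) = Pp :=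
    ⟨fun k => if h : (k : ℕ) ≤ m then Pb (k : ℕ) else Pp,
      fun k => dif_pos (Nat.le_of_lt_succ k.2), dif_neg (by simp)⟩
  -- the steps
  have stg : ∀ k : Fin (m + 1), m59ac_StepG3 (pk k.castSucc).L (pk k.succ).L
      (@Fin.snoc m (fun _ => ℕ) l p k) := fun k =>
    Fin.lastCases
      (motive := fun k : Fin (m + 1) => m59ac_StepG3 (pk k.castSucc).L (pk k.succ).L
        (@Fin.snoc m (fun _ => ℕ) l p k))
      (m59ac_StepG3.cast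
        (P₀ := Pb m) (P₁ := Pp)
        (hpk0 (Fin.last m)) hpkp (Fin.snoc_last (α := fun _ => ℕ) p l)
        (m59ac_StepG3.ofStepP hStP.some))
      (fun i => m59ac_StepG3.cast
        (P₀ := Pb (i : ℕ)) (P₁ := Pb ((i : ℕ) + 1))
        (hpk0 i.castSucc) (hpk0 i.succ) (Fin.snoc_castSucc (α := fun _ => ℕ) p l i)
        (m59ac_StepG3.ofStep (hSt i).some (hl i).1
          (fun hd => hnb i (i : ℕ) le_rfl (hNS (i : ℕ) (l i) (hl i).1 hd))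
          (fun hd => hnb i (i : ℕ) le_rfl (Finset.mem_coe.1 hd)) (hl i).2.2))
      k
  -- the hypotheses of `m59ac_actSys3`
  have hNS' : ∀ k, ∀ ℓ : ℕ, ℓ.Prime → ℓ ∣ twe_Nbal (pk k).N Q ∅ → ℓ ∈ (pk k).S ∪ Q := by
    intro k
    refine Fin.lastCases ?_ (fun i => ?_) k
    · rw [hpkp]
      exact hNSp
    · rw [hpk0 i]
      exact hNS (i : ℕ)
  have h00 : pk 0 = Pb 0 := hpk0 0
  have hpS' : p ∈ (pk 0).S ∪ Q := by
    rw [h00]
    exact Finset.mem_union_left _ ((m59ac_mem_bad S₀ l 0 p).2 (Or.inl hpS₀))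
  have hl' : ∀ k : Fin (m + 1), (@Fin.snoc m (fun _ => ℕ) l p k).Prime := by
    intro k
    refine Fin.lastCases ?_ (fun i => ?_) k
    · rw [Fin.snoc_last]
      exact hp
    · rw [Fin.snoc_castSucc]
      exact (hl i).1
  have hl0' : ∀ k : Fin (m + 1), @Fin.snoc m (fun _ => ℕ) l p k ≠ p →
      ¬ @Fin.snoc m (fun _ => ℕ) l p k ∣ twe_Nbal (pk 0).N Q ∅ := by
    intro k
    refine Fin.lastCases ?_ (fun i => ?_) k
    · intro h
      exact absurd (Fin.snoc_last (α := fun _ => ℕ) p l) h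
    · intro _
      rw [Fin.snoc_castSucc, h00]
      exact fun hd => hnb i 0 (Nat.zero_le _) (hNS 0 (l i) (hl i).1 hd)
  have hEE : ∀ k : Fin (m + 1), @Fin.snoc m (fun _ => ℕ) l p k = p →
      (B m).d * 2 ^ rr = (fun k => (pk k).B.d * 2 ^ rr) k.castSucc := by
    intro k
    refine Fin.lastCases ?_ (fun i => ?_) k
    · intro _
      show (B m).d * 2 ^ rr = (pk (Fin.last m).castSucc).B.d * 2 ^ rr
      rw [hpk0 (Fin.last m)]
      rfl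
    · intro h
      rw [Fin.snoc_castSucc] at h
      exact absurd h (hl i).2.2
  have hv0' : (pk 0).L.H'.ρ.trace (g0 * tv) - (pk 0).L.H'.ρ.trace g0 ∈
      Ideal.span {algebraMap 𝒪 (pk 0).L.T' lam} ⊔ maximalIdeal (pk 0).L.T' ^ 2 := by
    rw [h00]
    exact hv0
  have hdl : (fun k => (pk k).B.d * 2 ^ rr) (Fin.last (m + 1)) = Bp.d * 2 ^ rr := by
    show (pk (Fin.last (m + 1))).B.d * 2 ^ rr = Bp.d * 2 ^ rr
    rw [hpkp]
  refine ⟨fun k => (pk k).B.d * 2 ^ rr, fun k => ?_, hdl, ?_⟩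
  · show (pk k.castSucc).B.d * 2 ^ rr = (B (k : ℕ)).d * 2 ^ rr
    rw [hpk0 k]
  · exact m59ac_actSys3 hp𝒪 pk (@Fin.snoc m (fun _ => ℕ) l p) stg hNS' hpS' hl' hl0' rr qv hqv
      hqinj hqsurj n hn
      Pp hpkp
      (fun k => (pk k).B.d * 2 ^ rr) (fun k => rfl) hdl ((B m).d * 2 ^ rr) hEE u hu P hP σp hσp
      zT' hz lam g0 tv hv0'

end

end Fermat.Agent.M59
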