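/-
S59 / block [Act] (helper26).  Prefix `m59ac_` / `m59ci3_`.  Cell [CI3-ACT], CASE (III): the FLEXIBLE
form for the consumer (the spine `ArithOf3` of [CI3-SYS]).

`m59ci3_ActD_stmt` = `m59ci3_Act_stmt` (M59/Act/ActStmt3.lean) with EVERY parameter of the target
structure `m59ci3_ActSys` universally quantified and pinned by a PROPOSITIONAL equation:
the chain of primes `l'` (`l' k.castSucc = l k`, `l' (Fin.last m) = p`), the ranks `d`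
(`d k.castSucc = (B k).d * 2 ^ rr`, `d (Fin.last _) = Bp.d * 2 ^ rr`), `ee`, `EE`, `tr`, `vT'`, `jT`,
`uT`.  So the consumer never transports a structure: it chooses ONE `d` for all patching levels `n`,
the chain `l' := fun k => m59ci3_lc _ _ p (ch k)` of helper21's `m59cp_pairSys3`,
`tr := fun σ => (r' σ).trace` for the frame `r'` of `Lp.H'.ρ` used by the pair side, etc.

`m59ac_act3D_stmt : m59ci3_ActD_stmt`  CLOSED (from `m59ac_act3_stmt`).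
-/
import Mathlib
import Fermat.Agent.M59.Act.ActStmt3

set_option autoImplicit false
set_option linter.unusedSectionVars false
set_option linter.unusedVariables false
set_option linter.style.haveILetI false

open Polynomial CuspForm IsLocalRing

namespace Fermat.Agent.M59

open Fermat.Agent.TW

noncomputable section

local notation "GQ" => (AlgebraicClosure ℚ ≃ₐ[ℚ] AlgebraicClosure ℚ)
local notation "Qbar" => AlgebraicClosure ℚ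

/-- **[CI3-ACT]**, flexible form. -/
def m59ci3_ActD_stmt : Prop :=
  ∀ (p : ℕ) [Fact p.Prime], p ≠ 2 →
  ∀ (𝒪 : Type) [CommRing 𝒪] [IsDomain 𝒪] [IsDiscreteValuationRing 𝒪]
    [IsAdicComplete (maximalIdeal 𝒪) 𝒪] [Finite (ResidueField 𝒪)] [CharZero 𝒪],
    (p : 𝒪) ∈ maximalIdeal 𝒪 →
  ∀ (N : ℕ) [NeZero N] (S₀ : Finset ℕ), p ∈ S₀ → (∀ ℓ : ℕ, ℓ.Prime → ℓ ∣ N → ℓ ∈ S₀) →
  ∀ (m : ℕ) (l : Fin m → ℕ), Function.Injective l →
    (∀ i, (l i).Prime ∧ l i ∉ S₀ ∧ l i ≠ p) →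
  ∀ [∀ k : ℕ, NeZero (m59ep_lvl N l k)] [NeZero (m59ep_lvl N l m * p)]
    (θ : ∀ k : ℕ, heckeAlgebra (m59ep_lvl N l k) 2 (↑(m59ep_bad S₀ l k) : Set ℕ) →+*
      ResidueField 𝒪)
    (θp : heckeAlgebra (m59ep_lvl N l m * p) 2 (↑(m59ep_bad S₀ l m) : Set ℕ) →+* ResidueField 𝒪)
    (B : ∀ k : ℕ, twe_Base 𝒪 (m59ep_lvl N l k) (m59ep_bad S₀ l k) (θ k))
    (Bp : twe_Base 𝒪 (m59ep_lvl N l m * p) (m59ep_bad S₀ l m) θp)
    (Q : Finset ℕ) [∀ k : ℕ, NeZero (twe_Nbal (m59ep_lvl N l k) Q ∅)]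
    [NeZero (twe_Nbal (m59ep_lvl N l m * p) Q ∅)],
    (∀ t ∈ Q, t.Prime) → (∀ t ∈ Q, t ∉ S₀ ∧ ∀ i, t ≠ l i) →
  ∀ (L : ∀ k : ℕ, twe_Level (B k) p Q) (Lp : twe_Level Bp p Q),
    (∀ k : Fin m, Nonempty (m59ep_Step (L (k : ℕ)) (L ((k : ℕ) + 1)) (l k))) →
    Nonempty (m59p_StepP (L m) Lp) →
  ∀ (u : ∀ t : ℕ, t ∈ Q → Lp.T'), m59ac_IsDia Lp u →
  ∀ (P : ValuationSubring Qbar), P.LiesOverPrime p → ∀ σp : GQ, P.IsFrobeniusAt σp p →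
  ∀ zT' : Lp.T', m59p_IsUrEig Lp.H'.ρ P σp zT' →
  ∀ (lam : 𝒪) (g0 tv : GQ),
    (L 0).H'.ρ.trace (g0 * tv) - (L 0).H'.ρ.trace g0 ∈
      Ideal.span {algebraMap 𝒪 (L 0).T' lam} ⊔ maximalIdeal (L 0).T' ^ 2 →
  ∀ (rr : ℕ) (qv : Fin rr → ℕ) (hqv : ∀ i, qv i ∈ Q), Function.Injective qv →
    (∀ t ∈ Q, ∃ i, qv i = t) →
  ∀ n : ℕ, (∀ i, p ^ n ∣ twe_ord p (qv i)) →
  -- the parameters of the target structure, pinned by equations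
  ∀ (l' : Fin (m + 1) → ℕ), (∀ k : Fin m, l' k.castSucc = l k) → l' (Fin.last m) = p →
  ∀ (d : Fin (m + 2) → ℕ), (∀ k : Fin (m + 1), d k.castSucc = (B (k : ℕ)).d * 2 ^ rr) →
  ∀ (hdp : d (Fin.last (m + 1)) = Bp.d * 2 ^ rr)
    (ee : Fin (m + 1) → ℕ), (∀ k, ee k = d k.succ) →
  ∀ (EE : ℕ), EE = (B m).d * 2 ^ rr →
  ∀ (tr : GQ → Lp.T'), (∀ σ, tr σ = Lp.H'.ρ.trace σ) →
  ∀ (vT' : Lp.T'), vT' = Lp.H'.ρ.trace (g0 * tv) - Lp.H'.ρ.trace g0 →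
  ∀ (jT : Lp.T' →+* Matrix (Fin (d (Fin.last (m + 1)))) (Fin (d (Fin.last (m + 1))))
      (MvPowerSeries (Fin rr) 𝒪 ⧸ twds_a 𝒪 rr)),
    (∀ t, jT t = m59ci3_jcast hdp.symm (twc_j Bp rr (Lp.π0 t))) →
  ∀ (uT : Fin rr → Lp.T'), (∀ i, uT i = u (qv i) (hqv i)) →
    Nonempty (m59ci3_ActSys 𝒪 rr d l' p ee EE lam
      (twds_a 𝒪 rr) (twds_b 𝒪 rr (p ^ n)) (twds_b_le_a rr (p ^ n))
      Lp.T' tr zT' vT' jT uT)

/-- **[CI3-ACT]**, flexible form, CLOSED. -/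
theorem m59ac_act3D_stmt : m59ci3_ActD_stmt := by
  intro p hpF hp2 𝒪 _ _ _ _ _ _ hp𝒪 N _ S₀ hpS₀ hNS₀ m l hlinj hl _ _ θ θp B Bp Q _ _ hQprime hQ
    L Lp hSt hStP u hu P hP σp hσp zT' hz lam g0 tv hv0 rr qv hqv hqinj hqsurj n hn
    l' hl'0 hl'p d hd hdp ee hee EE hEE tr htr vT' hvT' jT hjT uT huT
  obtain ⟨d₁, hd₁, hdp₁, ⟨AS⟩⟩ := m59ac_act3_stmt p hp2 𝒪 hp𝒪 N S₀ hpS₀ hNS₀ m l hlinj hl θ θp B Bp
    Q hQprime hQ L Lp hSt hStP u hu P hP σp hσp zT' hz lam g0 tv hv0 rr qv hqv hqinj hqsurj n hn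
  have e1 : d₁ = d := by
    funext k
    refine Fin.lastCases ?_ (fun i => ?_) k
    · rw [hdp₁, hdp]
    · rw [hd₁ i, hd i]
  subst e1
  have e2 : l' = @Fin.snoc m (fun _ => ℕ) l p := by
    funext k
    refine Fin.lastCases ?_ (fun i => ?_) k
    · rw [hl'p, Fin.snoc_last]
    · rw [hl'0 i, Fin.snoc_castSucc]
  subst e2
  have e3 : ee = fun k => d₁ k.succ := funext hee
  subst e3
  subst hEE
  have e4 : tr = fun σ => Lp.H'.ρ.trace σ := funext htr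
  subst e4
  subst hvT'
  have e5 : jT = (m59ci3_jcast hdp.symm).comp
      ((twc_j Bp rr).comp (Lp.π0 : Lp.T' →+* Bp.T)) := RingHom.ext hjT
  subst e5
  have e6 : uT = fun i => u (qv i) (hqv i) := funext huT
  subst e6
  exact ⟨AS⟩

end

end Fermat.Agent.M59
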