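/-
M59 / [CORE] / [CI-SYS], cell **[CI-U]** (helper26, for helper25 #5529).  Prefix `m59ac_`.

`m59ac_u_stmt : m59ci_U_stmt` (the literal leaf of `M59/Top/Chain/SysOf.lean`): the EXPLICIT twin of
helper2's `m59lg_tw_level`: the Galois diamonds `u_t ∈ L.T'` of a level come with their Galois
description in trace form (`m59ci_IsGalDia`): `u_t` is the eigenvalue of `ρ(σ_t)` on the
`a₀`-eigenline of `ρ(φ_t)`, `a₀ - a₁` a unit.

* `m59ac_diag_trace_det` : trace and determinant of a diagonal endomorphism in rank two;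
* `m59ac_as_one_gal`     : twin of main's `twlg_as_one` (TW/LG/AsOne.lean) EXPORTING the tuple
                           `(φ_t, σ_t, a₀, a₁, u')`;
* `m59ac_tw_level_one_gal` : twin of `m59lg_tw_level_one`;
* `m59ac_u_stmt`         : the leaf.
-/
import Mathlib
import Fermat.Agent.M59.LG.TWLevel
import Fermat.Agent.M59.Top.Chain.SysOf

set_option autoImplicit false
set_option linter.unusedSectionVars false
set_option linter.unusedVariables false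
set_option linter.style.haveILetI false
set_option maxHeartbeats 1000000

open Polynomial CuspForm IsLocalRing ExtCitation Fermat.Agent.JT3
open Fermat.Agent.S53 Fermat.Agent.S56 Fermat.Agent.SS
open scoped TensorProduct

namespace Fermat.Agent.M59

open Fermat.Agent.TW

noncomputable section

local notation "GQ" => (AlgebraicClosure ℚ ≃ₐ[ℚ] AlgebraicClosure ℚ)
local notation "Qbar" => AlgebraicClosure ℚ

section diag

variable {T : Type*} [CommRing T] {V : Type*} [AddCommGroup V] [Module T V]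

/-- trace and determinant of a diagonal endomorphism in rank two. -/
theorem m59ac_diag_trace_det (b : Module.Basis (Fin 2) T V) (f : Module.End T V) (c : Fin 2 → T)
    (hf : ∀ i, f (b i) = c i • b i) :
    LinearMap.trace T V f = c 0 + c 1 ∧ LinearMap.det f = c 0 * c 1 := by
  classical
  have hmat : LinearMap.toMatrix b b f = Matrix.diagonal c := by
    ext i j
    rw [LinearMap.toMatrix_apply, hf, map_smul, Module.Basis.repr_self, Finsupp.smul_apply,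
      Finsupp.single_apply, Matrix.diagonal_apply, smul_eq_mul]
    by_cases h : i = j
    · subst h; simp
    · rw [if_neg (Ne.symm h), if_neg h, mul_zero]
  constructor
  · rw [LinearMap.trace_eq_matrix_trace T b, hmat, Matrix.trace_diagonal, Fin.sum_univ_two]
  · rw [← LinearMap.det_toMatrix b, hmat, Matrix.det_diagonal, Fin.prod_univ_two]

end diag

section one

variable {𝒪 : Type} [CommRing 𝒪] [IsDomain 𝒪] [IsDiscreteValuationRing 𝒪]
  [IsAdicComplete (maximalIdeal 𝒪) 𝒪] [Finite (ResidueField 𝒪)] [CharZero 𝒪]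
  {Nb : ℕ} [NeZero Nb] {S' : Finset ℕ}
  {θX : heckeAlgebra Nb 2 (↑S' : Set ℕ) →+* ResidueField 𝒪}
  {TX : Type} [CommRing TX] [IsLocalRing TX] [IsNoetherianRing TX]
  [IsAdicComplete (maximalIdeal TX) TX] [Algebra 𝒪 TX] [IsLocalHom (algebraMap 𝒪 TX)]
  [Module.Finite 𝒪 TX] [Module.Free 𝒪 TX]
  {HX : HeckeGaloisRepDatum Nb (↑S' : Set ℕ) 𝒪 θX TX}
  {MX : Type} [AddCommGroup MX] [Module 𝒪 MX] [Module TX MX] [IsScalarTower 𝒪 TX MX]
  {δ : MX →ₗ[𝒪] MX}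

/-- **the Galois diamond at ONE Taylor–Wiles prime, with its Galois description** (twin of main's
`twlg_as_one`, same proof, exporting the tuple in trace form). -/
theorem m59ac_as_one_gal {p : ℕ} [hpF : Fact p.Prime] (hp𝒪 : (p : 𝒪) ∈ maximalIdeal 𝒪)
    (hpS : p ∈ S') (hNS : ∀ r : ℕ, r.Prime → r ∣ Nb → r ∈ S')
    (ρbar : ResidualGaloisRep (ResidueField 𝒪)) (hcompat : twt_Compat θX ρbar)
    (t : ℕ) (ht : t.Prime) (htp : t ≠ p) (htmod : t % p = 1)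
    (hunr : ρbar.IsUnramifiedAt t)
    (hsplit : ∀ P : ValuationSubring Qbar, P.LiesOverPrime t → ∀ φ : GQ, P.IsFrobeniusAt φ t →
      ∃ α β : ResidueField 𝒪, α ≠ β ∧ LinearMap.charpoly (ρbar.ρ φ) = (X - C α) * (X - C β))
    (htNb : t ∣ Nb) [NeZero (Nb / t)] (htN : t ∣ Nb / t) (ht2 : ¬ t ^ 2 ∣ Nb / t)
    (Od : twe_OldAt HX δ t) (hnew : twe_NewAt HX δ t) :
    ∃ u : TX, u - 1 ∈ maximalIdeal TX ∧ u ^ p ^ padicValNat p (t - 1) = 1 ∧
      (∀ m : MX, ∃ m' : MX, (u - 1) • m = δ m' - m') ∧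
      (∀ (K : Type) [Field K] [IsAlgClosed K] [Algebra 𝒪 K],
        Function.Injective (algebraMap 𝒪 K) →
        ∀ (χ : TX →ₐ[𝒪] K) (v : K ⊗[𝒪] MX), v ≠ 0 →
          (∀ x : TX, (twe_act (MX := MX) x).baseChange K v = χ x • v) →
          ∀ z : K, z ≠ 1 → δ.baseChange K v = z • v → χ u ≠ 1) ∧
      m59ci_IsGalDia HX.ρ t u := by
  classical
  have hp : p.Prime := hpF.out
  -- the tame datum at `t`
  set ℓ : Nat.Primes := ⟨t, ht⟩ with hℓdef
  have hpdvd : p ∣ t - 1 := by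
    have h1 : 1 ≡ t [MOD p] := by
      rw [Nat.ModEq, htmod, Nat.mod_eq_of_lt hp.one_lt]
    exact (Nat.modEq_iff_dvd' ht.one_le).1 h1
  have hTh : ∀ q ∈ ({ℓ} : Finset Nat.Primes), (q : ℕ) ≠ p ∧ p ∣ (q : ℕ) - 1 := by
    intro q hq
    rw [Finset.mem_singleton] at hq
    subst hq
    exact ⟨htp, hpdvd⟩
  set td := twib_td p {ℓ} hTh with htd
  have hgen := twib_td_inertiaGen p {ℓ} hTh
  have hℓmem : ℓ ∈ ({ℓ} : Finset Nat.Primes) := Finset.mem_singleton_self ℓ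
  have hℓt : (ℓ : ℕ) = t := rfl
  -- residual facts
  have hpT : (p : TX) ∈ maximalIdeal TX := twt_dl_p_mem hp𝒪
  have hresid : HX.ρ.residual.IsUnramifiedAt t := twt_re_datum_unram HX ρbar hcompat t hunr
  have hres : ∀ τ ∈ (primeLocalPlace ℓ).inertiaSubgroupIn ℚ,
      gcl_Small (maximalIdeal TX) (HX.ρ.ρ τ - 1) :=
    fun τ hτ => twib_hres_of_residual HX.ρ hresid _ (s56ld_liesOver ℓ) hτ
  have hrel : HX.ρ.ρ (td.gφ ℓ) * HX.ρ.ρ (td.gσ ℓ) = HX.ρ.ρ (td.gσ ℓ) ^ t * HX.ρ.ρ (td.gφ ℓ) :=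
    twlg_as_rel td hpT HX.ρ ℓ hℓmem hres
  have hσmem : td.gσ ℓ ∈ (primeLocalPlace ℓ).inertiaSubgroupIn ℚ := td.σ_mem ℓ hℓmem
  -- the residual Frobenius polynomial
  obtain ⟨α, β, hαβ, hcp⟩ := hsplit (primeLocalPlace ℓ) (s56ld_liesOver ℓ) (td.gφ ℓ)
    (td.φ_frob ℓ hℓmem)
  have hφres : (LinearMap.charpoly (HX.ρ.ρ (td.gφ ℓ))).map (residue TX) =
      (X - C (ResidueField.map (algebraMap 𝒪 TX) α)) *
        (X - C (ResidueField.map (algebraMap 𝒪 TX) β)) := by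
    rw [twlg_as_resid_charpoly ρbar hcompat, hcp]
    simp only [Polynomial.map_mul, Polynomial.map_sub, Polynomial.map_X, Polynomial.map_C]
  have hαβ' : ResidueField.map (algebraMap 𝒪 TX) α ≠ ResidueField.map (algebraMap 𝒪 TX) β :=
    fun h => hαβ ((ResidueField.map (algebraMap 𝒪 TX)).injective h)
  have htm : (t : TX) - 1 ∈ maximalIdeal TX := by
    obtain ⟨k, hk⟩ := hpdvd
    have h1 : t = p * k + 1 := by have := ht.one_le; omega
    rw [h1]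
    push_cast
    rw [add_sub_cancel_right]
    exact Ideal.mul_mem_right _ _ hpT
  -- the simultaneous eigenbasis
  obtain ⟨b, a, u, hPh, hSg, ha0, ha1, hu1⟩ := twlg_dg_main_complete HX.ρ (td.gφ ℓ) (td.gσ ℓ) t
    htm hrel (fun v => by simpa using hres _ hσmem v) _ _ hαβ' hφres
  -- `u 0 * u 1 = det ρ(σ) = 1`
  have hdet : LinearMap.det (HX.ρ.ρ (td.gσ ℓ)) = 1 :=
    twt_da_det_inertia hpT hNS HX.π HX.ρ HX.charpoly_frob ht htp _ (s56ld_liesOver ℓ) hσmem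
  have hu01 : u 0 * u 1 = 1 := by
    have h1 := twlg_as_diag_charpoly b (HX.ρ.ρ (td.gσ ℓ)) u hSg
    rw [sst_charpoly_rank_two HX.ρ.finrank_eq, hdet] at h1
    have h0 := congrArg (fun q : TX[X] => q.coeff 0) h1
    simp only [coeff_add, coeff_sub, coeff_X_pow, coeff_C_mul, coeff_X_zero, coeff_C_zero] at h0
    norm_num at h0
    exact h0.symm
  -- units
  have ha : ∀ j, IsUnit (a j) := fun j =>
    twlg_as_diag_unit b (HX.ρ.ρ (td.gφ ℓ)) (HX.ρ.ρ (td.gφ ℓ)⁻¹)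
      (by rw [← map_mul, inv_mul_cancel, map_one]) a hPh j
  have hu0 : IsUnit (u 0) := IsUnit.of_mul_eq_one _ hu01
  have hrel0 : a 0 * u 0 = u 0 ^ t * a 0 := twlg_as_diag_rel t b _ _ u a hSg hPh hrel 0
  have hpow : u 0 ^ (t - 1) = 1 := twlg_as_pow_sub_one t ht.one_le (a 0) (u 0) (ha 0) hu0 hrel0
  have hpow' : u 0 ^ p ^ padicValNat p (t - 1) = 1 :=
    twlg_as_pow_one hp hpT (u 0) (hu1 0) (t - 1) (by have := ht.two_le; omega) hpow
  refine ⟨u 0, hu1 0, hpow', ?_, ?_, ?_⟩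
  · -- `hH2`
    intro m
    exact twlg_as_old_hH2 Od hp hp𝒪 hpS hNS htNb ht htp htN ht2 (primeLocalPlace ℓ)
      (s56ld_liesOver ℓ) (td.gσ ℓ) (td.gφ ℓ) hσmem hrel b u a hSg hPh 0 m
  · -- the eigenvector statement
    intro K _ _ _ hK χ v hv0 hv z hz hδ
    exact twlg_as_new_u hp𝒪 hpS hNS td hgen ℓ hℓmem htp hnew hres b u hSg hu01 K hK χ v hv0 hv z
      hz hδ 0
  · -- the Galois description
    have hunit : IsUnit (a 0 - a 1) := by
      rw [← IsLocalRing.residue_ne_zero_iff_isUnit, map_sub, ha0, ha1]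
      exact sub_ne_zero.2 hαβ'
    obtain ⟨htrφ, hdetφ⟩ := m59ac_diag_trace_det b (HX.ρ.ρ (td.gφ ℓ)) a hPh
    obtain ⟨htrσ, -⟩ := m59ac_diag_trace_det b (HX.ρ.ρ (td.gσ ℓ)) u hSg
    have hφσ : ∀ i, HX.ρ.ρ (td.gφ ℓ * td.gσ ℓ) (b i) = (a i * u i) • b i := by
      intro i
      rw [map_mul, Module.End.mul_apply, hSg, map_smul, hPh, smul_smul, mul_comm]
    obtain ⟨htrφσ, -⟩ := m59ac_diag_trace_det b (HX.ρ.ρ (td.gφ ℓ * td.gσ ℓ))
      (fun i => a i * u i) hφσ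
    exact ⟨td.gφ ℓ, td.gσ ℓ, a 0, a 1, u 1,
      ⟨primeLocalPlace ℓ, s56ld_liesOver ℓ, td.φ_frob ℓ hℓmem⟩,
      ⟨primeLocalPlace ℓ, s56ld_liesOver ℓ, hσmem⟩, hunit, htrφ.symm, hdetφ.symm, hu01,
      htrσ.symm, htrφσ.symm⟩

end one

section tw

variable {𝒪 : Type} [CommRing 𝒪] [IsDomain 𝒪] [IsDiscreteValuationRing 𝒪]
  [IsAdicComplete (maximalIdeal 𝒪) 𝒪] [Finite (ResidueField 𝒪)] [CharZero 𝒪]
  {N : ℕ} [NeZero N] {S : Finset ℕ} {θ : heckeAlgebra N 2 (↑S : Set ℕ) →+* ResidueField 𝒪}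
  {B : twe_Base 𝒪 N S θ} {p : ℕ} {Q : Finset ℕ} [NeZero (twe_Nbal N Q ∅)]

/-- the per-prime output for a level, with the Galois description (twin of `m59lg_tw_level_one`). -/
theorem m59ac_tw_level_one_gal [hpF : Fact p.Prime] (hp2' : p ≠ 2)
    (hp𝒪 : (p : 𝒪) ∈ maximalIdeal 𝒪)
    (hpS : p ∈ S) (hNS : ∀ ℓ : ℕ, ℓ.Prime → ℓ ∣ N → ℓ ∈ S)
    (ρbar : ResidualGaloisRep (ResidueField 𝒪)) (hcompat : twt_Compat θ ρbar)
    (hunr : ∀ t ∈ Q, ρbar.IsUnramifiedAt t)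
    (hQS : ∀ t ∈ Q, t ∉ S) (hTW : twe_IsTWSet θ p Q)
    (hsplit : ∀ t ∈ Q, ∀ P : ValuationSubring Qbar, P.LiesOverPrime t → ∀ φ : GQ,
      P.IsFrobeniusAt φ t →
      ∃ α β : ResidueField 𝒪, α ≠ β ∧ LinearMap.charpoly (ρbar.ρ φ) = (X - C α) * (X - C β))
    (L : twe_Level B p Q) (hL : L.IsLG2) (t : ℕ) (ht : t ∈ Q) :
    ∃ u : L.T', u - 1 ∈ maximalIdeal L.T' ∧ u ^ p ^ padicValNat p (t - 1) = 1 ∧
      (∀ m : L.M, ∃ m' : L.M, (u - 1) • m = L.dia t ht m' - m') ∧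
      (∀ (K : Type) [Field K] [IsAlgClosed K] [Algebra 𝒪 K],
        Function.Injective (algebraMap 𝒪 K) →
        ∀ (χ : L.T' →ₐ[𝒪] K) (v : K ⊗[𝒪] L.M), v ≠ 0 →
          (∀ x : L.T', (twe_act (MX := L.M) x).baseChange K v = χ x • v) →
          ∀ z : K, z ≠ 1 → (L.dia t ht).baseChange K v = z • v → χ u ≠ 1) ∧
      m59ci_IsGalDia L.H'.ρ t u := by
  have hp : p.Prime := hpF.out
  have hQ : ∀ t ∈ Q, t.Prime := fun t ht => (hTW t ht).1
  have htp : t.Prime := hQ t ht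
  have htmod : t % p = 1 := (hTW t ht).2.1
  have htnp : t ≠ p := fun h => hQS t ht (h ▸ hpS)
  have hpS' : p ∈ S ∪ Q := Finset.mem_union_left _ hpS
  have hTh : ∀ ℓ ∈ (∅ : Finset ℕ), ℓ.Prime ∧ ℓ ∣ N := fun ℓ hℓ => absurd hℓ (Finset.notMem_empty ℓ)
  have hNS' : ∀ r : ℕ, r.Prime → r ∣ twe_Nbal N Q ∅ → r ∈ S ∪ Q :=
    twlg_as_level_primes hNS hQ hTh
  obtain ⟨h1, h2, h3⟩ := twlg_as_level_tw hNS hQ hQS hTh t ht
  obtain ⟨⟨_, ⟨Od⟩⟩, hnew⟩ := hL t ht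
  exact m59ac_as_one_gal hp𝒪 hpS' hNS' ρbar (m59lg_compat_level L ρbar hcompat) t htp htnp htmod
    (hunr t ht) (hsplit t ht) h1 h2 h3 Od hnew

/-- **[CI-U]**: the explicit twin of `m59lg_tw_level`. -/
theorem m59ac_u_stmt : m59ci_U_stmt := by
  intro p hpF hp2' 𝒪 _ _ _ _ _ _ hp𝒪 ζ hζ N _ S hpS hNS θ ρbar hcompat B Q _ hunr hQS hTW hsplit
    L hL
  classical
  have hp : p.Prime := hpF.out
  have hp2 : p ≠ 2 := hp2'
  have hone := fun (t : ℕ) (ht : t ∈ Q) => m59ac_tw_level_one_gal hp2' hp𝒪 hpS hNS ρbar hcompat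
    hunr hQS hTW hsplit L hL t ht
  choose u hu1 hupow hH2 heig hgal using hone
  have hmatch : ∀ t ht (m : L.M), ∃ m' : L.M, L.dia t ht m - m = (u t ht - 1) • m' := by
    haveI : ∀ i : ↥Q, NeZero (twe_ord p (i : ℕ)) := fun i => ⟨pow_ne_zero _ hp.ne_zero⟩
    have hn : ∀ i : ↥Q, 0 < padicValNat p ((i : ℕ) - 1) := by
      intro i
      have htp : (i : ℕ).Prime := (hTW i i.2).1
      have htmod : (i : ℕ) % p = 1 := (hTW i i.2).2.1
      have hpdvd : p ∣ (i : ℕ) - 1 := by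
        have h1 : 1 ≡ (i : ℕ) [MOD p] := by
          rw [Nat.ModEq, htmod, Nat.mod_eq_of_lt hp.one_lt]
        exact (Nat.modEq_iff_dvd' htp.one_le).1 h1
      exact one_le_padicValNat_of_dvd (by have := htp.two_le; omega) hpdvd
    have key := m59lg_match_one (O := 𝒪) (𝒰 := L.T') (M := L.M) p hp2 hp𝒪 ζ hζ
      (fun i : ↥Q => twe_ord p (i : ℕ)) (fun i : ↥Q => padicValNat p ((i : ℕ) - 1)) hn
      (fun _ => rfl)
      (fun i : ↥Q => u i i.2) (fun i => hupow i i.2)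
      (fun i m => by
        obtain ⟨m', hm'⟩ := hH2 i i.2 m
        refine ⟨m', ?_⟩
        rw [hm', sub_smul, one_smul]
        rfl)
      (fun i K _ _ _ hK χ v hv0 hv z hz hδ =>
        heig i i.2 K hK χ v hv0 (fun x => by rw [twlg_as_act_eq]; exact hv x) z hz hδ)
    intro t ht m
    obtain ⟨m', hm'⟩ := key ⟨t, ht⟩ m
    refine ⟨m', ?_⟩
    rw [← hm', sub_smul, one_smul]
    rfl
  exact ⟨u, m59ac_isDia_of L u (fun t ht => hupow t ht) hH2 hmatch, hu1, hgal⟩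

end tw

end

end Fermat.Agent.M59
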