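/-
S59 / block [Act] (helper26).  Prefix `m59ac_`.  The lemma behind the field `pr_N` of
`m59ci_PairSys` (M59/Top/Chain/SysGlue.lean).

THE IDEAL OF RAMIFICATION IN TRACE FORM.  `T` a local ring, `ρ` a representation of `G_ℚ` over `T`
with absolutely irreducible residual representation, `τ ∈ G_ℚ`, `I` an ideal of `T` containing all
the `tr ρ(g τ) - tr ρ(g)`.  Then `ρ(τ) ≡ 1` modulo `I`: every entry of `r(τ) - 1` lies in `I`, for
every framing `r` of `ρ` (Burnside–Nakayama `ur_tr_span_eq_top` + perfectness of the trace form).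
This is the ideal version of main's trace rigidity `ur_tr_eq_one` (`I = ⊥`).

* `m59ac_ram_trace_mem`  : `tr (X (ρ(τ) - 1)) ∈ I` for every endomorphism `X`;
* `m59ac_ram_In`         : `twc_lr_In I (r τ - 1)` for every framing `r` of `ρ`;
* `m59ac_ram_In_conj`    : the same for `A (r τ - 1) B`;
* `m59ac_ramSet_In`      : for `I = span (m59ci_ramSet l tr)`, `tr = tr ρ`, `τ` in an inertia group at a
  prime `l k` of the chain;
* `m59ac_ramSet_push`    : THE FORM FOR `pr_N`: `pr : T₂ →+* T`, `M : G_ℚ → M₂(T₂)` with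
  `(M σ).map pr = g (r σ) g'`, `g g' = 1`: every entry of `A (M τ - 1) B` is mapped by `pr` into
  `span (m59ci_ramSet l tr)`.
-/
import Mathlib
import Fermat.Agent.M59.Act.Trace
import Fermat.Agent.M59.Top.Chain.SysGlue
import Fermat.Agent.JT3.Unram.TraceRigid
import Fermat.Agent.TW.Def.LocRel

set_option autoImplicit false
set_option linter.unusedSectionVars false
set_option linter.unusedVariables false
set_option linter.style.haveILetI false

open IsLocalRing

namespace Fermat.Agent.M59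

open Fermat.Agent.TW Fermat.Agent.S53 Fermat.Agent.JT3

noncomputable section

local notation "GQ" => (AlgebraicClosure ℚ ≃ₐ[ℚ] AlgebraicClosure ℚ)

section ram

variable {T : Type} [CommRing T] [IsLocalRing T]

/-- `tr (X (ρ(τ) - 1)) ∈ I` for every endomorphism `X`, as soon as `I` contains the
`tr ρ(g τ) - tr ρ(g)`. -/
theorem m59ac_ram_trace_mem (ρ : GaloisRepAdic T) (habs : ρ.residual.IsAbsolutelyIrreducible)
    (I : Ideal T) (τ : GQ) (h : ∀ g : GQ, ρ.trace (g * τ) - ρ.trace g ∈ I)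
    (X : Module.End T ρ.V) : LinearMap.trace T ρ.V (X * (ρ.ρ τ - 1)) ∈ I := by
  classical
  have hX : X ∈ Submodule.span T (Set.range ρ.ρ) := by
    rw [ur_tr_span_eq_top ρ habs]
    trivial
  induction hX using Submodule.span_induction with
  | mem x hx =>
    obtain ⟨g, rfl⟩ := hx
    rw [mul_sub, mul_one, map_sub, ← map_mul]
    exact h g
  | zero =>
    rw [zero_mul, map_zero]
    exact I.zero_mem
  | add x y _ _ hx hy =>
    rw [add_mul, map_add]
    exact I.add_mem hx hy
  | smul a x _ hx =>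
    rw [smul_mul_assoc, map_smul, smul_eq_mul]
    exact I.mul_mem_left a hx

/-- **the ideal of ramification, trace form**: every entry of `r(τ) - 1` lies in any ideal
containing the `tr ρ(g τ) - tr ρ(g)`. -/
theorem m59ac_ram_In (ρ : GaloisRepAdic T) (habs : ρ.residual.IsAbsolutelyIrreducible)
    (r : FramedRep T) (hr : ρ.IsEquiv r.toGaloisRepAdic)
    (I : Ideal T) (τ : GQ) (h : ∀ g : GQ, ρ.trace (g * τ) - ρ.trace g ∈ I) :
    twc_lr_In I (r τ - 1) := by
  classical
  obtain ⟨e⟩ := hr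
  let e' : ρ.V ≃ₗ[T] (Fin 2 → T) := e.toLinearEquiv
  have hmap : ∀ y : ρ.V, e' (ρ.ρ τ y) = (r τ).mulVec (e' y) := fun y => by
    exact (e.map_apply τ y).trans (FramedRep.toGaloisRepAdic_ρ_apply r τ _)
  intro i j
  set Y : Module.End T (Fin 2 → T) := Matrix.toLin' (Matrix.single j i (1 : T)) with hY
  set R : Module.End T (Fin 2 → T) := Matrix.toLin' (r τ) with hR
  have h1 := m59ac_ram_trace_mem ρ habs I τ h (e'.symm.conj Y)
  have hkey : e'.conj (e'.symm.conj Y * (ρ.ρ τ - 1)) = Y * (R - 1) := by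
    apply LinearMap.ext
    intro x
    simp only [LinearEquiv.conj_apply, LinearMap.comp_apply, LinearEquiv.coe_coe,
      Module.End.mul_apply, LinearMap.sub_apply, Module.End.one_apply, LinearEquiv.symm_symm,
      LinearEquiv.apply_symm_apply, map_sub]
    rw [hmap, LinearEquiv.apply_symm_apply]
    simp only [hY, hR, Matrix.toLin'_apply]
  have h2 : LinearMap.trace T ρ.V (e'.symm.conj Y * (ρ.ρ τ - 1)) =
      LinearMap.trace T (Fin 2 → T) (Y * (R - 1)) := by
    rw [← hkey, LinearMap.trace_conj']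
  have h3 : Y * (R - 1) = Matrix.toLin' (Matrix.single j i (1 : T) * (r τ - 1)) := by
    rw [Matrix.toLin'_mul, map_sub, Matrix.toLin'_one]
    rfl
  rw [h2, h3, Matrix.trace_toLin'_eq] at h1
  have h4 : (Matrix.single j i (1 : T) * (r τ - 1)).trace = (r τ - 1) i j := by
    rw [Matrix.trace_fin_two]
    fin_cases i <;> fin_cases j <;> simp [Matrix.mul_apply, Matrix.single_apply]
  rw [h4] at h1
  exact h1

/-- the conjugated form. -/
theorem m59ac_ram_In_conj (ρ : GaloisRepAdic T) (habs : ρ.residual.IsAbsolutelyIrreducible)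
    (r : FramedRep T) (hr : ρ.IsEquiv r.toGaloisRepAdic)
    (I : Ideal T) (τ : GQ) (h : ∀ g : GQ, ρ.trace (g * τ) - ρ.trace g ∈ I)
    (A B : Matrix (Fin 2) (Fin 2) T) : twc_lr_In I (A * (r τ - 1) * B) := by
  have h0 := m59ac_ram_In ρ habs r hr I τ h
  intro i j
  rw [Matrix.mul_apply]
  refine Ideal.sum_mem _ fun k _ => I.mul_mem_right _ ?_
  exact twc_lr_In.mul_left A h0 i k

/-- at the primes of the chain: for `τ` in an inertia group at `l k`, every entry of `r(τ) - 1`
lies in the ideal generated by `m59ci_ramSet l (tr ρ)`. -/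
theorem m59ac_ramSet_In (ρ : GaloisRepAdic T) (habs : ρ.residual.IsAbsolutelyIrreducible)
    (r : FramedRep T) (hr : ρ.IsEquiv r.toGaloisRepAdic) {m : ℕ} (l : Fin m → ℕ) (k : Fin m)
    (τ : GQ) (hτ : m59ci_IsInert τ (l k)) (A B : Matrix (Fin 2) (Fin 2) T) :
    twc_lr_In (Ideal.span (m59ci_ramSet l (fun σ => ρ.trace σ))) (A * (r τ - 1) * B) :=
  m59ac_ram_In_conj ρ habs r hr (Ideal.span (m59ci_ramSet l (fun σ => ρ.trace σ))) τ
    (fun g => Ideal.subset_span ⟨k, g, τ, hτ, rfl⟩) A B

/-- **the form for `pr_N`.**  `pr : T₂ →+* T` a ring map, `M : G_ℚ → M₂(T₂)` whose push-forward is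
conjugate to a framing `r` of `ρ`: every entry of `A (M τ - 1) B` (`τ` in an inertia group at a
prime of the chain) is mapped into the ideal of ramification. -/
theorem m59ac_ramSet_push (ρ : GaloisRepAdic T) (habs : ρ.residual.IsAbsolutelyIrreducible)
    (r : FramedRep T) (hr : ρ.IsEquiv r.toGaloisRepAdic) {m : ℕ} (l : Fin m → ℕ) (k : Fin m)
    (τ : GQ) (hτ : m59ci_IsInert τ (l k))
    {T₂ : Type} [CommRing T₂] (pr : T₂ →+* T) (M : GQ → Matrix (Fin 2) (Fin 2) T₂)
    (g g' : Matrix (Fin 2) (Fin 2) T) (hg : g * g' = 1)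
    (hM : (M τ).map pr = g * r τ * g')
    (A B : Matrix (Fin 2) (Fin 2) T₂) (i j : Fin 2) :
    pr ((A * (M τ - 1) * B) i j) ∈ Ideal.span (m59ci_ramSet l (fun σ => ρ.trace σ)) := by
  have hM' : pr.mapMatrix (M τ) = g * r τ * g' := hM
  have h2 : pr.mapMatrix (A * (M τ - 1) * B) =
      (pr.mapMatrix A * g) * (r τ - 1) * (g' * pr.mapMatrix B) := by
    rw [map_mul, map_mul, map_sub, map_one, hM']
    have h3 : g * r τ * g' - 1 = g * (r τ - 1) * g' := by
      rw [mul_sub, sub_mul, mul_one, hg]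
    rw [h3]
    simp only [mul_assoc]
  have h1 : pr ((A * (M τ - 1) * B) i j) =
      ((pr.mapMatrix A * g) * (r τ - 1) * (g' * pr.mapMatrix B)) i j := by
    rw [← h2]
    rfl
  rw [h1]
  exact m59ac_ramSet_In ρ habs r hr l k τ hτ _ _ i j

end ram

end

end Fermat.Agent.M59
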